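import Fermat.Agent.LLp.ShapeDefs
import Fermat.Agent.ECFormal.Good.Kummer
import Fermat.Agent.ECFormal.Supersingular

/-!
# The peu ramifiée shape holds at good primes and at multiplicative primes with `p ∣ v(Δ)`
-/

set_option autoImplicit false

noncomputable section

namespace Fermat.Agent.LLp

open WeierstrassCurve
open Fermat.Agent.ECFormal (Tors)

variable {W : WeierstrassCurve ℤ} {p : ℕ}

/-- Good reduction, ordinary or supersingular. -/
theorem peuShape_of_good (hp : p.Prime) (hp2 : p ≠ 2) (hgood : ¬ (p : ℤ) ∣ W.Δ) :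
    PeuShape W p := by
  intro A hA
  by_cases hord : ECFormal.OrdinaryAtPlace W p A
  · obtain ⟨P, Q, ζ, η, -, -, h⟩ := ECFormal.exists_kummer_of_good W hp hp2 hA hgood hord
    exact Or.inr ⟨P, Q, ζ, η, h⟩
  · exact Or.inl (ECFormal.eq_bot_or_eq_top W (fun h => hgood (h ▸ dvd_zero _)) hA hp hp2 hgood
      hord)

/-- Multiplicative reduction with `p ∣ v(Δ)`. -/
theorem peuShape_of_mult (hΔ : W.Δ ≠ 0) (hp : p.Prime) (hp2 : p ≠ 2) (hd : (p : ℤ) ∣ W.Δ)
    (hc : ¬ (p : ℤ) ∣ W.c₄) (hv : p ∣ padicValInt p W.Δ) : PeuShape W p := by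
  intro A hA
  obtain ⟨P, Q, ζ, η, -, -, h⟩ := ECFormal.exists_kummer_of_mult W hΔ hp hp2 hA hd hc hv
  exact Or.inr ⟨P, Q, ζ, η, h⟩

/-- Semistable at `p` with `p ∣ v(Δ)`: both cases. -/
theorem peuShape_of_semistable (hΔ : W.Δ ≠ 0) (hp : p.Prime) (hp2 : p ≠ 2)
    (hss : (p : ℤ) ∣ W.Δ → ¬ (p : ℤ) ∣ W.c₄) (hv : p ∣ padicValInt p W.Δ) : PeuShape W p := by
  by_cases hd : (p : ℤ) ∣ W.Δ
  · exact peuShape_of_mult hΔ hp hp2 hd (hss hd) hv
  · exact peuShape_of_good hp hp2 hd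

end Fermat.Agent.LLp
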