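import Fermat.Agent.LLp.DegenSwap
import Fermat.Agent.LLp.Shape
import Fermat.Agent.LR.NonEisenstein
import Fermat.Agent.LL.Residual.ModularLevel
import Fermat.Agent.TraceFn.LevelKill
import Fermat.Prelude.Def_WeierstrassCurve_PeuRamifiee

/-!
# Level lowering at `p`: the assembly

`stmtLowerAtP_of`: from an embedding of `E[p]` in `J₀(N)[p]` (`StmtEmbedding`) and the case killed by
both pushforwards to level `M` (`StmtPushTrivial`) one gets level lowering at `p` for the peu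
ramifiée shape.  The case of a nonzero pushforward is settled here: a residual eigen point of
`J₀(M)[p]` gives a character of the Hecke algebra of level `M`.
-/

set_option autoImplicit false

noncomputable section

namespace Fermat.Agent.LLp

open ModularCurve WeierstrassCurve
open Fermat.Agent.ECFormal (Tors)
open Fermat.Agent.TraceFn (AwayHecke awayGen awayEval awayIncl jHecke)

local notation "ℚ̄" => AlgebraicClosure ℚ
local notation "GalQb" => (AlgebraicClosure ℚ ≃ₐ[ℚ] AlgebraicClosure ℚ)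

/-- `ι` is a Galois equivariant eigen embedding of `E[p]` in `J₀(N)` outside `S`. -/
structure IsEigenEmbedding (W : WeierstrassCurve ℤ) (p N : ℕ) [NeZero N] (S : Finset ℕ)
    (ι : Tors W p →+ JZero N) : Prop where
  inj : Function.Injective ι
  galois : ∀ (σ : GalQb) (P : Tors W p), ι (σ • P) = σ • ι P
  hecke : ∀ ℓ : Nat.Primes, (ℓ : ℕ) ∉ S → ∀ P : Tors W p,
    heckeOperatorBar N ℓ (ι P) = W.apOfModel (ℓ : ℕ) • ι P

/-- An irreducible residual representation of level `N` embeds in `J₀(N)[p]`. -/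
def StmtEmbedding : Prop :=
  ∀ (W : WeierstrassCurve ℤ) (p : ℕ) [Fact p.Prime], p ≠ 2 → W.Δ ≠ 0 →
    W.ModRepIsIrreducible p → ∀ (N : ℕ) [NeZero N], W.IsResiduallyModularOfLevel p N →
      ∃ (S : Finset ℕ) (ι : Tors W p →+ JZero N), IsEigenEmbedding W p N S ι

/-- The case killed by both pushforwards. -/
def StmtPushTrivial : Prop :=
  ∀ (W : WeierstrassCurve ℤ) (p : ℕ) [Fact p.Prime] [NeZero p], p ≠ 2 → W.Δ ≠ 0 →
    W.ModRepIsIrreducible p → PeuShape W p →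
    ∀ (M : ℕ) [NeZero M] [NeZero (M * p)], ¬ p ∣ M →
      (p = 3 → ∃ q : ℕ, q.Prime ∧ q ∣ M ∧ q % 3 = 2) →
      ∀ (S : Finset ℕ) (ι : Tors W p →+ JZero (M * p)), IsEigenEmbedding W p (M * p) S ι →
        (∀ P, pushA ℚ̄ M p (ι P) = 0) → (∀ P, pushB ℚ̄ M p (ι P) = 0) →
        (∃ ℓ : ℕ, ℓ.Prime ∧ ℓ ≠ 2 ∧ ℓ ∉ S ∧ ¬ ℓ ∣ M * p ∧ W.IsGoodPrimeFor ℓ ∧
          (W.apOfModel ℓ : ZMod p) ≠ (ℓ : ZMod p) + 1) →
        W.IsResiduallyModularOfLevel p M

/-- Level lowering at `p` for the peu ramifiée shape. -/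
def StmtLowerAtP : Prop :=
  ∀ (W : WeierstrassCurve ℤ) (p : ℕ) [Fact p.Prime], p ≠ 2 → W.Δ ≠ 0 →
    W.ModRepIsIrreducible p → PeuShape W p →
    ∀ M : ℕ, 0 < M → p ∣ M → ¬ p ^ 2 ∣ M →
      (p = 3 → ∃ q : ℕ, q.Prime ∧ q ∣ M ∧ q % 3 = 2) →
      W.IsResiduallyModularOfLevel p M → W.IsResiduallyModularOfLevel p (M / p)

/-- A good Hecke polynomial acts on an eigen point through the residual eigensystem. -/
theorem jHecke_eq_smul_of_eigen {M p : ℕ} [NeZero M] {S : Finset ℕ} {y : JZero M}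
    (hp : (p : ℤ) • y = 0) (a : ℕ → ℤ)
    (heig : ∀ ℓ : Nat.Primes, (ℓ : ℕ) ∉ S → heckeOperatorBar M ℓ y = a ℓ • y) (u : AwayHecke S) :
    ∃ z : ℤ, jHecke M (awayIncl S u) y = z • y ∧
      MvPolynomial.eval₂Hom (Int.castRingHom (ZMod p)) (fun i => (a i.1 : ZMod p)) u = z := by
  induction u using MvPolynomial.induction_on with
  | C c =>
    refine ⟨c, ?_, MvPolynomial.eval₂Hom_C _ _ _⟩
    rw [show (MvPolynomial.C c : AwayHecke S) = (c : AwayHecke S) from map_intCast _ c,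
      map_intCast, map_intCast]
    rfl
  | add u v hu hv =>
    obtain ⟨z, hz, hz'⟩ := hu
    obtain ⟨w, hw, hw'⟩ := hv
    refine ⟨z + w, ?_, by rw [map_add, hz', hw', Int.cast_add]⟩
    rw [map_add, map_add, add_zsmul, ← hz, ← hw]
    rfl
  | mul_X u i hu =>
    obtain ⟨z, hz, hz'⟩ := hu
    refine ⟨z * a i.1, ?_, by rw [map_mul, hz', MvPolynomial.eval₂Hom_X', Int.cast_mul]⟩
    have hgen : awayIncl S (MvPolynomial.X i) = heckeGen i.1 := MvPolynomial.rename_X _ _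
    have hX : jHecke M (awayIncl S (MvPolynomial.X i)) y = a i.1 • y := by
      have : NeZero (i.1 : ℕ) := ⟨i.1.2.ne_zero⟩
      rw [hgen, TraceFn.jHecke_apply,
        heckeModuleBar_heckeGen_smul (HK.Corr.heckeOperatorsCommuteBar _)]
      exact heig i.1 i.2
    rw [map_mul, map_mul]
    show jHecke M (awayIncl S u) (jHecke M (awayIncl S (MvPolynomial.X i)) y) = _
    rw [hX, map_zsmul, hz, ← mul_zsmul, mul_comm]

/-- A residual eigen point of `J₀(M)[p]` gives residual modularity of level `M`. -/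
theorem isResiduallyModularOfLevel_of_eigenPoint (h29 : CondLevel.ResidualAttachment)
    (W : WeierstrassCurve ℤ) (hΔ : W.Δ ≠ 0) {p M : ℕ} [Fact p.Prime] [NeZero M] {S : Finset ℕ}
    (hMS : ∀ q : ℕ, q.Prime → q ∣ M → q ∈ S) {y : JZero M} (hy : y ≠ 0)
    (hp : (p : ℤ) • y = 0)
    (heig : ∀ ℓ : Nat.Primes, (ℓ : ℕ) ∉ S → heckeOperatorBar M ℓ y = W.apOfModel (ℓ : ℕ) • y) :
    W.IsResiduallyModularOfLevel p M := by
  let χ : AwayHecke S →+* ZMod p :=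
    MvPolynomial.eval₂Hom (Int.castRingHom (ZMod p)) fun i => (W.apOfModel (i.1 : ℕ) : ZMod p)
  have hpow : (p ^ 1) • y = 0 := by rw [pow_one, ← natCast_zsmul]; exact hp
  have hker : RingHom.ker (awayEval M S hMS) ≤ RingHom.ker χ := fun u hu => by
    obtain ⟨z, hz, hz'⟩ := jHecke_eq_smul_of_eigen hp (fun ℓ => W.apOfModel ℓ) heig u
    rw [TraceFn.jHecke_eq_zero_of_awayEval_eq_zero hMS (RingHom.mem_ker.mp hu) hpow] at hz
    refine RingHom.mem_ker.mpr (hz'.trans ((ZMod.intCast_zmod_eq_zero_iff_dvd z p).mpr ?_))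
    by_contra hndvd
    obtain ⟨u', v', huv⟩ :=
      ((Nat.prime_iff_prime_int.mp (Fact.out : p.Prime)).coprime_iff_not_dvd.mpr hndvd)
    apply hy
    calc y = (u' * (p : ℤ) + v' * z) • y := by rw [huv, one_zsmul]
      _ = 0 := by rw [add_zsmul, mul_zsmul, mul_zsmul, hp, ← hz, zsmul_zero, zsmul_zero, add_zero]
  let θ : CuspForm.heckeAlgebra M 2 (↑S : Set ℕ) →+* ZMod p :=
    RingHom.liftOfSurjective (awayEval M S hMS) (TraceFn.awayEval_surjective hMS) ⟨χ, hker⟩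
  refine LL.isResiduallyModularOfLevel_of_heckeHom h29 W hΔ p θ S (fun ℓ h => h)
    fun ℓ hℓ hℓM hℓS _ hℓS' _ => ?_
  rw [← TraceFn.awayEval_awayGen M S hMS hℓ hℓM hℓS]
  refine (RingHom.liftOfRightInverse_comp_apply _ _ _ _ _).trans ?_
  show χ (awayGen S ℓ) = _
  rw [awayGen, dif_pos ⟨hℓ, hℓS'⟩]
  exact MvPolynomial.eval₂Hom_X' _ _ _

/-- **Level lowering at `p`.** -/
theorem stmtLowerAtP_of (h29 : CondLevel.ResidualAttachment) (hemb : StmtEmbedding)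
    (hpush : StmtPushTrivial) : StmtLowerAtP := by
  classical
  intro W p _ hp2 hΔ hirr hshape N hN hpN hp2N hq3 hmod
  have hp : p.Prime := Fact.out
  obtain ⟨M, rfl⟩ := hpN
  rw [Nat.mul_div_cancel_left _ hp.pos]
  rw [mul_comm p M] at hN hp2N hq3 hmod
  have hpM : ¬ p ∣ M := fun h => hp2N (by rw [pow_two]; exact mul_dvd_mul_right h p)
  have : NeZero p := ⟨hp.ne_zero⟩
  have : NeZero M := ⟨fun h => hN.ne' (by rw [h, zero_mul])⟩
  have : NeZero (M * p) := ⟨hN.ne'⟩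
  have hq3' : p = 3 → ∃ q : ℕ, q.Prime ∧ q ∣ M ∧ q % 3 = 2 := fun h3 => by
    obtain ⟨q, hq, hqd, hq2⟩ := hq3 h3
    refine ⟨q, hq, (hq.dvd_mul.mp hqd).resolve_right fun hqp => ?_, hq2⟩
    rw [(Nat.prime_dvd_prime_iff_eq hq hp).mp hqp, h3] at hq2
    omega
  obtain ⟨S₀, ι, hι⟩ := hemb W p hp2 hΔ hirr (M * p) hmod
  set S := S₀ ∪ (M * p).primeFactors ∪ {2} with hS
  have hS₀ : S₀ ⊆ S := fun x hx => by simp [hS, hx]
  have hι' : IsEigenEmbedding W p (M * p) S ι :=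
    ⟨hι.inj, hι.galois, fun ℓ hℓ => hι.hecke ℓ fun h => hℓ (hS₀ h)⟩
  have hNS : ∀ q : ℕ, q.Prime → q ∣ M * p → q ∈ S := fun q hq hd => by
    simp [hS, hq, hd, NeZero.ne M, hp.ne_zero]
  have hkill : ∀ P : Tors W p, (p : ℤ) • ι P = 0 := fun P => by
    rw [← map_zsmul, show (p : ℤ) • P = 0 from Subtype.ext P.2, map_zero]
  have hpoint : ∀ (f : JZero (M * p) →+ JZero M),
      (∀ ℓ : Nat.Primes, ¬ (ℓ : ℕ) ∣ M * p → ∀ x,
        f (heckeOperatorBar (M * p) ℓ x) = heckeOperatorBar M ℓ (f x)) →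
      (∃ P, f (ι P) ≠ 0) → W.IsResiduallyModularOfLevel p M := by
    rintro f hf ⟨P, hP⟩
    refine isResiduallyModularOfLevel_of_eigenPoint h29 W hΔ (S := S)
      (fun q hq hd => hNS q hq (hd.mul_right p)) hP (by rw [← map_zsmul, hkill, map_zero])
      fun ℓ hℓ => ?_
    rw [← hf ℓ (fun hd => hℓ (hNS _ ℓ.2 hd)), hι'.hecke ℓ hℓ, map_zsmul]
  by_cases hA : ∀ P, pushA ℚ̄ M p (ι P) = 0
  swap
  · exact hpoint (pushA ℚ̄ M p) (fun ℓ hℓ x => by
      have : NeZero (ℓ : ℕ) := ⟨ℓ.2.ne_zero⟩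
      simp only [heckeOperatorBar_apply]
      exact pushA_hecke complexEmbedding.toRingHom hp hpM ℓ.2 hℓ x) (not_forall.mp hA)
  by_cases hB : ∀ P, pushB ℚ̄ M p (ι P) = 0
  swap
  · exact hpoint (pushB ℚ̄ M p) (fun ℓ hℓ x => by
      have : NeZero (ℓ : ℕ) := ⟨ℓ.2.ne_zero⟩
      simp only [heckeOperatorBar_apply]
      exact pushB_hecke complexEmbedding.toRingHom hp hpM ℓ.2 hℓ x) (not_forall.mp hB)
  let E : WeierstrassCurve ℚ := W.map (Int.castRingHom ℚ)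
  have : E.IsElliptic := ⟨by
    rw [WeierstrassCurve.map_Δ]
    exact (Int.cast_ne_zero.mpr hΔ).isUnit⟩
  obtain ⟨ℓ, hℓ, hℓS, hgood, -, hne⟩ :=
    LR.exists_prime_apOfModel_ne E (W := W) ⟨1, one_smul _ _⟩ hp hirr S
  exact hpush W p hp2 hΔ hirr hshape M hpM hq3' S ι hι' hA hB
    ⟨ℓ, hℓ, fun h => hℓS (by simp [hS, h]), hℓS, fun hd => hℓS (hNS ℓ hℓ hd), hgood, hne⟩

/-- S39 away from the case `p = 3` without an auxiliary prime. -/
theorem lower_of_peuRamifiee (h : StmtLowerAtP) (W : WeierstrassCurve ℤ) (hΔ : W.Δ ≠ 0) {p : ℕ}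
    (hp : p.Prime) (hp2 : p ≠ 2) (hsemi : (p : ℤ) ∣ W.Δ → ¬ (p : ℤ) ∣ W.c₄)
    (hirr : W.ModRepIsIrreducible p)
    (hfin : (W.map (Int.castRingHom ℚ)).IsPeuRamifieeAt p p) {M : ℕ} (hM : 0 < M) (hpM : p ∣ M)
    (hp2M : ¬ p ^ 2 ∣ M) (hq3 : p = 3 → ∃ q : ℕ, q.Prime ∧ q ∣ M ∧ q % 3 = 2)
    (hmod : W.IsResiduallyModularOfLevel p M) : W.IsResiduallyModularOfLevel p (M / p) := by
  have : Fact p.Prime := ⟨hp⟩
  refine h W p hp2 hΔ hirr (peuShape_of_semistable hΔ hp hp2 hsemi ?_) M hM hpM hp2M hq3 hmod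
  rw [WeierstrassCurve.IsPeuRamifieeAt, WeierstrassCurve.map_Δ, eq_intCast,
    padicValRat.of_int] at hfin
  exact Int.natCast_dvd_natCast.mp hfin

/-- S40 away from the case `p = 3` without an auxiliary prime. -/
theorem lower_of_good (h : StmtLowerAtP) (W : WeierstrassCurve ℤ) (hΔ : W.Δ ≠ 0) {p : ℕ}
    (hp : p.Prime) (hp2 : p ≠ 2) (hgood : W.IsGoodPrimeFor p) (hirr : W.ModRepIsIrreducible p)
    {M : ℕ} (hM : 0 < M) (hpM : p ∣ M) (hp2M : ¬ p ^ 2 ∣ M)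
    (hq3 : p = 3 → ∃ q : ℕ, q.Prime ∧ q ∣ M ∧ q % 3 = 2)
    (hmod : W.IsResiduallyModularOfLevel p M) : W.IsResiduallyModularOfLevel p (M / p) :=
  have : Fact p.Prime := ⟨hp⟩
  h W p hp2 hΔ hirr (peuShape_of_good hp hp2 hgood) M hM hpM hp2M hq3 hmod

end Fermat.Agent.LLp
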