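import Fermat.Agent.LLp.FlatLower
import Fermat.Agent.LLp.Embedding.Stmt
import Fermat.Agent.S29

/-!
# Level lowering at `p` from the push-trivial case alone

The embedding of `E[p]` and the residual attachment are theorems.
-/

set_option autoImplicit false

noncomputable section

namespace Fermat.Agent.LLp

theorem residualAttachment : CondLevel.ResidualAttachment :=
  fun hg _ hp _ _ _ φ => S29.result hg hp φ

/-- Level lowering at `p` from the push-trivial case. -/
theorem stmtLowerAtP_of_pushTrivial (hpush : StmtPushTrivial) : StmtLowerAtP :=
  stmtLowerAtP_of residualAttachment Embedding.stmtEmbedding hpush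

/-- The good case used by the lifting problem. -/
theorem stmt40_of_pushTrivial (hpush : StmtPushTrivial) : R59.Stmt40 :=
  fun W hΔ _ hp hp2 hgood hirr _ hM hpM hp2M hq3 hmod =>
    lower_of_good (stmtLowerAtP_of_pushTrivial hpush) W hΔ hp hp2 hgood hirr hM hpM hp2M hq3 hmod

/-- The input of the strict lifting problem from the push-trivial case. -/
theorem stmtStrictNotFlat_of_pushTrivial (hpush : StmtPushTrivial) :
    R59.TopRep.StmtStrictNotFlat :=
  R59.TopRep.stmtStrictNotFlat_of (stmtFlatLower_of (stmtLowerAtP_of_pushTrivial hpush))

end Fermat.Agent.LLp
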