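import Fermat.Agent.LLp.Core.Main
import Fermat.Agent.LLp.AssemblyInputs
import Fermat.Agent.LL.Residual.ModularTrace
import Fermat.Prelude.Def_FreyPackage_IsConductorLevel

/-!
# Level lowering at `p` for a Frey package
-/

set_option autoImplicit false

noncomputable section

open WeierstrassCurve WeierstrassCurve.Affine WeierstrassCurve.Affine.Point
open FreyPackage

namespace Fermat.Agent.LLp

/-- Level lowering at `p` for a model with peu ramifiée shape. -/
theorem stmtLowerAtP : StmtLowerAtP :=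
  stmtLowerAtP_of_pushTrivial (stmtPushTrivial residualAttachment)

/-- The type of S44. -/
theorem frey_lowering_at_p (P : FreyPackage) {N : ℕ} (hcond : P.IsConductorLevel N)
    (hpN : P.p ∣ N) (hirr : GaloisRepIsIrreducible (K := AlgebraicClosure ℚ) ℚ P.freyCurve P.p)
    (hmod : P.ModularRepOfLevel N) : ∃ M : ℕ, M ∣ N ∧ ¬ P.p ∣ M ∧ P.ModularRepOfLevel M := by
  have : Fact P.p.Prime := ⟨P.pp⟩
  have hp5 := P.hp5
  have hΔ := ECLocal.freyCurveInt_Δ_ne_zero P
  have hirrW : P.freyCurveInt.ModRepIsIrreducible P.p := by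
    unfold WeierstrassCurve.ModRepIsIrreducible
    rw [ECLocal.freyCurveInt_map]
    exact hirr
  have hsq : ¬ P.p ^ 2 ∣ N := hcond.sq_not_dvd P.pp
  obtain ⟨f, 𝔪, hf, h𝔪, hp𝔪, hc⟩ := stmtLowerAtP P.freyCurveInt P.p (by omega) hΔ hirrW
    (peuShape_of_semistable hΔ P.pp (by omega) (ECLocal.isSemistableModel_freyCurveInt P P.p P.pp)
      (by rw [ECLocal.padicValInt_freyCurveInt_Δ P P.pp (by omega)]; exact (dvd_mul_left P.p 2).mul_right _))
    N hcond.pos hpN hsq (fun h3 => by omega)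
    (LL.isResiduallyModularOfLevel_of_frey residualAttachment P hcond.pos.ne' hmod)
  exact ⟨N / P.p, Nat.div_dvd_of_dvd hpN,
    fun h => hsq (by
      rw [sq]
      exact (Nat.dvd_div_iff_mul_dvd hpN).mp h),
    f, P.freyCurveInt, 𝔪, hf, LL.freyCurveInt_isIntegralModelOf P, h𝔪, hp𝔪, hc⟩

end Fermat.Agent.LLp
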