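import Fermat.Agent.LLp.Frey

/-!
# The inputs at `p` of the lifting problem, unconditional

* `stmt40`: level lowering at a good `p` (auxiliary prime in the level for `p = 3`).
* `stmtStrictNotFlat`: the residual representation of a strict problem is not flat at `p`.
-/

set_option autoImplicit false

noncomputable section

namespace Fermat.Agent.LLp

theorem stmt40 : R59.Stmt40 :=
  stmt40_of_pushTrivial (stmtPushTrivial residualAttachment)

theorem stmtStrictNotFlat : R59.TopRep.StmtStrictNotFlat :=
  stmtStrictNotFlat_of_pushTrivial (stmtPushTrivial residualAttachment)

end Fermat.Agent.LLp
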