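import Fermat.Prelude.Def_AlgebraicCurve_DivisorClassGroup
import Mathlib.RingTheory.LaurentSeries
import Fermat.Prelude.Def_ModularCurve_LaurentCoeff
import Mathlib.FieldTheory.IntermediateField.Basic

/-!
# The order at `q = 0` on a field of Laurent series
-/

set_option autoImplicit false

noncomputable section

open AlgebraicCurve

namespace Fermat.Agent.LLp

variable {k : Type*} [Field k] (C : IntermediateField k (LaurentSeries k))

private theorem order_mul_field {x y : C} (hx : x ≠ 0) (hy : y ≠ 0) :
    ((x * y : C) : LaurentSeries k).order =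
      (x : LaurentSeries k).order + (y : LaurentSeries k).order :=
  HahnSeries.order_mul (fun h => hx (Subtype.ext h)) fun h => hy (Subtype.ext h)

private theorem order_inv_field {x : C} (hx : x ≠ 0) :
    ((x⁻¹ : C) : LaurentSeries k).order = -(x : LaurentSeries k).order := by
  have h := order_mul_field C hx (inv_ne_zero hx)
  rw [mul_inv_cancel₀ hx, OneMemClass.coe_one, HahnSeries.order_one] at h
  omega

/-- The elements without pole at `q = 0`. -/
def orderRing : ValuationSubring C where
  carrier := {x | x = 0 ∨ 0 ≤ (x : LaurentSeries k).order}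
  mul_mem' := by
    intro x y hx hy
    rcases eq_or_ne x 0 with rfl | hx0
    · exact Or.inl (zero_mul y)
    rcases eq_or_ne y 0 with rfl | hy0
    · exact Or.inl (mul_zero x)
    refine Or.inr ?_
    rw [order_mul_field C hx0 hy0]
    have := hx.resolve_left hx0
    have := hy.resolve_left hy0
    omega
  one_mem' := Or.inr (by simp)
  add_mem' := by
    intro x y hx hy
    rcases eq_or_ne x 0 with rfl | hx0
    · rwa [zero_add]
    rcases eq_or_ne y 0 with rfl | hy0
    · rwa [add_zero]
    by_cases h : x + y = 0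
    · exact Or.inl h
    refine Or.inr (le_trans (le_min (hx.resolve_left hx0) (hy.resolve_left hy0)) ?_)
    exact HahnSeries.min_order_le_order_add fun h0 => h (Subtype.ext h0)
  zero_mem' := Or.inl rfl
  neg_mem' := by
    intro x hx
    rcases eq_or_ne x 0 with rfl | hx0
    · exact Or.inl neg_zero
    refine Or.inr ?_
    rw [NegMemClass.coe_neg, HahnSeries.order_neg]
    exact hx.resolve_left hx0
  mem_or_inv_mem' := by
    intro x
    rcases eq_or_ne x 0 with rfl | hx0
    · exact Or.inl (Or.inl rfl)
    rcases le_total 0 (x : LaurentSeries k).order with h | h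
    · exact Or.inl (Or.inr h)
    · refine Or.inr (Or.inr ?_)
      rw [order_inv_field C hx0]
      omega

theorem mem_orderRing {x : C} : x ∈ orderRing C ↔ x = 0 ∨ 0 ≤ (x : LaurentSeries k).order :=
  Iff.rfl

theorem isPrincipalIdealRing_orderRing : IsPrincipalIdealRing (orderRing C) := by
  refine ⟨fun I => ?_⟩
  by_cases hI : I = ⊥
  · exact ⟨⟨0, by rw [hI]; simp⟩⟩
  classical
  obtain ⟨x₀, hx₀, hx₀0⟩ := Submodule.exists_mem_ne_zero_of_ne_bot hI
  have hne : ∀ {x : orderRing C}, x ≠ 0 → (x : C) ≠ 0 := fun hx h => hx (Subtype.ext h)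
  have hex : ∃ n : ℕ, ∃ x ∈ I, x ≠ 0 ∧ ((x : C) : LaurentSeries k).order = n :=
    ⟨((x₀ : C) : LaurentSeries k).order.toNat, x₀, hx₀, hx₀0,
      (Int.toNat_of_nonneg (((mem_orderRing C).mp x₀.2).resolve_left (hne hx₀0))).symm⟩
  obtain ⟨x, hxI, hx0, hxn⟩ := Nat.find_spec hex
  refine ⟨⟨x, le_antisymm (fun y hy => ?_) (Ideal.span_le.mpr (Set.singleton_subset_iff.mpr hxI))⟩⟩
  rcases eq_or_ne y 0 with rfl | hy0
  · exact zero_mem _
  have hle : Nat.find hex ≤ ((y : C) : LaurentSeries k).order.toNat :=
    Nat.find_le ⟨y, hy, hy0,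
      (Int.toNat_of_nonneg (((mem_orderRing C).mp y.2).resolve_left (hne hy0))).symm⟩
  have hy' := ((mem_orderRing C).mp y.2).resolve_left (hne hy0)
  have hmem : (y : C) * (x : C)⁻¹ ∈ orderRing C := Or.inr (by
    rw [order_mul_field C (hne hy0) (inv_ne_zero (hne hx0)), order_inv_field C (hne hx0)]
    omega)
  exact Ideal.mem_span_singleton'.mpr
    ⟨⟨_, hmem⟩, Subtype.ext (inv_mul_cancel_right₀ (hne hx0) (y : C))⟩

/-- The place at `q = 0`. -/
def orderPlace {x : C} (hx : (x : LaurentSeries k).order ≠ 0) : Place k C where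
  toValuationSubring := orderRing C
  algebraMap_mem' a := by
    rcases eq_or_ne a 0 with rfl | ha
    · exact Or.inl (map_zero _)
    refine Or.inr ?_
    show 0 ≤ (algebraMap k (LaurentSeries k) a).order
    rw [ModularCurve.algebraMap_laurentSeries_eq_single, HahnSeries.order_single ha]
  ne_top' h := by
    have hx0 : x ≠ 0 := fun h0 => hx (by rw [h0, ZeroMemClass.coe_zero, HahnSeries.order_zero])
    have h1 : x ∈ orderRing C := h ▸ ValuationSubring.mem_top x
    have h2 : x⁻¹ ∈ orderRing C := h ▸ ValuationSubring.mem_top x⁻¹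
    have := h1.resolve_left hx0
    have := h2.resolve_left (inv_ne_zero hx0)
    rw [order_inv_field C hx0] at this
    omega
  isPrincipalIdealRing' := isPrincipalIdealRing_orderRing C

/-- Orders divisible by `n` at every place give an order divisible by `n` at `q = 0`. -/
theorem dvd_order_of_forall_dvd_ord {n : ℤ} {x c : C} (hx : (x : LaurentSeries k).order ≠ 0)
    (hc : c ≠ 0) (h : ∀ v : Place k C, n ∣ v.ord c) : n ∣ (c : LaurentSeries k).order := by
  set v := orderPlace C hx
  obtain ⟨π, hπ⟩ := IsDiscreteValuationRing.exists_irreducible v.toValuationSubring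
  obtain ⟨u, hu⟩ := v.exists_unit_mul_zpow hc hπ
  have hπ0 : (π : C) ≠ 0 := by simpa [ZeroMemClass.coe_eq_zero] using hπ.ne_zero
  have hu0 : ((u : v.toValuationSubring) : C) ≠ 0 := by simp
  have hinv : ((↑u⁻¹ : v.toValuationSubring) : C) = ((u : v.toValuationSubring) : C)⁻¹ :=
    eq_inv_of_mul_eq_one_right (by rw [← MulMemClass.coe_mul, u.mul_inv]; rfl)
  have hu1 : (((u : v.toValuationSubring) : C) : LaurentSeries k).order = 0 := by
    have h1 := ((mem_orderRing C).mp (u : v.toValuationSubring).2).resolve_left hu0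
    have h2 := ((mem_orderRing C).mp (↑u⁻¹ : v.toValuationSubring).2).resolve_left
      (hinv ▸ inv_ne_zero hu0)
    rw [hinv, order_inv_field C hu0] at h2
    omega
  have hzpow : ∀ (y : C), y ≠ 0 → ∀ j : ℤ,
      ((y ^ j : C) : LaurentSeries k).order = j * (y : LaurentSeries k).order := by
    intro y hy j
    induction j using Int.induction_on with
    | zero => simp
    | succ i ih => rw [zpow_add_one₀ hy, order_mul_field C (zpow_ne_zero _ hy) hy, ih]; ring
    | pred i ih =>
      rw [zpow_sub_one₀ hy, order_mul_field C (zpow_ne_zero _ hy) (inv_ne_zero hy), ih,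
        order_inv_field C hy]
      ring
  rw [hu, order_mul_field C hu0 (zpow_ne_zero _ hπ0), hu1, zero_add, hzpow _ hπ0]
  exact (h v).mul_right _

end Fermat.Agent.LLp
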