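import Fermat.Agent.LLp.DegenSwap
import Fermat.Prelude.Def_GaloisRep_ComplexConjugation

/-!
# The swap of level `M p`, norm series, and functions attached to `p`-torsion classes
-/

set_option autoImplicit false
set_option linter.unusedVariables false
set_option linter.unusedSectionVars false
set_option linter.style.haveILetI false

noncomputable section

namespace Fermat.Agent.LLp

open AlgebraicCurve ModularCurve HK.Corr
open Fermat.Agent.Igusa (qScale)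

local notation "ℚ̄" => AlgebraicClosure ℚ

variable (M p : ℕ) [NeZero M] [NeZero p]

theorem exists_isSwap (hp : p.Prime) (hpM : ¬ p ∣ M) :
    ∃ w : modField ℚ̄ (M * p) ≃ₐ[ℚ̄] modField ℚ̄ (M * p), IsSwap ℚ̄ M p w :=
  exists_isSwap_of_embedding M p complexEmbedding.toRingHom hp hpM

variable {M p} {w : modField ℚ̄ (M * p) ≃ₐ[ℚ̄] modField ℚ̄ (M * p)}

theorem qExpand_heckeFun {N ℓ : ℕ} [NeZero N] [NeZero ℓ] (hℓ : ℓ.Prime) (hℓN : ¬ ℓ ∣ N)
    (ζ : ℚ̄ˣ) (hζ : IsPrimitiveRoot ζ ℓ) (f : modField ℚ̄ N) :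
    qExpand ℚ̄ ℓ ↑(heckeFun ℚ̄ N ℓ f) =
      qExpand ℚ̄ (ℓ * ℓ) (f : LaurentSeries ℚ̄) *
        ∏ i : Fin ℓ, qScale (ζ ^ (i : ℕ)) (f : LaurentSeries ℚ̄) :=
  qExpand_heckeFun_of_embedding complexEmbedding.toRingHom hℓ hℓN ζ hζ f

theorem IsSwap.heckeFun (hw : IsSwap ℚ̄ M p w) (hp : p.Prime) (hpM : ¬ p ∣ M) {ℓ : ℕ} [NeZero ℓ]
    (hℓ : ℓ.Prime) (hℓN : ¬ ℓ ∣ M * p) (f : modField ℚ̄ (M * p)) :
    w (LLp.heckeFun ℚ̄ (M * p) ℓ f) = LLp.heckeFun ℚ̄ (M * p) ℓ (w f) :=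
  hw.heckeFun_of_embedding complexEmbedding.toRingHom hp hpM hℓ hℓN f

section ClassFun

variable {N n : ℕ} [NeZero N]

theorem exists_isClassFun {P : JZero N} (hn : (n : ℤ) • P = 0) :
    ∃ f : modField ℚ̄ N, IsClassFun n P f := by
  exact IsClassFun.exists_of_torsion hn

theorem IsClassFun.mul {P Q : JZero N} {f g : modField ℚ̄ N} (hf : IsClassFun n P f)
    (hg : IsClassFun n Q g) : IsClassFun n (P + Q) (f * g) := by
  exact hf.mul_aux hg

theorem IsClassFun.pow {P : JZero N} {f : modField ℚ̄ N} (hf : IsClassFun n P f) (m : ℕ) :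
    IsClassFun n (m • P) (f ^ m) := by
  exact hf.pow_aux m

theorem IsClassFun.inv {P : JZero N} {f : modField ℚ̄ N} (hf : IsClassFun n P f) :
    IsClassFun n (-P) f⁻¹ := by
  exact hf.inv_aux

theorem isClassFun_zero_iff (hn : n ≠ 0) {f : modField ℚ̄ N} :
    IsClassFun n (0 : JZero N) f ↔ ∃ g : modField ℚ̄ N, g ≠ 0 ∧ f = g ^ n := by
  haveI := isFunctionField_modField (degreeInput ℚ̄) N
  haveI := hasPrincipalDivisors_level ℚ̄ N
  exact isClassFun_zero_iff_aux hn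

theorem IsClassFun.unique (hn : n ≠ 0) {P : JZero N} {f f' : modField ℚ̄ N}
    (hf : IsClassFun n P f) (hf' : IsClassFun n P f') :
    ∃ g : modField ℚ̄ N, g ≠ 0 ∧ f' = f * g ^ n := by
  haveI := isFunctionField_modField (degreeInput ℚ̄) N
  haveI := hasPrincipalDivisors_level ℚ̄ N
  exact hf.unique_aux hn hf' 

theorem IsClassFun.galois {P : JZero N} {f : modField ℚ̄ N} (hf : IsClassFun n P f)
    (σ : ℚ̄ ≃ₐ[ℚ] ℚ̄) : IsClassFun n (σ • P) (arithmeticRingAut _ σ f) := by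
  exact hf.smul_aux (arithmeticGalois (modularFunctionFieldFull N) σ)

theorem IsClassFun.hecke {P : JZero N} {f : modField ℚ̄ N} (hf : IsClassFun n P f)
    (ℓ : Nat.Primes) [NeZero (ℓ : ℕ)] :
    IsClassFun n (heckeOperatorBar N ℓ P) (LLp.heckeFun ℚ̄ N (ℓ : ℕ) f) := by
  rw [heckeOperatorBar_apply]
  exact hf.heckeAlong

end ClassFun

/-- The two pushforwards to level `M`, commuting with Galois and with `T_ℓ` for `ℓ ∤ M p`. -/
theorem exists_pushforwards (hp : p.Prime) (hpM : ¬ p ∣ M) :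
    ∃ pa pb : JZero (M * p) →+ JZero M,
      (∀ (n : ℕ) (P : JZero (M * p)) (f : modField ℚ̄ (M * p)), IsClassFun n P f →
        IsClassFun n (pa P) (normAlong (heckeAlphaBar ℚ̄ M p) f) ∧
        IsClassFun n (pb P) (normAlong (heckeBetaBar ℚ̄ M p) f)) ∧
      (∀ (σ : ℚ̄ ≃ₐ[ℚ] ℚ̄) P, pa (σ • P) = σ • pa P ∧ pb (σ • P) = σ • pb P) ∧
      ∀ (ℓ : Nat.Primes), ¬ (ℓ : ℕ) ∣ M * p → ∀ P,
        pa (heckeOperatorBar (M * p) ℓ P) = heckeOperatorBar M ℓ (pa P) ∧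
        pb (heckeOperatorBar (M * p) ℓ P) = heckeOperatorBar M ℓ (pb P) := by
  refine ⟨pushA ℚ̄ M p, pushB ℚ̄ M p,
    fun n P f hf => ⟨hf.pushforward _ _ _ _, hf.pushforward _ _ _ _⟩,
    fun σ P => ⟨pushPic0_smul _ _ _ _ (intertwines_heckeAlphaBar M p σ) P,
      pushPic0_smul _ _ _ _ (intertwines_heckeBetaBar M p σ) P⟩, fun ℓ hℓN P => ?_⟩
  haveI : NeZero (ℓ : ℕ) := ⟨ℓ.2.ne_zero⟩
  simp only [heckeOperatorBar_apply]
  exact ⟨pushA_hecke complexEmbedding.toRingHom hp hpM ℓ.2 hℓN P,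
    pushB_hecke complexEmbedding.toRingHom hp hpM ℓ.2 hℓN P⟩

end Fermat.Agent.LLp
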