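import Mathlib.RingTheory.LaurentSeries
import Fermat.Prelude.Def_ModularCurve_LaurentCoeff
import Fermat.Agent.Igusa.Series

/-!
# Leading coefficients of Laurent series
-/

set_option autoImplicit false

noncomputable section

namespace Fermat.Agent.LLp

open HahnSeries ModularCurve
open Fermat.Agent.Igusa (qScale)

variable {R S : Type*} [Field R] [Field S]

/-- The leading coefficient as a multiplicative map. -/
def leadHom (R : Type*) [Field R] : LaurentSeries R →*₀ R where
  toFun x := x.leadingCoeff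
  map_zero' := HahnSeries.leadingCoeff_zero
  map_one' := HahnSeries.leadingCoeff_one
  map_mul' _ _ := HahnSeries.leadingCoeff_mul _ _

theorem leadHom_apply (x : LaurentSeries R) : leadHom R x = x.leadingCoeff := rfl

theorem leadHom_ne_zero {x : LaurentSeries R} (hx : x ≠ 0) : leadHom R x ≠ 0 := by
  rwa [leadHom_apply, ne_eq, HahnSeries.leadingCoeff_eq_zero]

theorem leadHom_algebraMap (c : R) : leadHom R (algebraMap R (LaurentSeries R) c) = c := by
  rw [algebraMap_laurentSeries_eq_single, leadHom_apply, HahnSeries.leadingCoeff_of_single]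

theorem order_eq_of_coeff {x : LaurentSeries R} {m : ℤ} (h : x.coeff m ≠ 0)
    (hlt : ∀ n < m, x.coeff n = 0) : x.order = m := by
  refine le_antisymm (HahnSeries.order_le_of_coeff_ne_zero h) (not_lt.mp fun hl => ?_)
  exact HahnSeries.coeff_order_eq_zero.not.mpr (HahnSeries.ne_zero_of_coeff_ne_zero h) (hlt _ hl)

theorem leadHom_eq_of_coeff {x : LaurentSeries R} {m : ℤ} (h : x.coeff m ≠ 0)
    (hlt : ∀ n < m, x.coeff n = 0) : leadHom R x = x.coeff m := by
  rw [leadHom_apply, HahnSeries.leadingCoeff_eq, order_eq_of_coeff h hlt]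

theorem leadHom_coeffMap (φ : R →+* S) (x : LaurentSeries R) :
    leadHom S (coeffMap φ x) = φ (leadHom R x) := by
  rcases eq_or_ne x 0 with rfl | hx
  · simp
  have h := HahnSeries.coeff_order_eq_zero.not.mpr hx
  rw [leadHom_eq_of_coeff (m := x.order) (by rwa [coeffMap_coeff, ne_eq, map_eq_zero])
    fun n hn => by rw [coeffMap_coeff, HahnSeries.coeff_eq_zero_of_lt_order hn, map_zero],
    coeffMap_coeff, leadHom_apply, HahnSeries.leadingCoeff_eq]

theorem order_qExpand (d : ℕ) [NeZero d] {x : LaurentSeries R} (hx : x ≠ 0) :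
    (qExpand R d x).order = (d : ℤ) * x.order := by
  have hd : (0 : ℤ) < d := by exact_mod_cast Nat.pos_of_ne_zero (NeZero.ne d)
  refine order_eq_of_coeff (by rw [qExpand_coeff_mul]; exact HahnSeries.coeff_order_eq_zero.not.mpr hx)
    fun n hn => ?_
  by_cases hdn : (d : ℤ) ∣ n
  · obtain ⟨k, rfl⟩ := hdn
    rw [qExpand_coeff_mul, HahnSeries.coeff_eq_zero_of_lt_order (lt_of_mul_lt_mul_left hn hd.le)]
  · exact qExpand_coeff_of_not_dvd d x hdn

theorem leadHom_qExpand (d : ℕ) [NeZero d] (x : LaurentSeries R) :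
    leadHom R (qExpand R d x) = leadHom R x := by
  rcases eq_or_ne x 0 with rfl | hx
  · simp
  rw [leadHom_apply, HahnSeries.leadingCoeff_eq, order_qExpand d hx, qExpand_coeff_mul,
    leadHom_apply, HahnSeries.leadingCoeff_eq]

theorem leadHom_qScale (u : Rˣ) (x : LaurentSeries R) :
    leadHom R (qScale u x) = ((u ^ x.order : Rˣ) : R) * leadHom R x := by
  rcases eq_or_ne x 0 with rfl | hx
  · simp
  have h : (qScale u x).coeff x.order ≠ 0 := by
    rw [Igusa.qScale_coeff]
    exact mul_ne_zero (Units.ne_zero _) (HahnSeries.coeff_order_eq_zero.not.mpr hx)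
  rw [leadHom_eq_of_coeff h
    fun n hn => by rw [Igusa.qScale_coeff, HahnSeries.coeff_eq_zero_of_lt_order hn, mul_zero],
    Igusa.qScale_coeff, leadHom_apply, HahnSeries.leadingCoeff_eq]

theorem prod_qScale_eq_pow {ℓ : ℕ} (hℓ : Odd ℓ) {ζ : Rˣ} (hζ : ζ ^ ℓ = 1) (x : LaurentSeries R) :
    ∏ i : Fin ℓ, leadHom R (qScale (ζ ^ (i : ℕ)) x) = leadHom R x ^ ℓ := by
  simp only [leadHom_qScale, Finset.prod_mul_distrib, Finset.prod_const, Finset.card_univ,
    Fintype.card_fin]
  have h : ∏ i : Fin ℓ, (ζ ^ (i : ℕ)) ^ x.order = 1 := by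
    rw [Finset.prod_zpow, Fin.prod_univ_eq_prod_range (fun i => ζ ^ i) ℓ, Finset.prod_pow_eq_pow_sum]
    obtain ⟨t, ht⟩ := hℓ
    have hsum : ∑ i ∈ Finset.range ℓ, i = ℓ * t := by
      rw [Finset.sum_range_id, ht, Nat.add_sub_cancel, mul_comm 2 t, ← mul_assoc,
        Nat.mul_div_cancel _ two_pos]
    rw [hsum, pow_mul, hζ, one_pow, one_zpow]
  rw [← Units.coe_prod, h, Units.val_one, one_mul]

/-- A root of unity with leading coefficient one is one. -/
theorem eq_one_of_pow_eq_one {x : LaurentSeries R} {n : ℕ} (hn : (n : R) ≠ 0) (h : x ^ n = 1)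
    (h1 : leadHom R x = 1) : x = 1 := by
  have hn0 : n ≠ 0 := fun h0 => hn (by rw [h0, Nat.cast_zero])
  have hx : x ≠ 0 := fun h0 => by
    rw [h0, map_zero] at h1
    exact zero_ne_one h1
  have ho : x.order = 0 := by
    have := congrArg HahnSeries.order h
    rw [HahnSeries.order_pow, HahnSeries.order_one, nsmul_eq_mul] at this
    exact (mul_eq_zero.mp this).resolve_left (by exact_mod_cast hn0)
  have hsum : ∑ i ∈ Finset.range n, x ^ i ≠ 0 := fun h0 => hn (by
    have hc := congrArg (fun y : LaurentSeries R => y.coeff 0) h0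
    simp only [HahnSeries.coeff_sum, HahnSeries.coeff_zero] at hc
    rw [Finset.sum_congr rfl (g := fun _ => (1 : R)) fun i _ => ?_, Finset.sum_const,
      Finset.card_range, nsmul_eq_mul, mul_one] at hc
    · exact hc
    · have ho' : (x ^ i).order = 0 := by rw [HahnSeries.order_pow, ho, smul_zero]
      have hl := map_pow (leadHom R) x i
      rw [h1, one_pow, leadHom_apply, HahnSeries.leadingCoeff_eq, ho'] at hl
      exact hl)
  have := geom_sum_mul x n
  rw [h, sub_self, mul_eq_zero] at this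
  exact sub_eq_zero.mp (this.resolve_left hsum)

theorem eq_of_pow_eq {x y : LaurentSeries R} {n : ℕ} (hn : (n : R) ≠ 0) (hy : y ≠ 0)
    (h : x ^ n = y ^ n) (h1 : leadHom R x = leadHom R y) : x = y := by
  refine div_eq_one_iff_eq hy |>.mp (eq_one_of_pow_eq_one hn ?_ ?_)
  · rw [div_pow, h, div_self (pow_ne_zero _ hy)]
  · rw [map_div₀, h1, div_self (leadHom_ne_zero hy)]

/-- Splitting off the leading monomial. -/
theorem exists_split {x : LaurentSeries R} (hx : x ≠ 0) :
    ∃ u : PowerSeries R, PowerSeries.constantCoeff u = 1 ∧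
      x = single x.order (leadHom R x) * ofPowerSeries ℤ R u := by
  have hc : leadHom R x ≠ 0 := leadHom_ne_zero hx
  refine ⟨PowerSeries.C (leadHom R x)⁻¹ * x.powerSeriesPart, ?_, ?_⟩
  · rw [map_mul, PowerSeries.constantCoeff_C, ← PowerSeries.coeff_zero_eq_constantCoeff_apply,
      LaurentSeries.powerSeriesPart_coeff, Nat.cast_zero, add_zero, ← HahnSeries.leadingCoeff_eq,
      ← leadHom_apply, inv_mul_cancel₀ hc]
  · rw [map_mul, HahnSeries.ofPowerSeries_C, ← mul_assoc, HahnSeries.C_apply, single_mul_single,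
      add_zero, mul_inv_cancel₀ hc]
    exact (LaurentSeries.single_order_mul_powerSeriesPart x).symm

end Fermat.Agent.LLp
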