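import Fermat.Agent.LLp.Degen
import Fermat.Agent.LLp.DescentLead

/-!
# Rational class functions and the leading coefficient at the second cusp
-/

set_option autoImplicit false
set_option linter.style.haveILetI false

noncomputable section

namespace Fermat.Agent.LLp

open AlgebraicCurve ModularCurve HK.Corr

local notation "ℚ̄" => AlgebraicClosure ℚ

/-- The leading coefficient on the function field. -/
def fieldLead (N : ℕ) : modField ℚ̄ N →*₀ ℚ̄ :=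
  (leadHom ℚ̄).comp (modField ℚ̄ N).val.toRingHom.toMonoidWithZeroHom

theorem fieldLead_apply {N : ℕ} (x : modField ℚ̄ N) :
    fieldLead N x = (x : LaurentSeries ℚ̄).leadingCoeff := rfl

theorem fieldLead_algebraMap {N : ℕ} (c : ℚ̄) : fieldLead N (algebraMap ℚ̄ _ c) = c :=
  leadHom_algebraMap c

theorem fieldLead_arith {N : ℕ} (s : ℚ̄ ≃ₐ[ℚ] ℚ̄) (x : modField ℚ̄ N) :
    fieldLead N (arithmeticRingAut (modularFunctionFieldFull N) s x) = s (fieldLead N x) := by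
  show leadHom ℚ̄ (coeffMap _ _) = _
  rw [leadHom_coeffMap]
  rfl

theorem arith_mul {N : ℕ} (s t : ℚ̄ ≃ₐ[ℚ] ℚ̄) (x : modField ℚ̄ N) :
    arithmeticRingAut (modularFunctionFieldFull N) (s * t) x =
      arithmeticRingAut (modularFunctionFieldFull N) s
        (arithmeticRingAut (modularFunctionFieldFull N) t x) := by
  have h := mul_smul (arithmeticGalois (modularFunctionFieldFull N) s)
    (arithmeticGalois (modularFunctionFieldFull N) t) x
  rw [← map_mul] at h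
  exact h

theorem eq_of_pow_eq_field {N n : ℕ} (hn : n ≠ 0) {x y : modField ℚ̄ N} (hy : y ≠ 0)
    (h : x ^ n = y ^ n) (h1 : fieldLead N x = fieldLead N y) : x = y :=
  Subtype.ext (eq_of_pow_eq (n := n) (Nat.cast_ne_zero.mpr hn)
    (fun h0 => hy (Subtype.ext h0)) (by simpa using congrArg Subtype.val h) h1)

theorem exists_normalised_root {N n : ℕ} (hn : n ≠ 0) {g : modField ℚ̄ N} (hg : g ≠ 0)
    (h : fieldLead N g ^ n = 1) :
    ∃ g' : modField ℚ̄ N, g' ≠ 0 ∧ fieldLead N g' = 1 ∧ g' ^ n = g ^ n := by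
  have hc : fieldLead N g ≠ 0 := fun h0 => by rw [h0, zero_pow hn] at h; exact zero_ne_one h
  refine ⟨algebraMap ℚ̄ _ (fieldLead N g)⁻¹ * g, mul_ne_zero (by simpa using hc) hg, ?_, ?_⟩
  · rw [map_mul, fieldLead_algebraMap, inv_mul_cancel₀ hc]
  · rw [mul_pow, ← map_pow, inv_pow, h, inv_one, map_one, one_mul]

/-- A modular function has coefficients in a number field. -/
theorem exists_finite_fixing {N : ℕ} [NeZero N] (f : modField ℚ̄ N) :
    ∃ K : IntermediateField ℚ ℚ̄, FiniteDimensional ℚ K ∧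
      ∀ s : ℚ̄ ≃ₐ[ℚ] ℚ̄, (∀ x ∈ K, s x = x) →
        arithmeticRingAut (modularFunctionFieldFull N) s f = f := by
  obtain ⟨x, hx⟩ := f
  suffices ∃ K : IntermediateField ℚ ℚ̄, FiniteDimensional ℚ K ∧
      ∀ s : ℚ̄ ≃ₐ[ℚ] ℚ̄, (∀ z ∈ K, s z = z) → coeffMap (s : ℚ̄ →+* ℚ̄) x = x by
    obtain ⟨K, hK, h⟩ := this
    exact ⟨K, hK, fun s hs => Subtype.ext (h s hs)⟩
  rw [RED.Spec.modField_eq_adjoin_genSer] at hx
  have sup : ∀ {y z t : LaurentSeries ℚ̄},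
      (∀ s : ℚ̄ ≃ₐ[ℚ] ℚ̄, coeffMap (s : ℚ̄ →+* ℚ̄) y = y → coeffMap (s : ℚ̄ →+* ℚ̄) z = z →
        coeffMap (s : ℚ̄ →+* ℚ̄) t = t) →
      (∃ K : IntermediateField ℚ ℚ̄, FiniteDimensional ℚ K ∧
        ∀ s : ℚ̄ ≃ₐ[ℚ] ℚ̄, (∀ w ∈ K, s w = w) → coeffMap (s : ℚ̄ →+* ℚ̄) y = y) →
      (∃ K : IntermediateField ℚ ℚ̄, FiniteDimensional ℚ K ∧
        ∀ s : ℚ̄ ≃ₐ[ℚ] ℚ̄, (∀ w ∈ K, s w = w) → coeffMap (s : ℚ̄ →+* ℚ̄) z = z) →
      ∃ K : IntermediateField ℚ ℚ̄, FiniteDimensional ℚ K ∧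
        ∀ s : ℚ̄ ≃ₐ[ℚ] ℚ̄, (∀ w ∈ K, s w = w) → coeffMap (s : ℚ̄ →+* ℚ̄) t = t := by
    rintro y z t h ⟨K, hK, hy⟩ ⟨K', hK', hz⟩
    haveI := hK
    haveI := hK'
    exact ⟨K ⊔ K', inferInstance, fun s hs => h s (hy s fun w hw => hs w (le_sup_left (b := K') hw))
      (hz s fun w hw => hs w (le_sup_right (a := K) hw))⟩
  induction hx using IntermediateField.adjoin_induction with
  | mem y hy =>
    obtain ⟨d, rfl⟩ := hy
    exact ⟨⊥, inferInstance, fun s _ => RED.Spec.coeffMap_genSer _ d⟩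
  | algebraMap c =>
    refine ⟨IntermediateField.adjoin ℚ {c}, IntermediateField.adjoin.finiteDimensional
      ((AlgebraicClosure.isAlgebraic ℚ).isAlgebraic c).isIntegral, fun s hs => ?_⟩
    rw [coeffMap_algebraMap]
    exact congrArg _ (hs c (IntermediateField.mem_adjoin_simple_self ℚ c))
  | add y z _ _ hy hz => exact sup (fun s h h' => by rw [map_add, h, h']) hy hz
  | inv y _ hy => exact sup (z := y) (fun s h _ => by rw [map_inv₀, h]) hy hy
  | mul y z _ _ hy hz => exact sup (fun s h h' => by rw [map_mul, h, h']) hy hz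

/-- A class fixed by `H` has a class function fixed by `H` with leading coefficient one. -/
theorem exists_fixed_classFun {N n : ℕ} [NeZero N] (hn : n ≠ 0) (H : Subgroup (ℚ̄ ≃ₐ[ℚ] ℚ̄))
    {P : JZero N} (hP : (n : ℤ) • P = 0) (hfix : ∀ s ∈ H, s • P = P) :
    ∃ f : modField ℚ̄ N, IsClassFun n P f ∧ (f : LaurentSeries ℚ̄).leadingCoeff = 1 ∧
      ∀ s ∈ H, arithmeticRingAut (modularFunctionFieldFull N) s f = f := by
  classical
  obtain ⟨f₀, hf₀⟩ := exists_isClassFun hP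
  set c₀ := fieldLead N f₀ with hc₀
  have hc0 : c₀ ≠ 0 := fun h => hf₀.1 (by
    have : (f₀ : LaurentSeries ℚ̄).leadingCoeff = 0 := h
    exact Subtype.ext (HahnSeries.leadingCoeff_eq_zero.mp this))
  obtain ⟨d, hd⟩ := IsAlgClosed.exists_pow_nat_eq c₀⁻¹ (Nat.pos_of_ne_zero hn)
  have hd0 : d ≠ 0 := fun h => inv_ne_zero hc0 (by rw [← hd, h, zero_pow hn])
  have hfA : IsClassFun n P (f₀ * algebraMap ℚ̄ _ d ^ n) := by
    simpa using hf₀.mul ((isClassFun_zero_iff hn).mpr ⟨algebraMap ℚ̄ _ d, by simpa using hd0, rfl⟩)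
  set f := f₀ * algebraMap ℚ̄ (modField ℚ̄ N) d ^ n with hfdef
  have hlf : fieldLead N f = 1 := by
    rw [hfdef, map_mul, map_pow, fieldLead_algebraMap, hd, ← hc₀, mul_inv_cancel₀ hc0]
  -- the cocycle
  have hex : ∀ s : H, ∃ g : modField ℚ̄ N, g ≠ 0 ∧ fieldLead N g = 1 ∧
      arithmeticRingAut (modularFunctionFieldFull N) s.1 f = f * g ^ n := by
    intro s
    have hs := hfA.galois s.1
    rw [hfix s.1 s.2] at hs
    obtain ⟨g, hg, e⟩ := hfA.unique hn hs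
    have hl := congrArg (fieldLead N) e
    rw [fieldLead_arith, hlf, map_one, map_mul, hlf, one_mul, map_pow] at hl
    obtain ⟨g', hg', hl', e'⟩ := exists_normalised_root hn hg hl.symm
    exact ⟨g', hg', hl', by rw [e', e]⟩
  choose G hG0 hG1 hGf using hex
  have hGu : ∀ (s : H) (x : modField ℚ̄ N), fieldLead N x = 1 →
      arithmeticRingAut (modularFunctionFieldFull N) s.1 f = f * x ^ n → x = G s := fun s x hx e =>
    eq_of_pow_eq_field hn (hG0 s) (mul_left_cancel₀ hfA.1 (e.symm.trans (hGf s)))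
      (hx.trans (hG1 s).symm)
  have hGmul : ∀ s t : H, G (s * t) =
      G s * arithmeticRingAut (modularFunctionFieldFull N) s.1 (G t) := fun s t => by
    refine (hGu _ _ ?_ ?_).symm
    · rw [map_mul, hG1, fieldLead_arith, hG1, map_one, one_mul]
    · rw [Subgroup.coe_mul, arith_mul, hGf t, map_mul, map_pow, hGf s, mul_pow, mul_assoc]
  -- it factors through a finite set of embeddings
  obtain ⟨K, hK, hKf⟩ := exists_finite_fixing f
  let r : H → (K →ₐ[ℚ] ℚ̄) := fun s => (s.1 : ℚ̄ →ₐ[ℚ] ℚ̄).comp K.val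
  have hr : ∀ s t : H, r s = r t → G s = G t := fun s t hst => by
    refine hGu t _ (hG1 s) ?_
    have hfx := hKf (t.1⁻¹ * s.1) fun z hz => by
      have hz' : s.1 z = t.1 z := DFunLike.congr_fun hst ⟨z, hz⟩
      rw [AlgEquiv.mul_apply, hz', AlgEquiv.aut_inv, AlgEquiv.symm_apply_apply]
    rw [← hGf s, ← congrArg (arithmeticRingAut (modularFunctionFieldFull N) t.1) hfx,
      ← arith_mul, mul_inv_cancel_left]
  haveI : Finite (K →ₐ[ℚ] ℚ̄) := Finite.of_fintype _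
  let T : Finset (K →ₐ[ℚ] ℚ̄) := (Set.toFinite (Set.range r)).toFinset
  have hT : ∀ {τ}, τ ∈ T ↔ ∃ s, r s = τ := fun {τ} => by simp [T]
  let gT : (K →ₐ[ℚ] ℚ̄) → modField ℚ̄ N := fun τ =>
    if h : ∃ s, r s = τ then G h.choose else 0
  have hgT : ∀ s, gT (r s) = G s := fun s => by
    have h : ∃ t, r t = r s := ⟨s, rfl⟩
    simp only [gT, dif_pos h]
    exact hr _ _ h.choose_spec
  let F : K → modField ℚ̄ N := fun z => ∑ τ ∈ T, gT τ * algebraMap ℚ̄ _ (τ z)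
  obtain ⟨z, hz⟩ : ∃ z, F z ≠ 0 := by
    by_contra hall
    push Not at hall
    have hli : LinearIndependent (modField ℚ̄ N)
        (fun τ : {τ // τ ∈ T} => fun z : K => algebraMap ℚ̄ (modField ℚ̄ N) (τ.1 z)) := by
      refine (linearIndependent_monoidHom K (modField ℚ̄ N)).comp
        (fun τ : {τ // τ ∈ T} =>
          ((algebraMap ℚ̄ (modField ℚ̄ N)).comp τ.1.toRingHom).toMonoidHom) ?_
      intro τ τ' hττ'
      refine Subtype.ext (AlgHom.ext fun z => (algebraMap ℚ̄ (modField ℚ̄ N)).injective ?_)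
      exact DFunLike.congr_fun hττ' z
    have h1 : r 1 ∈ T := hT.mpr ⟨1, rfl⟩
    refine hG0 1 ((hgT 1).symm.trans
      (Fintype.linearIndependent_iff.mp hli (fun τ => gT τ.1) ?_ ⟨r 1, h1⟩))
    funext z
    rw [Finset.sum_apply, Pi.zero_apply]
    refine Eq.trans ?_ (hall z)
    simp only [Pi.smul_apply, smul_eq_mul, F]
    exact Finset.sum_coe_sort T fun τ => gT τ * algebraMap ℚ̄ (modField ℚ̄ N) (τ z)
  have htrans : ∀ s : H, G s * arithmeticRingAut (modularFunctionFieldFull N) s.1 (F z) = F z := by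
    intro s
    simp only [F, map_sum, map_mul, Finset.mul_sum, arithmeticRingAut_algebraMap]
    refine Finset.sum_nbij' (fun τ => (s.1 : ℚ̄ →ₐ[ℚ] ℚ̄).comp τ)
      (fun τ => ((s⁻¹ : H).1 : ℚ̄ →ₐ[ℚ] ℚ̄).comp τ) ?_ ?_ ?_ ?_ ?_
    · intro τ hτ
      obtain ⟨t, rfl⟩ := hT.mp hτ
      exact hT.mpr ⟨s * t, rfl⟩
    · intro τ hτ
      obtain ⟨t, rfl⟩ := hT.mp hτ
      exact hT.mpr ⟨s⁻¹ * t, rfl⟩
    · intro τ _
      refine AlgHom.ext fun z => ?_
      simp [AlgEquiv.aut_inv]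
    · intro τ _
      refine AlgHom.ext fun z => ?_
      simp [AlgEquiv.aut_inv]
    · intro τ hτ
      obtain ⟨t, rfl⟩ := hT.mp hτ
      rw [show (s.1 : ℚ̄ →ₐ[ℚ] ℚ̄).comp (r t) = r (s * t) from rfl, hgT, hgT, hGmul, mul_assoc]
      rfl
  have hFl : fieldLead N (F z) ≠ 0 := fun h => hz (Subtype.ext
    (HahnSeries.leadingCoeff_eq_zero.mp h))
  have hFfix : ∀ s : H, s.1 (fieldLead N (F z)) = fieldLead N (F z) := fun s => by
    conv_rhs => rw [← htrans s, map_mul, hG1, one_mul, fieldLead_arith]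
  set h' := algebraMap ℚ̄ (modField ℚ̄ N) (fieldLead N (F z))⁻¹ * F z with hh'
  have hh0 : h' ≠ 0 := mul_ne_zero (by simpa using hFl) hz
  refine ⟨f * h' ^ n, by simpa using hfA.mul ((isClassFun_zero_iff hn).mpr ⟨h', hh0, rfl⟩), ?_,
    fun s hs => ?_⟩
  · show fieldLead N (f * h' ^ n) = 1
    rw [map_mul, map_pow, hlf, hh', map_mul, fieldLead_algebraMap, inv_mul_cancel₀ hFl, one_pow,
      one_mul]
  · rw [map_mul, map_pow, hGf ⟨s, hs⟩, hh', map_mul, arithmeticRingAut_algebraMap, map_inv₀ s,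
      hFfix ⟨s, hs⟩, mul_assoc, ← mul_pow, mul_left_comm, htrans ⟨s, hs⟩]

/-- The Hecke operator on leading coefficients. -/
theorem leadingCoeff_heckeFun {N ℓ : ℕ} [NeZero N] [NeZero ℓ] (hℓ : ℓ.Prime) (hℓ2 : ℓ ≠ 2)
    (hℓN : ¬ ℓ ∣ N) (f : modField ℚ̄ N) :
    (heckeFun ℚ̄ N ℓ f : LaurentSeries ℚ̄).leadingCoeff =
      (f : LaurentSeries ℚ̄).leadingCoeff ^ (ℓ + 1) := by
  obtain ⟨ζ, hζ⟩ := HasEnoughRootsOfUnity.exists_primitiveRoot ℚ̄ ℓ
  have h := congrArg (leadHom ℚ̄)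
    (qExpand_heckeFun hℓ hℓN (hζ.isUnit (NeZero.ne ℓ)).unit (hζ.isUnit_unit (NeZero.ne ℓ)) f)
  rw [map_mul, leadHom_qExpand, leadHom_qExpand, map_prod,
    prod_qScale_eq_pow (hℓ.odd_of_ne_two hℓ2)
      (hζ.isUnit_unit (NeZero.ne ℓ)).pow_eq_one] at h
  rw [← leadHom_apply, ← leadHom_apply, h, pow_succ']

/-- The eigen relation on normalised rational class functions. -/
theorem exists_heckeFun_eq {N n ℓ : ℕ} [NeZero N] [NeZero ℓ] (hn : n ≠ 0) (hℓ : ℓ.Prime)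
    (hℓ2 : ℓ ≠ 2) (hℓN : ¬ ℓ ∣ N) (H : Subgroup (ℚ̄ ≃ₐ[ℚ] ℚ̄)) {P : JZero N} {f : modField ℚ̄ N}
    (hf : IsClassFun n P f) (hlead : (f : LaurentSeries ℚ̄).leadingCoeff = 1)
    (hfix : ∀ s ∈ H, arithmeticRingAut (modularFunctionFieldFull N) s f = f) {a : ℤ}
    (ha : heckeOperatorBar N ⟨ℓ, hℓ⟩ P = a • P) :
    ∃ g : modField ℚ̄ N, g ≠ 0 ∧ (g : LaurentSeries ℚ̄).leadingCoeff = 1 ∧
      (∀ s ∈ H, arithmeticRingAut (modularFunctionFieldFull N) s g = g) ∧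
      heckeFun ℚ̄ N ℓ f = f ^ a * g ^ n := by
  have hT := hf.hecke ⟨ℓ, hℓ⟩
  rw [ha] at hT
  have hpow : IsClassFun n (a • P) (f ^ a) := by
    rcases Int.eq_nat_or_neg a with ⟨m, rfl | rfl⟩
    · simpa using hf.pow m
    · simpa using (hf.pow m).inv
  obtain ⟨g, hg, e⟩ := hpow.unique hn hT
  have hl := congrArg (fieldLead N) e
  have hlf : fieldLead N f = 1 := hlead
  rw [map_mul, map_zpow₀, map_pow, hlf, one_zpow, one_mul, fieldLead_apply,
    leadingCoeff_heckeFun hℓ hℓ2 hℓN f, hlead, one_pow] at hl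
  obtain ⟨g', hg', hl', e'⟩ := exists_normalised_root hn hg hl.symm
  refine ⟨g', hg', hl', fun s hs => ?_, by rw [e', e]⟩
  have e2 := congrArg (arithmeticRingAut (modularFunctionFieldFull N) s) e
  rw [← heckeFun_galois hℓ hℓN, hfix s hs, map_mul, map_zpow₀, hfix s hs, map_pow] at e2
  have e3 := mul_left_cancel₀ (zpow_ne_zero a hf.1) (e.symm.trans e2)
  refine eq_of_pow_eq_field hn hg' ?_ ?_
  · rw [← map_pow, e', map_pow]
    exact e3.symm
  · rw [fieldLead_arith, hl', map_one]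

/-- The leading coefficient at the other cusp is a rational `p`-th power. -/
theorem exists_lead_root {M p ℓ : ℕ} [NeZero M] [NeZero p] [NeZero ℓ] (hp : p.Prime)
    (hpM : ¬ p ∣ M) {w : modField ℚ̄ (M * p) ≃ₐ[ℚ̄] modField ℚ̄ (M * p)} (hw : IsSwap ℚ̄ M p w)
    (H : Subgroup (ℚ̄ ≃ₐ[ℚ] ℚ̄)) {P : JZero (M * p)} {f : modField ℚ̄ (M * p)}
    (hf : IsClassFun p P f) (hlead : (f : LaurentSeries ℚ̄).leadingCoeff = 1)
    (hfix : ∀ s ∈ H, arithmeticRingAut (modularFunctionFieldFull (M * p)) s f = f)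
    (hℓ : ℓ.Prime) (hℓ2 : ℓ ≠ 2) (hℓN : ¬ ℓ ∣ M * p) {a : ℤ}
    (ha : heckeOperatorBar (M * p) ⟨ℓ, hℓ⟩ P = a • P) (hd : ¬ (p : ℤ) ∣ (ℓ : ℤ) + 1 - a) :
    ∃ r : ℚ̄, r ≠ 0 ∧ (∀ s ∈ H, s r = r) ∧
      r ^ p = (w f : LaurentSeries ℚ̄).leadingCoeff := by
  obtain ⟨g, hg, -, hgfix, e⟩ :=
    exists_heckeFun_eq hp.ne_zero hℓ hℓ2 hℓN H hf hlead hfix ha
  have e' := congrArg w e
  rw [hw.heckeFun hp hpM hℓ hℓN, map_mul, map_zpow₀, map_pow] at e'
  have hl := congrArg (fieldLead (M * p)) e'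
  rw [fieldLead_apply, leadingCoeff_heckeFun hℓ hℓ2 hℓN, ← fieldLead_apply, map_mul, map_zpow₀,
    map_pow] at hl
  have fix : ∀ x : modField ℚ̄ (M * p),
      (∀ s ∈ H, arithmeticRingAut (modularFunctionFieldFull (M * p)) s x = x) →
      ∀ s ∈ H, s (fieldLead (M * p) (w x)) = fieldLead (M * p) (w x) := fun x hx s hs => by
    rw [← fieldLead_arith, ← hw.galois hp hpM, hx s hs]
  set A := fieldLead (M * p) (w f) with hA
  set B := fieldLead (M * p) (w g) with hB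
  have hA0 : A ≠ 0 := fun h => hf.1 (w.injective
    ((Subtype.ext (HahnSeries.leadingCoeff_eq_zero.mp h)).trans (map_zero w).symm))
  have hB0 : B ≠ 0 := fun h => hg (w.injective
    ((Subtype.ext (HahnSeries.leadingCoeff_eq_zero.mp h)).trans (map_zero w).symm))
  obtain ⟨u, v, huv⟩ := (Int.isCoprime_iff_gcd_eq_one (m := (ℓ : ℤ) + 1 - a) (n := (p : ℤ))).mpr
    (by rw [Int.gcd_comm]; exact (hp.coprime_iff_not_dvd.mpr fun h =>
      hd (Int.natCast_dvd.mpr h)))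
  refine ⟨B ^ u * A ^ v, mul_ne_zero (zpow_ne_zero u hB0) (zpow_ne_zero v hA0), fun s hs => ?_, ?_⟩
  · rw [map_mul, map_zpow₀, map_zpow₀, fix g hgfix s hs, fix f hfix s hs]
  · show _ = A
    have hBp : B ^ (p : ℤ) = A ^ ((ℓ : ℤ) + 1 - a) := by
      rw [zpow_natCast, zpow_sub₀ hA0, ← Nat.cast_succ, zpow_natCast, hl,
        mul_div_cancel_left₀ _ (zpow_ne_zero a hA0)]
    rw [mul_pow, ← zpow_natCast (B ^ u), ← zpow_natCast (A ^ v), ← zpow_mul, ← zpow_mul,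
      mul_comm u, zpow_mul, hBp, ← zpow_mul, ← zpow_add₀ hA0, mul_comm _ u, huv, zpow_one]

end Fermat.Agent.LLp
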