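import Fermat.Agent.LLp.Shape
import Fermat.Agent.ECFormal.Ordinary
import Fermat.Agent.ECFormal.Kernel
import Fermat.Agent.FlatTangent.Criterion
import Fermat.Agent.FlatTangent.Ops

/-!
# The peu ramifiée shape of a finite flat `E[p]`

At an ordinary place inertia fixes the line `Q` in the kernel of reduction up to the cyclotomic
character and moves a complement `P` by a multiple `c` of `Q`.  When `E[p]` has a finite flat model
the Kummer element of `c` is congruent to `1` on the tame field, hence a unit after division by a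
power of `p`.
-/

set_option autoImplicit false

noncomputable section

namespace Fermat.Agent.LLp

open WeierstrassCurve
open Fermat.Agent.Galois (Qbar GalQ)
open Fermat.Agent.ECFormal (Tors PointQbar)
open Fermat.Agent.ECLocal (InKernel)
open scoped WeierstrassCurve.Affine Pointwise

variable {W : WeierstrassCurve ℤ} {p : ℕ} {A : ValuationSubring Qbar}

/-- A basis adapted to the kernel of reduction at a place of multiplicative reduction. -/
theorem exists_inertia_basis (hΔ : W.Δ ≠ 0) (hp : p.Prime) (hp2 : p ≠ 2) (hA : A.LiesOverPrime p)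
    (hd : (p : ℤ) ∣ W.Δ) (hc : ¬ (p : ℤ) ∣ W.c₄) {ζ : Qbar} (hζ : IsPrimitiveRoot ζ p) :
    ∃ P Q : Tors W p,
      Function.Bijective (fun ij : ZMod p × ZMod p => ij.1.val • P + ij.2.val • Q) ∧
      ∀ σ ∈ A.inertiaSubgroupIn ℚ, ∃ b c : ZMod p,
        σ ζ = ζ ^ b.val ∧ σ • Q = b.val • Q ∧ σ • P = P + c.val • Q := by
  have := Fact.mk hp
  have := NeZero.mk hp.ne_zero
  have hss : ECFormal.SemistableAt W p := fun _ => hc
  obtain ⟨Q₀, hQ₀k, hQ₀, hpQ₀⟩ := ECFormal.exists_kernel_prime_point W hΔ hA hp hp2 hss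
  have hQord : addOrderOf Q₀ = p := addOrderOf_eq_prime hpQ₀ hQ₀
  have hord := ECFormal.ordinary_of_mult W hΔ hA hp hp2 hd hc
  obtain ⟨P, hPk⟩ := hord
  have hord' : ECFormal.OrdinaryAtPlace W p A := ⟨P, hPk⟩
  have hpP : p • (P : PointQbar W) = 0 := ECFormal.nsmul_tors_eq_zero W P
  let Q : Tors W p := ⟨Q₀, (ECFormal.mem_tors_iff W Q₀).mpr hpQ₀⟩
  have hp1 : ∀ R : PointQbar W, p • R = 0 → (p ^ 1) • R = 0 := fun R h => by rwa [pow_one]
  -- multiples of `Q`
  set ψ := ECFormal.lineHom Q₀ hpQ₀ with hψ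
  have hψ' : ∀ j, ψ j = j.val • Q₀ := ECFormal.lineHom_apply Q₀ hpQ₀
  have hker : ∀ R : PointQbar W, InKernel A R → p • R = 0 → ∃ j : ZMod p, R = j.val • Q₀ := by
    intro R hR hpR
    obtain ⟨i, hi⟩ := AddSubgroup.mem_zmultiples_iff.mp
      (ECFormal.mem_zmultiples_of_kernel_prime W hΔ hp hord' hQ₀k hQord hR hpR)
    exact ⟨(i : ZMod p), by rw [← hψ', hψ, ECFormal.lineHom_intCast, hi]⟩
  refine ⟨P, Q, ?_, fun σ hσ => ?_⟩
  · let Φ : ZMod p × ZMod p →+ PointQbar W :=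
      (ECFormal.lineHom (P : PointQbar W) hpP).coprod ψ
    have hΦ : Function.Injective Φ := by
      rw [injective_iff_map_eq_zero]
      rintro ⟨i, j⟩ hij
      rw [AddMonoidHom.coprod_apply] at hij
      have hi : i = 0 := by
        by_contra hne
        apply hPk
        have h1 : ECFormal.lineHom (P : PointQbar W) hpP i ∈ AddSubgroup.zmultiples Q₀ := by
          rw [add_eq_zero_iff_eq_neg] at hij
          rw [hij, hψ']
          exact neg_mem (nsmul_mem (AddSubgroup.mem_zmultiples Q₀) _)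
        have h2 := nsmul_mem h1 (i⁻¹).val
        rw [← map_nsmul, nsmul_eq_mul, ZMod.natCast_zmod_val, inv_mul_cancel₀ hne, ← Int.cast_one,
          ECFormal.lineHom_intCast, one_zsmul] at h2
        obtain ⟨m, hm⟩ := AddSubgroup.mem_zmultiples_iff.mp h2
        rw [← hm]
        exact (ECFormal.kerRed W A).zsmul_mem hQ₀k m
      subst hi
      rw [map_zero, zero_add, hψ'] at hij
      refine Prod.ext rfl ((ZMod.val_eq_zero j).mp (Nat.eq_zero_of_dvd_of_lt ?_ (ZMod.val_lt j)))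
      exact (dvd_of_eq hQord.symm).trans (addOrderOf_dvd_of_nsmul_eq_zero hij)
    have := ECFormal.finite_tors W hΔ hp.ne_zero
    refine (Nat.bijective_iff_injective_and_card _).mpr ⟨fun u v huv => hΦ ?_, ?_⟩
    · have h := congrArg (fun R : Tors W p => (R : PointQbar W)) huv
      simpa [Φ, AddMonoidHom.coprod_apply, hψ', ECFormal.lineHom_apply, Q] using h
    · rw [Nat.card_prod, Nat.card_zmod, ECFormal.natCard_tors W hΔ hp.ne_zero, sq]
  obtain ⟨i, hi, hσζ⟩ := hζ.eq_pow_of_pow_eq_one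
    (show σ ζ ^ p = 1 by rw [← map_pow, hζ.pow_eq_one, map_one])
  have hb : ((i : ZMod p)).val = i := ZMod.val_natCast_of_lt hi
  have hsub := ECFormal.inKernel_smul_sub_tors W hΔ hA hp hp2 hss hσ (n := 1)
    ⟨(P : PointQbar W), (ECFormal.mem_tors_iff W _).mpr (hp1 _ hpP)⟩
  obtain ⟨c, hc'⟩ := hker (σ • (P : PointQbar W) - P) hsub
    (by rw [nsmul_sub, smul_comm, hpP]; exact sub_self _)
  have hQ₁ : σ • Q₀ = i • Q₀ := by
    have h := ECFormal.smul_eq_cyclotomic_mul_sign W hΔ hA hp hp2 hss hord'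
      (ECLocal.decomposition_of_inertia hσ) (z := 1) (Or.inl rfl)
      (fun n R => by
        rw [one_zsmul]; exact ECFormal.inKernel_smul_sub_tors W hΔ hA hp hp2 hss hσ R)
      (n := 1) (a := i) (fun μ hμ => by
        obtain ⟨k, -, rfl⟩ := hζ.eq_pow_of_pow_eq_one (by simpa using hμ)
        rw [map_pow, ← hσζ, pow_right_comm])
      ⟨Q₀, (ECFormal.mem_tors_iff W Q₀).mpr (hp1 _ hpQ₀)⟩ hQ₀k
    rw [mul_one, natCast_zsmul] at h
    exact congrArg Subtype.val h
  refine ⟨i, c, by rw [hb, hσζ], Subtype.ext ?_, Subtype.ext ?_⟩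
  · show σ • Q₀ = (i : ZMod p).val • Q₀
    rw [hb, hQ₁]
  · show σ • (P : PointQbar W) = _
    rw [sub_eq_iff_eq_add'.mp hc']
    rfl

/-- A unit of the valuation ring has valuation one. -/
theorem valuation_eq_one_iff_mem {K : Type*} [Field K] {A : ValuationSubring K} {x : K}
    (hx : x ≠ 0) : A.valuation x = 1 ↔ x ∈ A ∧ x⁻¹ ∈ A := by
  rw [← A.valuation_le_one_iff, ← A.valuation_le_one_iff, map_inv₀,
    inv_le_one₀ (zero_lt_iff.mpr ((Valuation.ne_zero_iff _).mpr hx))]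
  exact le_antisymm_iff

section Place

variable [Fact p.Prime]

open FlatTangent

theorem valuation_eq_one_of_veq {x : Qb} (h : VEQ p 0 x) : (plc p).valuation x = 1 :=
  (valuation_eq_one_iff_mem h.ne_zero).mpr
    ⟨mem_plc_iff.mpr h.vge, mem_plc_iff.mpr (by simpa using h.inv.vge)⟩

/-- A finite flat `E[p]` has a unit Kummer class at the chosen place. -/
theorem hasUnitKummer_of_flat (hΔ : W.Δ ≠ 0) (hp2 : p ≠ 2) (hd : (p : ℤ) ∣ W.Δ)
    (hc : ¬ (p : ℤ) ∣ W.c₄)
    (hflat : FFG.HasFlatModelAt p fun (σ : GalQ) (x : Tors W p) => σ • x) :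
    HasUnitKummer W p (plc p) := by
  classical
  have hp : p.Prime := Fact.out
  have := NeZero.mk hp.ne_zero
  obtain ⟨P, Q, hbij, hact⟩ :=
    exists_inertia_basis hΔ hp hp2 (plc_liesOverPrime p) hd hc (zetaP_prim p)
  have hQ : Q ≠ 0 := fun h => by
    have := @hbij.1 (0, 0) (0, 1) (by simp [h])
    simp at this
  have hinj : ∀ a b : ZMod p, a.val • Q = b.val • Q → a = b := fun a b h => by
    have := @hbij.1 (0, a) (0, b) (by simpa using h)
    simpa using this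
  let f : Gal → ZMod p := fun σ => if h : σ ∈ inert p then (hact σ h).choose_spec.choose else 0
  have hf : ∀ σ ∈ inert p, σ • Q = (cyc p σ).val • Q ∧ σ • P = P + (f σ).val • Q := by
    intro σ hσ
    obtain ⟨hb, hQ', hP'⟩ := (hact σ hσ).choose_spec.choose_spec
    have hb' : (hact σ hσ).choose = cyc p σ := zp_injective (by
      rw [← apply_zetaP]; exact hb.symm)
    refine ⟨by rw [← hb']; exact hQ', ?_⟩
    simp only [f, dif_pos hσ]
    exact hP'
  have hval : ∀ (a b : ZMod p) (R : Tors W p), (a + b).val • R = a.val • R + b.val • R ∧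
      (a * b).val • R = a.val • b.val • R := fun a b R => by
    have hR : p • R = 0 := Subtype.ext (ECFormal.nsmul_tors_eq_zero W R)
    have hmod : ∀ n : ℕ, (n % p) • R = n • R := fun n => by
      conv_rhs => rw [← Nat.mod_add_div n p, add_nsmul, mul_nsmul, hR, nsmul_zero, add_zero]
    exact ⟨by rw [ZMod.val_add, hmod, add_nsmul],
      by rw [ZMod.val_mul, hmod, mul_nsmul']⟩
  have hadd : ∀ σ ∈ inert p, ∀ τ ∈ inert p, f (σ * τ) = f σ + cyc p σ * f τ := by
    intro σ hσ τ hτ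
    refine hinj _ _ (add_left_cancel (a := P) ?_)
    rw [← (hf _ (mul_mem hσ hτ)).2, (hval _ _ Q).1, (hval _ _ Q).2, mul_smul, (hf τ hτ).2,
      smul_add, (hf σ hσ).2, smul_comm σ (f τ).val Q, (hf σ hσ).1, add_assoc,
      smul_comm (f τ).val (cyc p σ).val Q]
  obtain ⟨L, hL, hLfix⟩ : ∃ L : IntermediateField ℚ Qb, FiniteDimensional ℚ L ∧
      ∀ σ ∈ L.fixingSubgroup, ∀ m : Tors W p, σ • m = m := by
    have : Algebra.IsAlgebraic ℚ Qb := AlgebraicClosure.isAlgebraic ℚ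
    obtain ⟨L, hL, h⟩ := ECTorsion.exists_finite_level (S := ℚ) (W := W.map (Int.castRingHom ℚ))
      (K := Qbar) (ECTorsion.algebraMap_qbar_Δ_ne_zero _
        (ECTorsion.map_castRingHom_Δ_ne_zero W hΔ)) (n := p) (Nat.cast_ne_zero.mpr hp.ne_zero)
    exact ⟨L, hL, fun σ hσ m => h σ ((IntermediateField.mem_fixingSubgroup_iff L σ).mp hσ) m⟩
  have hlev : ∀ σ ∈ inert p, σ ∈ L.fixingSubgroup → f σ = 0 := fun σ hσ hσL => by
    refine hinj _ _ (add_left_cancel (a := P) ?_)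
    rw [← (hf σ hσ).2, hLfix σ hσL, ZMod.val_zero, zero_nsmul, add_zero]
  have hn : ¬ p ∣ p - 1 := fun h => by
    have := hp.two_le
    have := Nat.le_of_dvd (by omega) h
    omega
  have hT : TameLevel p (p - 1) 1 := ⟨hn, (mul_one _).symm⟩
  have := ECFormal.finite_tors W hΔ hp.ne_zero
  let _ := Fintype.ofFinite (Tors W p)
  obtain ⟨R⟩ := exists_model_of_hasFlatModel hflat
  have hlev1 : Lev p (p - 1) 1 f := by
    refine lev_one_of_model hT R (P := P) hQ (fun σ hσ τ hτ => ?_) L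
      (fun σ hσ hσL => hlev σ (mem_Kn.mp hσ).1 hσL) fun σ hσ => ?_
    · rw [hadd σ (mem_Kn.mp hσ).1 τ (mem_Kn.mp hτ).1, hT.cyc_Kn hσ, one_mul]
    · show σ • P = _
      rw [(hf σ (mem_Kn.mp hσ).1).2]
      conv_rhs => rw [← ZMod.natCast_zmod_val (f σ), Nat.cast_smul_eq_nsmul]
  obtain ⟨α₁, hα₁0, hα₁, hα₁v⟩ := hlev1
  have hv₁ : VEQ p 0 α₁ := by
    refine VEQ.of_pow hp.ne_zero ?_
    rw [mul_zero]
    have h : VGT p 0 (α₁ ^ p - 1) := hα₁v.vgt (by
      have : (1 : ℕ) < p := hp.one_lt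
      have : (0 : ℝ) < ((p - 1 : ℕ) : ℝ) := by exact_mod_cast (by omega : 0 < p - 1)
      positivity)
    simpa using veq_one.add_vgt h
  obtain ⟨α, hα0, hα, hαp⟩ := exists_kummer (inert p) f hadd L hlev
  have hr : InK p (p - 1) (α / α₁) := fun σ hσ => by
    rw [map_div₀, hα σ (mem_Kn.mp hσ).1, hα₁ σ hσ, mul_div_mul_left _ _ (zp_ne_zero _)]
  obtain ⟨m, hm⟩ := hr.exists_veq hn (div_ne_zero hα0 hα₁0)
  have hvα : VEQ p ((m : ℝ) / ((p - 1 : ℕ) : ℝ)) α := by
    have := hm.mul hv₁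
    rwa [add_zero, div_mul_cancel₀ _ hα₁0] at this
  obtain ⟨k, hk⟩ := InU.exists_int (x := α ^ p) hαp (pow_ne_zero p hα0)
  obtain ⟨m', hm'⟩ : ((p - 1 : ℕ) : ℤ) ∣ m := by
    have h1 : (p : ℝ) * ((m : ℝ) / ((p - 1 : ℕ) : ℝ)) = (k : ℝ) := (hvα.pow p).unique hk
    have hne : ((p - 1 : ℕ) : ℝ) ≠ 0 := by
      exact_mod_cast (by have := hp.two_le; omega : p - 1 ≠ 0)
    rw [mul_div_assoc', div_eq_iff hne] at h1
    have h2 : (p : ℤ) * m = k * ((p - 1 : ℕ) : ℤ) := by exact_mod_cast h1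
    refine Int.dvd_of_dvd_mul_right_of_gcd_one (a := ((p - 1 : ℕ) : ℤ)) (b := (p : ℤ)) (c := m)
      ⟨k, by rw [h2]; ring⟩ ?_
    rw [Int.gcd_natCast_natCast]
    exact Nat.Coprime.symm (hp.coprime_iff_not_dvd.mpr hn)
  set η := α / (p : Qb) ^ m' with hη
  have hηv : VEQ p 0 η := by
    have hne : ((p - 1 : ℕ) : ℝ) ≠ 0 := by
      exact_mod_cast (by have := hp.two_le; omega : p - 1 ≠ 0)
    have h := hvα.div (veq_cast_self.zpow m')
    rwa [show (m : ℝ) / ((p - 1 : ℕ) : ℝ) - (m' : ℝ) * 1 = 0 by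
      rw [hm']; push_cast; field_simp; ring] at h
  have hfix : ∀ σ : Gal, σ ((p : Qb) ^ m') = (p : Qb) ^ m' := fun σ => by
    rw [map_zpow₀, map_natCast]
  refine ⟨P, Q, zetaP p, η, zetaP_prim p, valuation_eq_one_of_veq hηv, hbij, fun σ hσ => ⟨?_,
    cyc p σ, f σ, apply_zetaP σ, ?_, hf σ hσ⟩⟩
  · rw [hη, div_pow, map_div₀, hαp σ hσ, map_pow, hfix]
  · rw [hη, map_div₀, hα σ hσ, hfix, mul_div_assoc]
    rfl

end Place

/-- The shape moves along the Galois group. -/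
theorem HasUnitKummer.smul (h : HasUnitKummer W p A) (τ : GalQ) :
    HasUnitKummer W p (τ • A) := by
  obtain ⟨P, Q, ζ, η, hζ, hη, hbij, hgal⟩ := h
  have hlin : ∀ (n : ℕ) (R : Tors W p), τ • (n • R) = n • (τ • R) := fun n R =>
    smul_comm τ n R
  refine ⟨τ • P, τ • Q, τ ζ, τ η, hζ.map_of_injective τ.injective, ?_, ?_, fun σ hσ => ?_⟩
  · have hη0 : η ≠ 0 := fun h => by rw [h, map_zero] at hη; exact zero_ne_one hη
    rw [valuation_eq_one_iff_mem hη0] at hη
    rw [valuation_eq_one_iff_mem ((map_ne_zero τ).mpr hη0), ← map_inv₀]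
    exact ⟨ValuationSubring.smul_mem_pointwise_smul τ η A hη.1,
      ValuationSubring.smul_mem_pointwise_smul τ η⁻¹ A hη.2⟩
  · have : (fun ij : ZMod p × ZMod p => ij.1.val • τ • P + ij.2.val • τ • Q) =
        (τ • ·) ∘ fun ij => ij.1.val • P + ij.2.val • Q := by
      funext ij
      simp only [Function.comp_apply, smul_add, hlin]
    rw [this]
    exact (MulAction.bijective τ).comp hbij
  obtain ⟨hfix, b, c, hb, hc, hQ, hP⟩ := hgal _ (Galois.mem_inertia_smul_iff.mp hσ)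
  have hσe : ∀ x : Qbar, σ (τ x) = τ ((τ⁻¹ * σ * τ) x) := fun x => by
    simp [← AlgEquiv.mul_apply, ← mul_assoc]
  have hσs : ∀ R : Tors W p, σ • τ • R = τ • ((τ⁻¹ * σ * τ) • R) := fun R => by
    simp [← mul_smul, ← mul_assoc]
  exact ⟨by rw [← map_pow, hσe, hfix], b, c, by rw [hσe, hb, map_pow],
    by rw [hσe, hc, map_mul, map_pow], by rw [hσs, hQ, hlin], by rw [hσs, hP, smul_add, hlin]⟩

/-- A finite flat `E[p]` of a curve semistable at `p` has the peu ramifiée shape. -/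
theorem peuShape_of_flat [Fact p.Prime] (hΔ : W.Δ ≠ 0) (hp2 : p ≠ 2)
    (hss : (p : ℤ) ∣ W.Δ → ¬ (p : ℤ) ∣ W.c₄)
    (hflat : FFG.HasFlatModelAt p fun (σ : GalQ) (x : Tors W p) => σ • x) : PeuShape W p := by
  have hp : p.Prime := Fact.out
  by_cases hd : (p : ℤ) ∣ W.Δ
  swap
  · exact peuShape_of_good hp hp2 hd
  intro A hA
  obtain ⟨τ, rfl⟩ := Galois.exists_smul_eq (FlatTangent.plc_liesOverPrime p) hA hp
  exact Or.inr ((hasUnitKummer_of_flat hΔ hp2 hd (hss hd) hflat).smul τ)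

end Fermat.Agent.LLp
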