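import Fermat.Agent.LLp.SeriesDefs
import Mathlib.RingTheory.MvPolynomial.Basic
import Mathlib.Algebra.CharP.Quotient
import Mathlib.Algebra.CharP.Lemmas
import Mathlib.FieldTheory.Finite.Basic
import Mathlib.Tactic.LinearCombination

/-!
# Auxiliary lemmas for `thetaLog`
-/

set_option autoImplicit false

noncomputable section

namespace Fermat.Agent.LLp

open PowerSeries

variable {R : Type*} [CommRing R]

theorem mul_thetaLog {u : R⟦X⟧} (hu : constantCoeff u = 1) :
    u * thetaLog u = PowerSeries.X * d⁄dX R u := by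
  rw [thetaLog, mul_left_comm, mul_invOfUnit u 1 (by simpa using hu), mul_one]

theorem eq_thetaLog_of_mul_eq {u f : R⟦X⟧} (hu : constantCoeff u = 1)
    (h : u * f = PowerSeries.X * d⁄dX R u) : f = thetaLog u := by
  rw [thetaLog, ← h, mul_comm u f, mul_assoc, mul_invOfUnit u 1 (by simpa using hu), mul_one]

theorem coeff_X_mul_derivative (f : R⟦X⟧) (n : ℕ) :
    coeff n (PowerSeries.X * d⁄dX R f) = (n : R) * coeff n f := by
  cases n with
  | zero => simp
  | succ n => rw [coeff_succ_X_mul, coeff_derivative, mul_comm]; push_cast; ring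

theorem X_mul_derivative_mul (f g : R⟦X⟧) :
    PowerSeries.X * d⁄dX R (f * g) =
      f * (PowerSeries.X * d⁄dX R g) + g * (PowerSeries.X * d⁄dX R f) := by
  rw [Derivation.leibniz, smul_eq_mul, smul_eq_mul]; ring

theorem thetaLog_one : thetaLog (1 : R⟦X⟧) = 0 :=
  (eq_thetaLog_of_mul_eq (map_one _) (by simp)).symm

theorem thetaLog_mul' {u v : R⟦X⟧} (hu : constantCoeff u = 1) (hv : constantCoeff v = 1) :
    thetaLog (u * v) = thetaLog u + thetaLog v := by
  refine (eq_thetaLog_of_mul_eq (by rw [map_mul, hu, hv, one_mul]) ?_).symm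
  rw [X_mul_derivative_mul, ← mul_thetaLog hu, ← mul_thetaLog hv]
  ring

theorem thetaLog_prod {ι : Type*} (s : Finset ι) (u : ι → R⟦X⟧)
    (hu : ∀ i ∈ s, constantCoeff (u i) = 1) :
    thetaLog (∏ i ∈ s, u i) = ∑ i ∈ s, thetaLog (u i) := by
  classical
  induction s using Finset.induction_on with
  | empty => simp [thetaLog_one]
  | insert a s ha ih =>
    rw [Finset.forall_mem_insert] at hu
    rw [Finset.prod_insert ha, Finset.sum_insert ha, thetaLog_mul' hu.1
      (by rw [map_prod]; exact Finset.prod_eq_one hu.2), ih hu.2]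

theorem thetaLog_pow' {u : R⟦X⟧} (hu : constantCoeff u = 1) (n : ℕ) :
    thetaLog (u ^ n) = n • thetaLog u := by
  have := thetaLog_prod (Finset.range n) (fun _ => u) fun _ _ => hu
  simpa using this

theorem map_X_mul_derivative {S : Type*} [CommRing S] (φ : R →+* S) (f : R⟦X⟧) :
    PowerSeries.map φ (PowerSeries.X * d⁄dX R f) =
      PowerSeries.X * d⁄dX S (PowerSeries.map φ f) := by
  ext n
  rw [coeff_map, coeff_X_mul_derivative, coeff_X_mul_derivative, coeff_map, map_mul, map_natCast]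

theorem map_thetaLog' {S : Type*} [CommRing S] (φ : R →+* S) {u : R⟦X⟧}
    (hu : constantCoeff u = 1) :
    PowerSeries.map φ (thetaLog u) = thetaLog (PowerSeries.map φ u) := by
  refine eq_thetaLog_of_mul_eq ?_ ?_
  · rw [← coeff_zero_eq_constantCoeff_apply, coeff_map, coeff_zero_eq_constantCoeff_apply, hu,
      map_one]
  · rw [← map_mul, mul_thetaLog hu, map_X_mul_derivative]

theorem thetaLog_rescale (a : R) {u : R⟦X⟧} (hu : constantCoeff u = 1) :
    thetaLog (rescale a u) = rescale a (thetaLog u) := by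
  refine (eq_thetaLog_of_mul_eq ?_ ?_).symm
  · rw [← coeff_zero_eq_constantCoeff_apply, coeff_rescale, pow_zero, one_mul,
      coeff_zero_eq_constantCoeff_apply, hu]
  · rw [← map_mul, mul_thetaLog hu]
    ext n
    simp only [coeff_rescale, coeff_X_mul_derivative]
    ring

theorem thetaLog_expand {m : ℕ} (hm : m ≠ 0) {u : R⟦X⟧} (hu : constantCoeff u = 1) :
    thetaLog (PowerSeries.expand m hm u) = (m : R) • PowerSeries.expand m hm (thetaLog u) := by
  refine (eq_thetaLog_of_mul_eq (by rw [constantCoeff_expand, hu]) ?_).symm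
  rw [mul_smul_comm, ← map_mul, mul_thetaLog hu]
  ext n
  simp only [coeff_smul, coeff_X_mul_derivative, coeff_expand, smul_eq_mul]
  split_ifs with h
  · obtain ⟨k, rfl⟩ := h
    rw [Nat.mul_div_cancel_left k (Nat.pos_of_ne_zero hm)]
    push_cast
    ring
  · ring

/-- Sums of powers of a primitive root. -/
theorem sum_pow_mul_eq [IsDomain R] {m : ℕ} {ζ : R} (hζ : IsPrimitiveRoot ζ m) (k : ℕ) :
    ∑ i ∈ Finset.range m, (ζ ^ i) ^ k = if m ∣ k then (m : R) else 0 := by
  split_ifs with h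
  · obtain ⟨j, rfl⟩ := h
    rw [Finset.sum_congr rfl fun i _ => (by
      rw [← pow_mul, mul_left_comm, pow_mul, hζ.pow_eq_one, one_pow] : (ζ ^ i) ^ (m * j) = 1)]
    simp
  · have h1 : ζ ^ k ≠ 1 := fun h1 => h ((hζ.pow_eq_one_iff_dvd k).mp h1)
    have h2 : (∑ i ∈ Finset.range m, (ζ ^ k) ^ i) * (ζ ^ k - 1) = 0 := by
      rw [geom_sum_mul, pow_right_comm, hζ.pow_eq_one, one_pow, sub_self]
    rw [Finset.sum_congr rfl fun i _ => pow_right_comm ζ i k]
    exact (mul_eq_zero.mp h2).resolve_right (sub_ne_zero.mpr h1)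

/-- Every `p`-th coefficient of `f * g(X^p)`. -/
theorem coeff_mul_expand {p : ℕ} (hp : p ≠ 0) (f g : R⟦X⟧) (n : ℕ) :
    coeff (p * n) (f * PowerSeries.expand p hp g) =
      coeff n (PowerSeries.mk (fun i => coeff (p * i) f) * g) := by
  rw [coeff_mul, coeff_mul]
  symm
  have hinj : Set.InjOn (fun x : ℕ × ℕ => (p * x.1, p * x.2)) (Finset.antidiagonal n : Set _) := by
    intro a _ b _ h
    simp only [Prod.mk.injEq] at h
    exact Prod.ext (mul_left_cancel₀ hp h.1) (mul_left_cancel₀ hp h.2)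
  refine Finset.sum_of_injOn (fun x : ℕ × ℕ => (p * x.1, p * x.2)) hinj ?_ ?_ ?_
  · intro x hx
    rw [Finset.mem_coe, Finset.HasAntidiagonal.mem_antidiagonal] at hx ⊢
    rw [← mul_add, hx]
  · intro x hx hx'
    rw [Finset.HasAntidiagonal.mem_antidiagonal] at hx
    by_cases h : p ∣ x.2
    · exfalso
      obtain ⟨j, hj⟩ := h
      have h1 : p ∣ x.1 := (Nat.dvd_add_left ⟨j, hj⟩).mp ⟨n, hx⟩
      obtain ⟨i, hi⟩ := h1
      refine hx' ⟨(i, j), ?_, Prod.ext hi.symm hj.symm⟩
      rw [Finset.mem_coe, Finset.HasAntidiagonal.mem_antidiagonal]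
      rw [hi, hj, ← mul_add] at hx
      exact mul_left_cancel₀ hp hx
    · rw [coeff_expand_of_not_dvd p hp g h, mul_zero]
  · intro x _
    rw [coeff_mk, coeff_expand_mul]

/-- `[X^(p n)] u^(p-1) θu = n [X^(p n)] u^p`, an identity with integral coefficients. -/
theorem coeff_pow_mul_derivative (u : R⟦X⟧) {p : ℕ} (hp : 0 < p) (n : ℕ) :
    coeff (p * n) (u ^ (p - 1) * (PowerSeries.X * d⁄dX R u)) =
      (n : R) * coeff (p * n) (u ^ p) := by
  let U : (MvPolynomial ℕ ℤ)⟦X⟧ := PowerSeries.mk fun i => MvPolynomial.X i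
  let φ : MvPolynomial ℕ ℤ →+* R := MvPolynomial.eval₂Hom (Int.castRingHom R) fun i => coeff i u
  have hU : PowerSeries.map φ U = u := by
    ext i
    simp [U, φ, coeff_map]
  have key : coeff (p * n) (U ^ (p - 1) * (PowerSeries.X * d⁄dX _ U)) =
      (n : MvPolynomial ℕ ℤ) * coeff (p * n) (U ^ p) := by
    have h := congrArg (coeff (p * n))
      (show PowerSeries.X * d⁄dX _ (U ^ p) =
        (p : (MvPolynomial ℕ ℤ)⟦X⟧) * (U ^ (p - 1) * (PowerSeries.X * d⁄dX _ U)) by
        rw [derivative_pow]; ring)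
    rw [coeff_X_mul_derivative, ← map_natCast (C (R := MvPolynomial ℕ ℤ)), coeff_C_mul,
      Nat.cast_mul, mul_assoc] at h
    exact (mul_left_cancel₀ (Nat.cast_ne_zero.mpr hp.ne') h).symm
  have := congrArg φ key
  rw [map_mul φ, map_natCast, ← coeff_map, ← coeff_map, map_mul (PowerSeries.map φ), map_pow, map_pow,
    map_X_mul_derivative, hU] at this
  exact this

section CharP

variable {S : Type*} [CommRing S] (p : ℕ) [Fact p.Prime] [CharP S p]

theorem pow_char_eq (u : S⟦X⟧) :
    u ^ p = PowerSeries.expand p (Fact.out : p.Prime).ne_zero (PowerSeries.map (frobenius S p) u) := by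
  have hp : p.Prime := Fact.out
  have : ExpChar S p := ExpChar.prime hp
  rw [← map_expand]
  exact (MvPowerSeries.map_frobenius_expand p hp.ne_zero).symm

/-- In characteristic `p` the coefficients of a logarithmic derivative satisfy `b_{pn} = b_n^p`. -/
theorem coeff_thetaLog_mul_eq_pow {u : S⟦X⟧} (hu : constantCoeff u = 1) (n : ℕ) :
    coeff (p * n) (thetaLog u) = coeff n (thetaLog u) ^ p := by
  have hp : p.Prime := Fact.out
  set w := PowerSeries.invOfUnit u 1
  have hw : u * w = 1 := mul_invOfUnit u 1 (by simpa using hu)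
  have hsplit : thetaLog u = (u ^ (p - 1) * (PowerSeries.X * d⁄dX S u)) * w ^ p := by
    refine (eq_thetaLog_of_mul_eq hu ?_).symm
    calc u * (u ^ (p - 1) * (PowerSeries.X * d⁄dX S u) * w ^ p)
        = (u * u ^ (p - 1)) * w ^ p * (PowerSeries.X * d⁄dX S u) := by ring
      _ = _ := by rw [← pow_succ', Nat.sub_add_cancel hp.one_le, ← mul_pow, hw, one_pow, one_mul]
  rw [hsplit, pow_char_eq p w, coeff_mul_expand]
  have hmk : PowerSeries.mk (fun i => coeff (p * i) (u ^ (p - 1) * (PowerSeries.X * d⁄dX S u))) =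
      PowerSeries.map (frobenius S p) (PowerSeries.X * d⁄dX S u) := by
    ext i
    rw [coeff_mk, coeff_pow_mul_derivative u hp.pos, coeff_map, coeff_X_mul_derivative,
      pow_char_eq p u, coeff_expand_mul, coeff_map, map_mul, map_natCast]
  rw [hmk, ← map_mul, coeff_map, ← pow_char_eq p w, ← hsplit, frobenius_def]
  rfl

end CharP

theorem dvd_sub_pow_aux {p : ℕ} [Fact p.Prime] {u : R⟦X⟧} (hu : constantCoeff u = 1) (n : ℕ) :
    (p : R) ∣ coeff (p * n) (thetaLog u) - coeff n (thetaLog u) ^ p := by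
  rw [← Ideal.mem_span_singleton]
  by_cases htop : Ideal.span {(p : R)} = ⊤
  · rw [htop]; exact Submodule.mem_top
  have : CharP (R ⧸ Ideal.span {(p : R)}) p :=
    CharP.quotient R p fun h => htop (Ideal.span_singleton_eq_top.mpr h)
  rw [← Ideal.Quotient.eq_zero_iff_mem, map_sub, map_pow, sub_eq_zero, ← coeff_map, ← coeff_map,
    map_thetaLog' _ hu]
  refine coeff_thetaLog_mul_eq_pow p ?_ n
  rw [← coeff_zero_eq_constantCoeff_apply, coeff_map, coeff_zero_eq_constantCoeff_apply, hu,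
    map_one]

/-- Solve `z + ∑_{2 ≤ k ≤ N} c k z^k = y` by successive approximation. -/
theorem exists_fixed (N : ℕ) (c : ℕ → R) (y : R⟦X⟧) (hy : constantCoeff y = 0) :
    ∃ z : R⟦X⟧, constantCoeff z = 0 ∧ z + ∑ k ∈ Finset.Icc 2 N, C (c k) * z ^ k = y := by
  set G : R⟦X⟧ → R⟦X⟧ := fun z => ∑ k ∈ Finset.Icc 2 N, C (c k) * z ^ k
  let it : ℕ → R⟦X⟧ := fun j => Nat.rec 0 (fun _ z => y - G z) j
  have hit : ∀ j, it (j + 1) = y - G (it j) := fun j => rfl
  have hG : ∀ {a b : R⟦X⟧} {j : ℕ}, PowerSeries.X ∣ a → PowerSeries.X ∣ b →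
      PowerSeries.X ^ j ∣ a - b → PowerSeries.X ^ (j + 1) ∣ G a - G b := by
    intro a b j ha hb hab
    rw [← Finset.sum_sub_distrib]
    refine Finset.dvd_sum fun k hk => ?_
    have hk2 := (Finset.mem_Icc.mp hk).1
    rw [← mul_sub, pow_succ', ← geom_sum₂_mul a b k]
    refine dvd_mul_of_dvd_right ?_ _
    refine mul_dvd_mul (Finset.dvd_sum fun i hi => ?_) hab
    rcases Nat.eq_zero_or_pos i with rfl | hi0
    · exact dvd_mul_of_dvd_right (dvd_pow hb (by omega)) _
    · exact dvd_mul_of_dvd_left (dvd_pow ha hi0.ne') _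
  have hX : ∀ j, PowerSeries.X ∣ it j := by
    intro j
    induction j with
    | zero => exact dvd_zero _
    | succ j ih =>
      rw [hit]
      refine dvd_sub (PowerSeries.X_dvd_iff.mpr hy) (Finset.dvd_sum fun k hk => ?_)
      exact dvd_mul_of_dvd_right (dvd_pow ih (by have := (Finset.mem_Icc.mp hk).1; omega)) _
  have hstep : ∀ j, PowerSeries.X ^ (j + 1) ∣ it (j + 1) - it j := by
    intro j
    induction j with
    | zero => rw [zero_add, pow_one]; exact dvd_sub (hX 1) (hX 0)
    | succ j ih =>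
      rw [hit (j + 1), hit j, sub_sub_sub_cancel_left, ← neg_sub (G (it (j + 1)))]
      exact dvd_neg.mpr (hG (hX (j + 1)) (hX j) ih)
  have hlim : ∀ a b, PowerSeries.X ^ (a + 1) ∣ it (a + b) - it a := by
    intro a b
    induction b with
    | zero => simp
    | succ b ih =>
      rw [← sub_add_sub_cancel (it (a + (b + 1))) (it (a + b)) (it a)]
      exact dvd_add ((pow_dvd_pow _ (by omega)).trans (hstep (a + b))) ih
  set z := PowerSeries.mk fun n => coeff n (it (n + 1))
  have hz : ∀ n, PowerSeries.X ^ (n + 1) ∣ z - it n := by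
    intro n
    rw [PowerSeries.X_pow_dvd_iff]
    intro m hm
    rw [map_sub, coeff_mk, sub_eq_zero]
    rcases Nat.lt_or_ge n (m + 1) with h | h
    · have := (PowerSeries.X_pow_dvd_iff.mp (hstep m)) m (by omega)
      rw [map_sub, sub_eq_zero] at this
      rw [show n = m by omega]
      exact this
    · obtain ⟨b, rfl⟩ := Nat.exists_eq_add_of_le h
      have := (PowerSeries.X_pow_dvd_iff.mp (hlim (m + 1) b)) m (by omega)
      rw [map_sub, sub_eq_zero] at this
      exact this.symm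
  have hzX : PowerSeries.X ∣ z := by
    simpa [it] using (hz 0)
  refine ⟨z, PowerSeries.X_dvd_iff.mp hzX, sub_eq_zero.mp (PowerSeries.ext fun n => ?_)⟩
  have h1 := hG hzX (hX n) (hz n)
  have h2 : z + G z - y = (z - it (n + 1)) + (G z - G (it n)) := by rw [hit]; ring
  have h3 : PowerSeries.X ^ (n + 1) ∣ z + G z - y := by
    rw [h2]
    exact dvd_add ((pow_dvd_pow _ (by omega)).trans (hz (n + 1)))
      ((pow_dvd_pow _ (by omega)).trans h1)
  rw [map_zero]
  exact PowerSeries.X_pow_dvd_iff.mp h3 n (by omega)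

theorem one_add_pow_eq_linear_add (p : ℕ) (hp : 1 ≤ p) (t : R⟦X⟧) :
    (1 + t) ^ p = 1 + (p : R⟦X⟧) * t +
      ∑ k ∈ Finset.Icc 2 p, (p.choose k : R⟦X⟧) * t ^ k := by
  rw [add_comm 1 t, add_pow, Finset.range_eq_Ico,
    Finset.sum_eq_sum_Ico_succ_bot (by omega), Finset.sum_eq_sum_Ico_succ_bot (by omega)]
  rw [show Finset.Icc 2 p = Finset.Ico 2 (p + 1) from (Finset.Ico_add_one_right_eq_Icc 2 p).symm]
  rw [Finset.sum_congr rfl (fun k _ => (by rw [one_pow, mul_one, mul_comm] :
    t ^ k * 1 ^ (p - k) * (p.choose k : R⟦X⟧) = (p.choose k : R⟦X⟧) * t ^ k))]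
  simp only [pow_zero, zero_add, pow_one, one_pow, mul_one, Nat.choose_zero_right,
    Nat.cast_one, Nat.choose_one_right]
  ring

/-- A product of perturbations of one series, to second order. -/
theorem exists_prod_add_mul {ι : Type*} (s : Finset ι) (a t : R⟦X⟧) (b : ι → R⟦X⟧) :
    ∃ r, ∏ i ∈ s, (a + t * b i) =
      a ^ s.card + t * a ^ (s.card - 1) * ∑ i ∈ s, b i + t ^ 2 * r := by
  classical
  induction s using Finset.induction_on with
  | empty => exact ⟨0, by simp⟩
  | insert i s hi ih =>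
    obtain ⟨r, hr⟩ := ih
    rcases s.eq_empty_or_nonempty with rfl | hne
    · exact ⟨0, by simp⟩
    refine ⟨a * r + b i * a ^ (s.card - 1) * ∑ j ∈ s, b j + t * b i * r, ?_⟩
    rw [Finset.prod_insert hi, hr, Finset.card_insert_of_notMem hi, Finset.sum_insert hi]
    obtain ⟨k, hk⟩ := Nat.exists_eq_succ_of_ne_zero hne.card_pos.ne'
    rw [hk, Nat.succ_sub_one, Nat.add_sub_cancel, Nat.succ_eq_add_one]
    ring

end Fermat.Agent.LLp
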