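import Fermat.Agent.LLp.HeckeRed
import Fermat.Agent.LLp.Descent
import Fermat.Agent.LLp.Diff.Forms
import Fermat.Agent.BAD.Modular.Curve
import Fermat.Agent.BAD.Ordinary.PthRoot
import Fermat.Agent.LLp.CuspPlace

/-!
# From a residual class with all orders divisible by `p` to residual modularity

A function `f` of level `M p` with `T_ℓ f = f ^ a_ℓ g ^ p`, one of whose reductions has orders
divisible by `p` without being a `p`-th power: the logarithmic derivative of the expansion of that
reduction is an eigen series in the span of reductions of cusp forms of level `M`.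
-/

set_option autoImplicit false
set_option linter.style.haveILetI false
set_option synthInstance.maxHeartbeats 200000

noncomputable section

open AlgebraicCurve ModularCurve IsLocalRing
open Fermat.Agent.Galois (Qbar GalQ)

namespace Fermat.Agent.LLp

/-- Either expansion is the series of a transform of the function, commuting with `T_ℓ`. -/
theorem exists_emb_transform {M p : ℕ} [NeZero M] [NeZero p] (hp : p.Prime) (hpM : ¬ p ∣ M)
    (i : Fin 2) : ∃ w : modularFunctionFieldBar (M * p) →ₐ[Qbar] modularFunctionFieldBar (M * p),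
      (∀ x, (w x : LaurentSeries Qbar) = BAD.Modular.emb M hp hpM i x) ∧
      ∀ ℓ : ℕ, ℓ.Prime → ¬ ℓ ∣ M * p → ∀ [NeZero ℓ], ∀ x,
        w (heckeFun Qbar (M * p) ℓ x) = heckeFun Qbar (M * p) ℓ (w x) := by
  revert i
  rw [Fin.forall_fin_two]
  refine ⟨⟨AlgHom.id _ _, fun x => rfl, fun ℓ _ _ _ x => rfl⟩, ?_⟩
  obtain ⟨w, hw⟩ := exists_isSwap M p hp hpM
  refine ⟨w.toAlgHom, fun x => ?_, fun ℓ hℓ hℓN _ x => hw.heckeFun hp hpM hℓ hℓN x⟩
  have h := BAD.Modular.swapEmb_unique BAD.Modular.toComplex hp hpM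
    (ψ := (HK.Corr.modField Qbar (M * p)).val.comp w.toAlgHom)
    (fun y => by
      show ((w (heckeAlphaBar Qbar M p y) : HK.Corr.modField Qbar (M * p)) : LaurentSeries Qbar) = _
      rw [hw.map_alpha, coe_heckeBetaBar])
    (fun y => by
      show ((w (heckeBetaBar Qbar M p y) : HK.Corr.modField Qbar (M * p)) : LaurentSeries Qbar) = _
      rw [hw.map_beta, coe_heckeAlphaBar])
  exact DFunLike.congr_fun h x

/-- The residual function on a branch is the reduction of the expansion. -/
theorem coe_curve_red {M p : ℕ} [NeZero M] [NeZero p] (hp : p.Prime) (hpM : ¬ p ∣ M)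
    {A : ValuationSubring Qbar} (hA : A.LiesOverPrime p) {i : Fin 2}
    {x : modularFunctionFieldBar (M * p)} (hx : x ∈ (BAD.Modular.curve hp hpM hA).V i) :
    ∃ h : BAD.Modular.emb M hp hpM i x ∈ BAD.Gauss.gaussRing (residue A),
      (((BAD.Modular.curve hp hpM hA).red i x :
        modularFunctionFieldFullC (ResidueField A) M) : LaurentSeries (ResidueField A)) =
      BAD.Gauss.gaussRed (residue A) ⟨_, h⟩ := by
  have hb : x ∈ (BAD.Modular.twin M hp hpM hA).branch i :=
    (BAD.Modular.mem_curve_V hp hpM hA).mp hx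
  have hr : (BAD.Modular.twin M hp hpM hA).Red i x
      ((BAD.Modular.twin M hp hpM hA).branchRed i ⟨x, hb⟩) := ⟨hb, rfl⟩
  refine ⟨hb, ?_⟩
  rw [BAD.Modular.curve_red_eq hp hpM hA (c := ⟨_, hr.mem⟩) hr]
  rfl

/-- A series with vanishing logarithmic derivative is a series in `q ^ p`. -/
theorem mem_range_qExpand_of_thetaLog_eq_zero {k : Type*} [Field k] {p : ℕ} [NeZero p] [CharP k p]
    {m : ℤ} (hm : (p : ℤ) ∣ m) {c : k} {u : PowerSeries k}
    (hu : PowerSeries.constantCoeff u = 1) (h : thetaLog u = 0) :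
    HahnSeries.single m c * HahnSeries.ofPowerSeries ℤ k u ∈ Set.range (qExpand k p) := by
  have hcoef : ∀ n : ℕ, (n : k) * PowerSeries.coeff n u = 0 := by
    intro n
    have h' := congrArg (fun z => PowerSeries.coeff n z) (mul_thetaLog hu)
    rw [h] at h'
    rcases n with _ | n
    · simp
    · simp only [mul_zero, map_zero, PowerSeries.coeff_succ_X_mul,
        PowerSeries.coeff_derivative] at h'
      rw [Nat.cast_succ, mul_comm]
      exact h'.symm
  refine mul_mem (s := (qExpand k p).range) ?_ ?_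
  · obtain ⟨t, rfl⟩ := hm
    exact ⟨HahnSeries.single t c, qExpand_single _ _ _⟩
  · refine ⟨HahnSeries.ofPowerSeries ℤ k (PowerSeries.mk fun n => PowerSeries.coeff (p * n) u), ?_⟩
    rw [Igusa.qExpand_ofPowerSeries]
    congr 1
    ext n
    rw [PowerSeries.coeff_expand]
    split_ifs with hn
    · rw [PowerSeries.coeff_mk, Nat.mul_div_cancel' hn]
    · exact ((mul_eq_zero.mp (hcoef n)).resolve_left
        fun h0 => hn ((CharP.cast_eq_zero_iff k p n).mp h0)).symm

/-- A function with orders divisible by `p` and vanishing logarithmic derivative is a `p`-th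
power. -/
theorem exists_pow_of_thetaLog_eq_zero {k : Type} [Field k] [IsAlgClosed k] {p : ℕ} [NeZero p]
    [Fact p.Prime] [CharP k p] (C : IntermediateField k (LaurentSeries k))
    [FF.IsFunctionField k C] {j : C} (hjt : Transcendental k (j : LaurentSeries k))
    (hj : (j : LaurentSeries k).order = -1) {c : C} (hc : c ≠ 0)
    (hdiv : ∀ v : Place k C, (p : ℤ) ∣ v.ord c) {u : PowerSeries k}
    (hu : PowerSeries.constantCoeff u = 1) {m : ℤ} {a : k} (hm : m = (c : LaurentSeries k).order)
    (hcu : (c : LaurentSeries k) = HahnSeries.single m a * HahnSeries.ofPowerSeries ℤ k u)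
    (h0 : thetaLog u = 0) : ∃ b, b ^ p = c := by
  have hj0 : (j : LaurentSeries k).order ≠ 0 := by rw [hj]; decide
  refine BAD.Ordinary.exists_pow_of_mem_range (x := j) (fun hj' => hjt (hj'.algHom C.val))
    C.val.toRingHom (fun b hb => ?_) ?_
  · have h1 := congrArg HahnSeries.order hb
    rcases eq_or_ne b 0 with rfl | hb0
    · rw [map_zero, HahnSeries.order_zero] at h1
      exact hj0 h1.symm
    rw [order_qExpand p hb0] at h1
    have h2 : (p : ℤ) * b.order = -1 := h1.trans hj
    have h3 : (p : ℤ) ∣ 1 := ⟨-b.order, by linarith⟩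
    exact (Fact.out : p.Prime).one_lt.ne' (Nat.dvd_one.mp (by exact_mod_cast h3))
  · show (c : LaurentSeries k) ∈ _
    rw [hcu]
    exact mem_range_qExpand_of_thetaLog_eq_zero (hm ▸ dvd_order_of_forall_dvd_ord C hj0 hc hdiv)
      hu h0

theorem isResiduallyModularOfLevel_of_residual (h29 : CondLevel.ResidualAttachment)
    (W : WeierstrassCurve ℤ) (hΔ : W.Δ ≠ 0) {M p : ℕ} [NeZero M] [NeZero p] [Fact p.Prime]
    (hp : p.Prime) (hpM : ¬ p ∣ M) {A : ValuationSubring Qbar} (hA : A.LiesOverPrime p)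
    (S : Finset ℕ) {f : modularFunctionFieldBar (M * p)}
    (hT : ∀ ℓ : ℕ, ℓ.Prime → ℓ ∉ S → ∀ [NeZero ℓ], ∃ g : modularFunctionFieldBar (M * p),
      g ≠ 0 ∧ heckeFun Qbar (M * p) ℓ f = f ^ (W.apOfModel ℓ : ℤ) * g ^ p)
    (i : Fin 2) {d : Qbar} (hd : d • f ∈ (BAD.Modular.curve hp hpM hA).V i)
    (hred : (BAD.Modular.curve hp hpM hA).red i (d • f) ≠ 0)
    (hdiv : ∀ x : Place (ResidueField A) (modularFunctionFieldFullC (ResidueField A) M),
      (p : ℤ) ∣ x.ord ((BAD.Modular.curve hp hpM hA).red i (d • f)))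
    (hnot : ∀ b, b ^ p ≠ (BAD.Modular.curve hp hpM hA).red i (d • f)) :
    W.IsResiduallyModularOfLevel p M := by
  classical
  haveI := Galois.place_charP_residueField hA hp
  haveI := Galois.place_residueField_isAlgClosed A
  haveI := RED.isFunctionField_special (k := ResidueField A) (N := M)
    (RED.natCast_residue_ne_zero hp hpM hA)
  set C := modularFunctionFieldFullC (ResidueField A) M
  have hd0 : d ≠ 0 := fun h => hred (by rw [h, zero_smul, BAD.TwoBranch.red_zero])
  obtain ⟨w, hwser, hwT⟩ := exists_emb_transform hp hpM i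
  obtain ⟨hmem, hcoe⟩ := coe_curve_red hp hpM hA hd
  set c : C := (BAD.Modular.curve hp hpM hA).red i (d • f)
  have hsc := scalable_modField (residue A) hp.two_le (BAD.Modular.resChar hp hA) (M * p)
  set F := w (d • f)
  have hFser : (F : LaurentSeries Qbar) = BAD.Modular.emb M hp hpM i (d • f) := hwser _
  have hF : (F : LaurentSeries Qbar) ∈ BAD.Gauss.gaussRing (residue A) := hFser ▸ hmem
  have hFc : BAD.Gauss.gaussRed (residue A) ⟨_, hF⟩ = (c : LaurentSeries (ResidueField A)) := by
    rw [hcoe]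
    exact congrArg _ (Subtype.ext hFser)
  have hc0 : (c : LaurentSeries (ResidueField A)) ≠ 0 := fun h => hred (Subtype.ext h)
  obtain ⟨u, hu, hsplit⟩ := exists_split hc0
  have hcomb := isFormsComb_thetaLog hp hpM hA c hred hdiv hu hsplit
  let j : C := ⟨jqModC (ResidueField A), jqModC_mem_full _ M⟩
  refine isResiduallyModularOfLevel_of_series h29 W hΔ p (S ∪ (M * p).primeFactors)
    (fun q hq => Finset.mem_union_right _ (Nat.primeFactors_mono (dvd_mul_right M p)
      (NeZero.ne (M * p)) hq)) _ hcomb ?_ fun ℓ hℓ hℓS N => ?_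
  · by_contra hall
    push Not at hall
    have h0 : thetaLog u = 0 := PowerSeries.ext fun n => by simpa using hall n
    exact (exists_pow_of_thetaLog_eq_zero C (j := j) (MF.Coeff.transcendental_jqModC (ResidueField A))
      (BAD.Modular.order_jqModC _) hred hdiv hu rfl hsplit h0).elim hnot
  · rw [Finset.mem_union, not_or] at hℓS
    haveI : NeZero ℓ := ⟨hℓ.ne_zero⟩
    have hℓN : ¬ ℓ ∣ M * p := fun h =>
      hℓS.2 (Nat.mem_primeFactors.mpr ⟨hℓ, h, NeZero.ne (M * p)⟩)
    have hℓp : ℓ ≠ p := fun h => hℓN (h ▸ dvd_mul_left ℓ M)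
    obtain ⟨g, hg, e⟩ := hT ℓ hℓ hℓS.1
    obtain ⟨g', hg', e'⟩ := exists_heckeFun_smul (n := p) hp.ne_zero hℓ hℓN hg e hd0
    have hwe := congrArg w e'
    rw [hwT ℓ hℓ hℓN, map_mul, map_zpow₀, map_pow] at hwe
    exact thetaLog_eigen_of_heckeFun (residue A) hp hsc hℓ hℓN hℓp ((map_ne_zero w).mpr hg') hwe
      hF (by rw [hFc]; exact hc0) hu (hFc.trans hsplit) N

end Fermat.Agent.LLp
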