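import Fermat.Agent.LLp.DegenDefs
import Fermat.Agent.FF.PushPull
import Fermat.Agent.HK.CorrGalois
import Fermat.Agent.JPairing.Weil

/-!
# Norms and class functions along maps of function fields
-/

set_option autoImplicit false
set_option linter.style.haveILetI false

noncomputable section

namespace Fermat.Agent.LLp

open AlgebraicCurve

variable {K F F' F'' : Type*} [Field K] [Field F] [Field F'] [Field F''] [Algebra K F]
  [Algebra K F'] [Algebra K F'']

theorem normAlong_mul (φ : F →ₐ[K] F') (f g : F') :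
    normAlong φ (f * g) = normAlong φ f * normAlong φ g := by
  letI := algebraAlong φ
  exact map_mul (Algebra.norm F) f g

theorem normAlong_apply (φ : F →ₐ[K] F') (x : F) :
    normAlong φ (φ x) = x ^ finrankAlong K φ := by
  letI := algebraAlong φ
  exact Algebra.norm_algebraMap x

/-- The norm is natural in isomorphisms of the two fields. -/
theorem normAlong_natural {E E' : Type*} [Field E] [Field E'] [Algebra K E] [Algebra K E']
    (φ : F →ₐ[K] F') (ψ : E →ₐ[K] E') (e : F ≃+* E) (e' : F' ≃+* E')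
    (h : ∀ x, e' (φ x) = ψ (e x)) (f : F') :
    normAlong ψ (e' f) = e (normAlong φ f) := by
  letI := algebraAlong φ
  letI := algebraAlong ψ
  have h' : (algebraMap E E').comp e.toRingHom = e'.toRingHom.comp (algebraMap F F') :=
    RingHom.ext fun x => (h x).symm
  have := Algebra.norm_eq_of_equiv_equiv e e' h' f
  show Algebra.norm E (e' f) = e (Algebra.norm F f)
  rw [this, e.apply_symm_apply]

theorem normAlong_algEquiv (φ : F →ₐ[K] F') (ψ : F →ₐ[K] F'') (e : F' ≃ₐ[K] F'')
    (h : ∀ x, e (φ x) = ψ x) (f : F') : normAlong ψ (e f) = normAlong φ f :=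
  normAlong_natural φ ψ (RingEquiv.refl F) e.toRingEquiv h f

/-! ### Class functions -/

section IsClassFun

variable {n : ℕ} {P Q : Pic0 K F} {f g : F}

theorem IsClassFun.exists_of_torsion (hn : (n : ℤ) • P = 0) : ∃ f, IsClassFun n P f := by
  obtain ⟨D, rfl⟩ := Pic0.mk_surjective P
  have hz : Pic0.mk ((n : ℤ) • D) = 0 := hn
  rw [Pic0.mk, QuotientAddGroup.eq_zero_iff, AddSubgroup.mem_addSubgroupOf] at hz
  obtain ⟨f, hf, hfD⟩ := hz
  exact ⟨f, hf, D, rfl, fun v => by simpa using hfD v⟩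

theorem IsClassFun.mul_aux (hf : IsClassFun n P f) (hg : IsClassFun n Q g) :
    IsClassFun n (P + Q) (f * g) := by
  obtain ⟨hf0, D, rfl, hD⟩ := hf
  obtain ⟨hg0, E, rfl, hE⟩ := hg
  refine ⟨mul_ne_zero hf0 hg0, D + E, rfl, fun v => ?_⟩
  rw [AddSubgroup.coe_add, Finsupp.add_apply, mul_add, hD, hE, v.ord_mul hf0 hg0]

theorem IsClassFun.one_aux : IsClassFun n (0 : Pic0 K F) (1 : F) :=
  ⟨one_ne_zero, 0, rfl, fun v => by simp⟩

theorem IsClassFun.pow_aux (hf : IsClassFun n P f) (m : ℕ) :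
    IsClassFun n (m • P) (f ^ m) := by
  induction m with
  | zero => simpa using IsClassFun.one_aux
  | succ m ih => rw [succ_nsmul, pow_succ]; exact ih.mul_aux hf

theorem IsClassFun.inv_aux (hf : IsClassFun n P f) : IsClassFun n (-P) f⁻¹ := by
  obtain ⟨hf0, D, rfl, hD⟩ := hf
  refine ⟨inv_ne_zero hf0, -D, rfl, fun v => ?_⟩
  rw [AddSubgroup.coe_neg, Finsupp.neg_apply, mul_neg, hD, v.ord_inv]

theorem IsClassFun.smul_aux (hf : IsClassFun n P f) (s : SemilinearAut K F) :
    IsClassFun n (s • P) (s • f) := by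
  obtain ⟨hf0, D, rfl, hD⟩ := hf
  refine ⟨fun h => hf0 ?_, SemilinearAut.degZeroSMulHom s D,
    (SemilinearAut.pic0_smul_mk s D).symm, fun v => ?_⟩
  · rw [← inv_smul_smul s f, h, smul_zero]
  · rw [SemilinearAut.coe_degZeroSMulHom, SemilinearAut.divisor_smul_apply, hD,
      ← SemilinearAut.ord_smul s, smul_inv_smul]

variable [IsAlgClosed K] [FF.IsFunctionField K F] [HasPrincipalDivisors K F]

theorem isClassFun_zero_iff_aux (hn : n ≠ 0) :
    IsClassFun n (0 : Pic0 K F) f ↔ ∃ g : F, g ≠ 0 ∧ f = g ^ n := by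
  constructor
  · rintro ⟨hf, D, hD, hv⟩
    rw [Pic0.mk, QuotientAddGroup.eq_zero_iff, AddSubgroup.mem_addSubgroupOf] at hD
    obtain ⟨g, hg, hgD⟩ := hD
    have hgn : g ^ n ≠ 0 := pow_ne_zero _ hg
    obtain ⟨c, hc⟩ := JPairing.eq_algebraMap_of_forall_ord_eq_zero (K := K) (f := f * (g ^ n)⁻¹)
      fun v => by
        rw [v.ord_mul hf (inv_ne_zero hgn), v.ord_inv, ← zpow_natCast g n, v.ord_zpow, ← hv,
          hgD]
        ring
    obtain ⟨r, hr⟩ := IsAlgClosed.exists_pow_nat_eq c (Nat.pos_of_ne_zero hn)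
    have e : f = (algebraMap K F r * g) ^ n := by
      rw [mul_pow, ← map_pow, hr, hc, inv_mul_cancel_right₀ hgn]
    refine ⟨algebraMap K F r * g, fun h => hf ?_, e⟩
    rw [e, h, zero_pow hn]
  · rintro ⟨g, hg, rfl⟩
    obtain ⟨D, hD, hdeg⟩ := HasPrincipalDivisors.exists_divisor (K := K) g hg
    refine ⟨pow_ne_zero _ hg, ⟨D, hdeg⟩, ?_, fun v => ?_⟩
    · rw [Pic0.mk, QuotientAddGroup.eq_zero_iff, AddSubgroup.mem_addSubgroupOf]
      exact ⟨g, hg, hD⟩
    · rw [← zpow_natCast g n, v.ord_zpow]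
      exact congrArg _ (hD v)

theorem IsClassFun.unique_aux (hn : n ≠ 0) (hf : IsClassFun n P f) (hg : IsClassFun n P g) :
    ∃ r : F, r ≠ 0 ∧ g = f * r ^ n := by
  have h := hg.mul_aux hf.inv_aux
  rw [add_neg_cancel] at h
  obtain ⟨r, hr, e⟩ := (isClassFun_zero_iff_aux hn).mp h
  exact ⟨r, hr, by rw [← e, mul_comm f, inv_mul_cancel_right₀ hf.1]⟩

end IsClassFun

/-! ### Push and pull -/

section Push

variable (φ : F →ₐ[K] F') (hφ : φ.toRingHom.IsIntegral) (hfin : FiniteAlong K φ)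
  (hN : NormFormulaAlong K φ hfin)

/-- Pushforward of divisor classes along `φ`. -/
def pushPic0 : Pic0 K F' →+ Pic0 K F :=
  QuotientAddGroup.map _ _
    (((Divisor.pushforwardAlong φ hφ).domRestrict (Divisor.degZero (K := K) (F := F'))).codRestrict
      (Divisor.degZero (K := K) (F := F))
      fun D => Divisor.pushforwardAlong_mem_degZero φ hφ D.2) (by
    rintro ⟨D, hD0⟩ hD
    simp only [AddSubgroup.mem_addSubgroupOf] at hD ⊢
    exact Divisor.isPrincipal_pushforwardAlong φ hφ hfin hN hD)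

theorem pushPic0_mk (D : Divisor.degZero (K := K) (F := F')) :
    pushPic0 φ hφ hfin hN (Pic0.mk D) = Pic0.mk ⟨Divisor.pushforwardAlong φ hφ D,
      Divisor.pushforwardAlong_mem_degZero φ hφ D.2⟩ :=
  rfl

include hfin hN in
theorem ord_normAlong {f : F'} (hf : f ≠ 0) {D : Divisor K F'} (hD : ∀ w, D w = w.ord f)
    (v : Place K F) : Divisor.pushforwardAlong φ hφ D v = v.ord (normAlong φ f) := by
  letI := algebraAlong φ
  haveI := isScalarTower_along φ
  haveI := isIntegral_along φ hφ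
  haveI : Module.Finite F F' := hfin
  exact hN f hf D hD v

include hfin in
theorem normAlong_ne_zero {f : F'} (hf : f ≠ 0) : normAlong φ f ≠ 0 := by
  letI := algebraAlong φ
  haveI : Module.Finite F F' := hfin
  exact Algebra.norm_ne_zero_iff.mpr hf

theorem IsClassFun.pushforward {n : ℕ} {P : Pic0 K F'} {f : F'} (hf : IsClassFun n P f) :
    IsClassFun n (pushPic0 φ hφ hfin hN P) (normAlong φ f) := by
  obtain ⟨hf0, D, rfl, hD⟩ := hf
  refine ⟨normAlong_ne_zero φ hfin hf0, _, (pushPic0_mk φ hφ hfin hN D).symm, fun v => ?_⟩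
  have h := ord_normAlong φ hφ hfin hN hf0 (D := (n : ℤ) • (D : Divisor K F'))
    (fun w => by rw [Finsupp.smul_apply, smul_eq_mul, hD]) v
  rw [map_zsmul, Finsupp.smul_apply, smul_eq_mul] at h
  exact h

theorem IsClassFun.pullback [HasPrincipalDivisors K F'] (ψ : F →ₐ[K] F')
    (hψ : ψ.toRingHom.IsIntegral) (hFI : FundamentalIdentityAlong K ψ hψ) {n : ℕ}
    {D : Divisor.degZero (K := K) (F := F)} {f : F} (hf : f ≠ 0)
    (hD : ∀ v, (n : ℤ) * (D : Divisor K F) v = v.ord f) :
    IsClassFun n (Pic0.mk ⟨Divisor.pullbackAlong ψ hψ D,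
      Divisor.pullbackAlong_mem_degZero ψ hψ hFI D.2⟩) (ψ f) := by
  refine ⟨(map_ne_zero ψ).mpr hf, _, rfl, fun w => ?_⟩
  rw [Place.ord_restrictAlong ψ hψ, ← hD, Divisor.pullbackAlong_apply]
  ring

theorem pushPic0_smul {g : SemilinearAut K F} {g' : SemilinearAut K F'}
    (h : SemilinearAut.IntertwinesAlong φ.toRingHom g g') (x : Pic0 K F') :
    pushPic0 φ hφ hfin hN (g' • x) = g • pushPic0 φ hφ hfin hN x := by
  obtain ⟨D, rfl⟩ := Pic0.mk_surjective x
  rw [SemilinearAut.pic0_smul_mk, pushPic0_mk, pushPic0_mk, SemilinearAut.pic0_smul_mk]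
  exact congrArg Pic0.mk (Subtype.ext (HK.Corr.pushforwardAlong_smul φ hφ h _))

end Push

/-- Pushing the correspondence `s_* t^*` along `a` gives the correspondence `a₁_* b^*`. -/
theorem pushforwardAlong_correspondence {F₁ F₂ Z : Type*} [Field F₁] [Field F₂] [Field Z]
    [Algebra K F₁] [Algebra K F₂] [Algebra K Z] [HasPrincipalDivisors K F₁]
    [HasPrincipalDivisors K F₂] [HasPrincipalDivisors K Z]
    {b a₁ : F →ₐ[K] F₁} {a : F →ₐ[K] F₂} {u : F₁ →ₐ[K] Z} {t s : F₂ →ₐ[K] Z}
    (hsq : u.comp b = t.comp a) (hsq' : u.comp a₁ = s.comp a)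
    (hb : b.toRingHom.IsIntegral) (ha₁ : a₁.toRingHom.IsIntegral) (ha : a.toRingHom.IsIntegral)
    (hu : u.toRingHom.IsIntegral) (ht : t.toRingHom.IsIntegral) (hs : s.toRingHom.IsIntegral)
    (hafin : FiniteAlong K a) (hufin : FiniteAlong K u)
    (hasep : SeparableAlong K a) (husep : SeparableAlong K u)
    (hgen : u.fieldRange ⊔ t.fieldRange = ⊤) (hdeg : finrankAlong K u = finrankAlong K a)
    (D : Divisor K F₂) :
    Divisor.pushforwardAlong a ha (Divisor.correspondence t s ht hs D) =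
      Divisor.correspondence b a₁ hb ha₁ (Divisor.pushforwardAlong a ha D) := by
  have hsa := FF.isIntegral_comp a s ha hs
  have hua := FF.isIntegral_comp a₁ u ha₁ hu
  have h : Divisor.pushforwardAlong (s.comp a) hsa = Divisor.pushforwardAlong (u.comp a₁) hua := by
    revert hsa hua
    rw [hsq']
    intros
    rfl
  rw [Divisor.correspondence_apply, Divisor.correspondence_apply,
    FF.pullbackAlong_pushforwardAlong_of_cartesian b a u t hsq hb ha hu ht hafin hufin hasep husep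
      hgen hdeg,
    ← AddMonoidHom.comp_apply, ← FF.pushforwardAlong_comp a s ha hs hsa, h,
    FF.pushforwardAlong_comp a₁ u ha₁ hu hua, AddMonoidHom.comp_apply]

end Fermat.Agent.LLp
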