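import Fermat.Agent.HK.Degen
import Fermat.Prelude.Def_ModularCurve_HeckeModule

/-!
# Norms along degeneracy maps and functions attached to torsion classes
-/

set_option autoImplicit false

noncomputable section

namespace Fermat.Agent.LLp

open AlgebraicCurve ModularCurve HK.Corr

/-- The field norm along an algebra map of fields. -/
def normAlong {K F F' : Type*} [Field K] [Field F] [Field F'] [Algebra K F] [Algebra K F']
    (φ : F →ₐ[K] F') (f : F') : F :=
  letI := algebraAlong φ
  Algebra.norm F f

/-- `f` has divisor `n` times a divisor representing `P`. -/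
def IsClassFun {K F : Type*} [Field K] [Field F] [Algebra K F] (n : ℕ) (P : Pic0 K F) (f : F) :
    Prop :=
  f ≠ 0 ∧ ∃ D : Divisor.degZero (K := K) (F := F),
    Pic0.mk D = P ∧ ∀ v : Place K F, (n : ℤ) * (D : Divisor K F) v = v.ord f

/-- `T_ℓ` on functions of level `N`: pull back along `β`, take the norm along `α`. -/
def heckeFun (L : Type*) [Field L] [Algebra ℚ L] (N ℓ : ℕ) [NeZero N] [NeZero ℓ]
    (f : modField L N) : modField L N :=
  normAlong (heckeAlphaBar L N ℓ) (heckeBetaBar L N ℓ f)

/-- `w` exchanges the two degeneracy maps from level `M` to level `M * p`. -/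
structure IsSwap (L : Type*) [Field L] [Algebra ℚ L] (M p : ℕ) [NeZero M] [NeZero p]
    (w : modField L (M * p) ≃ₐ[L] modField L (M * p)) : Prop where
  map_alpha : ∀ x, w (heckeAlphaBar L M p x) = heckeBetaBar L M p x
  map_beta : ∀ x, w (heckeBetaBar L M p x) = heckeAlphaBar L M p x

end Fermat.Agent.LLp
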