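import Fermat.Agent.LLp.DegenAux
import Fermat.Agent.RED.Specialization.NormExpansion
import Fermat.Agent.Igusa.Series
import Fermat.Agent.HK.HeckeFinal

/-!
# The swap of level `M p` over an arbitrary field of constants
-/

set_option autoImplicit false
set_option linter.style.haveILetI false
set_option linter.unusedVariables false
set_option linter.unusedSectionVars false

noncomputable section

namespace Fermat.Agent.LLp

open AlgebraicCurve ModularCurve HK.Corr
open Fermat.Agent.Igusa (qScale)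

variable {L : Type*} [Field L] [Algebra ℚ L]

private theorem twist_eq_qScale {R : Type*} [CommRing R] (u : Rˣ) (x : LaurentSeries R) :
    RED.Spec.twist u x = qScale u x :=
  rfl

variable (M p : ℕ) [NeZero M] [NeZero p]

theorem fieldRange_alpha_sup_beta (hp : p.Prime) :
    (heckeAlphaBar L M p).fieldRange ⊔ (heckeBetaBar L M p).fieldRange = ⊤ := by
  have h1 : M * 1 ∣ M * p := mul_dvd_mul_left M (one_dvd p)
  rw [heckeAlphaBar_eq_degenMap M p h1, heckeBetaBar_eq_degenMap M p dvd_rfl, eq_top_iff]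
  intro x _
  have hmap : (x : LaurentSeries L) ∈
      ((degenMap L 1 h1).fieldRange ⊔ (degenMap L p (dvd_refl (M * p))).fieldRange).map
        (modField L (M * p)).val := by
    rw [IntermediateField.map_sup, fieldRange_degenMap, fieldRange_degenMap, map_qExpandAlg_one]
    refine (show modField L (M * p) ≤ _ from modField_le_iff.mpr fun d hd hd0 => ?_) x.2
    by_cases hpd : p ∣ d
    · obtain ⟨e, rfl⟩ := hpd
      haveI : NeZero e := ⟨right_ne_zero_of_mul hd0.out⟩
      have he : e ∣ M := Nat.dvd_of_mul_dvd_mul_left hp.pos (mul_comm M p ▸ hd)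
      refine SetLike.le_def.mp le_sup_right ⟨qExpand L e (jSer L), qExpand_jSer_mem he, ?_⟩
      show qExpand L p (qExpand L e (jSer L)) = _
      rw [qExpand_qExpand]
    · exact SetLike.le_def.mp le_sup_left (qExpand_jSer_mem
        ((hp.coprime_iff_not_dvd.mpr hpd).symm.dvd_of_dvd_mul_right hd))
  obtain ⟨y, hy, hyx⟩ := hmap
  rwa [← Subtype.ext hyx]

theorem hom_ext_alpha_beta (hp : p.Prime) {E : Type*} [Field E]
    {f g : modField L (M * p) →+* E}
    (ha : ∀ x, f (heckeAlphaBar L M p x) = g (heckeAlphaBar L M p x))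
    (hb : ∀ x, f (heckeBetaBar L M p x) = g (heckeBetaBar L M p x)) : f = g := by
  let S : IntermediateField L (modField L (M * p)) :=
    Subfield.toIntermediateField (f.eqLocusField g) fun c => by
      show f _ = g _
      rw [← (heckeAlphaBar L M p).commutes c, ha]
  have h : (heckeAlphaBar L M p).fieldRange ⊔ (heckeBetaBar L M p).fieldRange ≤ S := by
    refine sup_le ?_ ?_
    · rintro _ ⟨x, rfl⟩
      exact ha x
    · rintro _ ⟨x, rfl⟩
      exact hb x
  rw [fieldRange_alpha_sup_beta M p hp] at h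
  exact RingHom.ext fun x => h (IntermediateField.mem_top (x := x))

theorem exists_isSwap_of_embedding (ι : L →+* ℂ) (hp : p.Prime) (hpM : ¬ p ∣ M) :
    ∃ w : modField L (M * p) ≃ₐ[L] modField L (M * p), IsSwap L M p w := by
  obtain ⟨φ, hφα, hφβ⟩ := RED.Spec.exists_swap_embedding (L := L) (N := M) ι hp hpM
  have hmem : ∀ x : modField L (M * p), φ x ∈ modField L (M * p) := by
    intro x
    let S : IntermediateField L (modField L (M * p)) :=
      (modField L (M * p)).comap φ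
    have h : (heckeAlphaBar L M p).fieldRange ⊔ (heckeBetaBar L M p).fieldRange ≤ S := by
      refine sup_le ?_ ?_
      · rintro _ ⟨y, rfl⟩
        show φ (heckeAlphaBar L M p y) ∈ modField L (M * p)
        rw [hφα, ← coe_heckeBetaBar M p y]
        exact (heckeBetaBar L M p y).2
      · rintro _ ⟨y, rfl⟩
        show φ (heckeBetaBar L M p y) ∈ modField L (M * p)
        rw [hφβ, ← coe_heckeAlphaBar M p y]
        exact (heckeAlphaBar L M p y).2
    rw [fieldRange_alpha_sup_beta M p hp] at h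
    exact h (IntermediateField.mem_top (x := x))
  let w₀ : modField L (M * p) →ₐ[L] modField L (M * p) :=
    φ.codRestrict (modField L (M * p)).toSubalgebra hmem
  have ha : ∀ x, w₀ (heckeAlphaBar L M p x) = heckeBetaBar L M p x := fun x =>
    Subtype.ext ((hφα x).trans (coe_heckeBetaBar M p x).symm)
  have hb : ∀ x, w₀ (heckeBetaBar L M p x) = heckeAlphaBar L M p x := fun x =>
    Subtype.ext ((hφβ x).trans (coe_heckeAlphaBar M p x).symm)
  have hinv : ∀ x, w₀ (w₀ x) = x := DFunLike.congr_fun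
    (hom_ext_alpha_beta M p hp (f := (w₀.comp w₀).toRingHom) (g := RingHom.id _)
      (fun x => by simp [ha, hb]) (fun x => by simp [ha, hb]))
  exact ⟨AlgEquiv.ofAlgHom w₀ w₀ (AlgHom.ext hinv) (AlgHom.ext hinv), ⟨ha, hb⟩⟩

variable {M p} {w : modField L (M * p) ≃ₐ[L] modField L (M * p)}

theorem IsSwap.involutive (hw : IsSwap L M p w) (hp : p.Prime) (hpM : ¬ p ∣ M) (x) :
    w (w x) = x := by
  exact DFunLike.congr_fun
    (hom_ext_alpha_beta M p hp (f := (w.toRingEquiv.trans w.toRingEquiv).toRingHom)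
      (g := RingHom.id _) (fun x => by simp [hw.map_alpha, hw.map_beta])
      (fun x => by simp [hw.map_alpha, hw.map_beta])) x

theorem IsSwap.galois (hw : IsSwap L M p w) (hp : p.Prime) (hpM : ¬ p ∣ M)
    (σ : L ≃ₐ[ℚ] L) (x : modField L (M * p)) :
    w (arithmeticRingAut _ σ x) = arithmeticRingAut _ σ (w x) := by
  have hga : ∀ y, arithmeticRingAut (modularFunctionFieldFull (M * p)) σ (heckeAlphaBar L M p y) =
      heckeAlphaBar L M p (arithmeticRingAut (modularFunctionFieldFull M) σ y) :=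
    intertwines_heckeAlphaBar M p σ
  have hgb : ∀ y, arithmeticRingAut (modularFunctionFieldFull (M * p)) σ (heckeBetaBar L M p y) =
      heckeBetaBar L M p (arithmeticRingAut (modularFunctionFieldFull M) σ y) :=
    intertwines_heckeBetaBar M p σ
  exact DFunLike.congr_fun
    (hom_ext_alpha_beta M p hp
      (f := ((arithmeticRingAut (modularFunctionFieldFull (M * p)) σ).trans w.toRingEquiv).toRingHom)
      (g := (w.toRingEquiv.trans (arithmeticRingAut (modularFunctionFieldFull (M * p)) σ)).toRingHom)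
      (fun y => by simp [hga, hgb, hw.map_alpha])
      (fun y => by simp [hga, hgb, hw.map_beta])) x

/-- Series of the norm along `α`. -/
theorem IsSwap.qExpand_norm_alpha (hw : IsSwap L M p w) (hp : p.Prime) (hpM : ¬ p ∣ M)
    (ζ : Lˣ) (hζ : IsPrimitiveRoot ζ p) (f : modField L (M * p)) :
    qExpand L p ↑(normAlong (heckeAlphaBar L M p) f) =
      qExpand L p (f : LaurentSeries L) *
        ∏ i : Fin p, qScale (ζ ^ (i : ℕ)) (w f : LaurentSeries L) := by
  letI := algebraAlong (heckeAlphaBar L M p)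
  haveI : Module.Finite (modField L M) (modField L (M * p)) :=
    finiteAlong_heckeAlphaBar M p (degreeInput L)
  haveI : Algebra.IsSeparable (modField L M) (modField L (M * p)) :=
    separableAlong_heckeAlphaBar M p (degreeInput L)
  let e : Option (Fin p) → (modField L (M * p) →+* LaurentSeries L) := fun o =>
    o.elim ((qExpand L p).comp (modField L (M * p)).val.toRingHom)
      fun i => ((qScale (ζ ^ (i : ℕ))).comp (modField L (M * p)).val.toRingHom).comp
        w.toRingEquiv.toRingHom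
  have hnone : ∀ g, e none g = qExpand L p (g : LaurentSeries L) := fun g => rfl
  have hsome : ∀ i g, e (some i) g = qScale (ζ ^ (i : ℕ)) (w g : LaurentSeries L) :=
    fun i g => rfl
  have key := RED.Spec.map_norm_eq_prod
    ((qExpand L p).comp (modField L M).val.toRingHom) e ?_
    (heckeBetaBar L M p ⟨jSer L, jSer_mem_modField M⟩) ?_ ?_ f
  · refine key.trans ?_
    rw [Fintype.prod_option, hnone]
    simp only [hsome]
  · intro o x
    show e o (heckeAlphaBar L M p x) = qExpand L p (x : LaurentSeries L)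
    rcases o with _ | i
    · rw [hnone, coe_heckeAlphaBar]
    · rw [hsome, hw.map_alpha, coe_heckeBetaBar, ← twist_eq_qScale, RED.Spec.twist_qExpand]
      rw [← pow_mul, mul_comm, pow_mul, hζ.pow_eq_one, one_pow]
  · intro o o' h
    apply RED.Spec.separated_jSer hp ζ hζ
    rcases o with _ | i <;> rcases o' with _ | j <;>
      simpa only [hnone, hsome, hw.map_beta, coe_heckeBetaBar, coe_heckeAlphaBar, qExpand_qExpand,
        twist_eq_qScale, Option.elim] using h
  · rw [Fintype.card_option, Fintype.card_fin]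
    exact (finrankAlong_heckeAlphaBar_of_not_dvd M p (degreeInput L) hp hpM).symm

theorem IsSwap.norm_beta (hw : IsSwap L M p w) (hp : p.Prime) (hpM : ¬ p ∣ M)
    (f : modField L (M * p)) :
    normAlong (heckeBetaBar L M p) f = normAlong (heckeAlphaBar L M p) (w f) := by
  exact (normAlong_algEquiv _ _ w hw.map_beta f).symm

theorem qExpand_heckeFun_of_embedding (ι : L →+* ℂ) {N ℓ : ℕ} [NeZero N] [NeZero ℓ] (hℓ : ℓ.Prime) (hℓN : ¬ ℓ ∣ N)
    (ζ : Lˣ) (hζ : IsPrimitiveRoot ζ ℓ) (f : modField L N) :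
    qExpand L ℓ ↑(heckeFun L N ℓ f) =
      qExpand L (ℓ * ℓ) (f : LaurentSeries L) *
        ∏ i : Fin ℓ, qScale (ζ ^ (i : ℕ)) (f : LaurentSeries L) := by
  obtain ⟨v, hv⟩ := exists_isSwap_of_embedding N ℓ ι hℓ hℓN
  rw [LLp.heckeFun, hv.qExpand_norm_alpha hℓ hℓN ζ hζ, hv.map_beta, coe_heckeAlphaBar,
    coe_heckeBetaBar, qExpand_qExpand]

theorem heckeFun_mul {N ℓ : ℕ} [NeZero N] [NeZero ℓ] (f g : modField L N) :
    heckeFun L N ℓ (f * g) = heckeFun L N ℓ f * heckeFun L N ℓ g := by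
  rw [heckeFun, map_mul, normAlong_mul]
  rfl

theorem heckeFun_algebraMap {N ℓ : ℕ} [NeZero N] [NeZero ℓ] (hℓ : ℓ.Prime) (hℓN : ¬ ℓ ∣ N)
    (c : L) : heckeFun L N ℓ (algebraMap L _ c) = algebraMap L _ (c ^ (ℓ + 1)) := by
  rw [heckeFun, AlgHom.commutes, ← (heckeAlphaBar L N ℓ).commutes c, normAlong_apply,
    finrankAlong_heckeAlphaBar_of_not_dvd N ℓ (degreeInput L) hℓ hℓN, map_pow]

theorem heckeFun_galois {N ℓ : ℕ} [NeZero N] [NeZero ℓ] (hℓ : ℓ.Prime) (hℓN : ¬ ℓ ∣ N)
    (σ : L ≃ₐ[ℚ] L) (f : modField L N) :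
    heckeFun L N ℓ (arithmeticRingAut _ σ f) = arithmeticRingAut _ σ (heckeFun L N ℓ f) := by
  have ha : ∀ y, arithmeticRingAut (modularFunctionFieldFull (N * ℓ)) σ (heckeAlphaBar L N ℓ y) =
      heckeAlphaBar L N ℓ (arithmeticRingAut (modularFunctionFieldFull N) σ y) :=
    intertwines_heckeAlphaBar N ℓ σ
  have hb : ∀ y, arithmeticRingAut (modularFunctionFieldFull (N * ℓ)) σ (heckeBetaBar L N ℓ y) =
      heckeBetaBar L N ℓ (arithmeticRingAut (modularFunctionFieldFull N) σ y) :=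
    intertwines_heckeBetaBar N ℓ σ
  rw [heckeFun, ← hb]
  exact normAlong_natural _ _ _ _ ha _

/-- The swap at level `M ℓ p` restricts to the swap at level `M p`. -/
theorem IsSwap.exists_big (hw : IsSwap L M p w) (ι : L →+* ℂ) (hp : p.Prime) (hpM : ¬ p ∣ M) {ℓ : ℕ} [NeZero ℓ]
    (hℓ : ℓ.Prime) (hℓN : ¬ ℓ ∣ M * p) {M' : ℕ} [NeZero M'] (hM' : M' = M * ℓ * p) :
    ∃ W : modField L M' ≃ₐ[L] modField L M',
      (∀ (h : M * p * 1 ∣ M') x, W (degenMap L 1 h x) = degenMap L 1 h (w x)) ∧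
      (∀ (h : M * p * ℓ ∣ M') x, W (degenMap L ℓ h x) = degenMap L ℓ h (w x)) ∧
      ∀ (h : M * ℓ * 1 ∣ M') (h' : M * ℓ * p ∣ M') x,
        W (degenMap L 1 h x) = degenMap L p h' x := by
  subst hM'
  have hpl : ¬ p ∣ M * ℓ := fun h => (hp.dvd_mul.mp h).elim hpM fun h =>
    hℓN (((Nat.prime_dvd_prime_iff_eq hp hℓ).mp h).symm ▸ dvd_mul_left p M)
  obtain ⟨V, hV⟩ := exists_isSwap_of_embedding (M * ℓ) p ι hp hpl
  have key : ∀ (z : modField L (M * ℓ * p)) (y : modField L (M * ℓ)),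
      ((z : LaurentSeries L) = y → (V z : LaurentSeries L) = qExpand L p (y : LaurentSeries L)) ∧
      ((z : LaurentSeries L) = qExpand L p (y : LaurentSeries L) →
        (V z : LaurentSeries L) = y) := by
    refine fun z y => ⟨fun h => ?_, fun h => ?_⟩
    · rw [show z = heckeAlphaBar L (M * ℓ) p y from Subtype.ext
        (h.trans (coe_heckeAlphaBar _ _ y).symm), hV.map_alpha, coe_heckeBetaBar]
    · rw [show z = heckeBetaBar L (M * ℓ) p y from Subtype.ext
        (h.trans (coe_heckeBetaBar _ _ y).symm), hV.map_beta, coe_heckeAlphaBar]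
  have h1 : M * 1 ∣ M * ℓ := mul_dvd_mul_left M (one_dvd ℓ)
  refine ⟨V, fun h x => ?_, fun h x => ?_, fun h h' x => Subtype.ext ?_⟩
  · have := hom_ext_alpha_beta M p hp (f := (V.toAlgHom.comp (degenMap L 1 h)).toRingHom)
      (g := ((degenMap L 1 h).comp w.toAlgHom).toRingHom) (fun y => ?_) (fun y => ?_)
    · exact DFunLike.congr_fun this x
    · show V (degenMap L 1 h _) = degenMap L 1 h (w _)
      refine Subtype.ext (((key _ (degenMap L 1 h1 y)).1 ?_).trans ?_)
      · simp only [coe_degenMap, coe_heckeAlphaBar, qExpand_one_apply]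
      · simp only [hw.map_alpha, coe_degenMap, coe_heckeBetaBar, qExpand_one_apply]
    · show V (degenMap L 1 h _) = degenMap L 1 h (w _)
      refine Subtype.ext (((key _ (degenMap L 1 h1 y)).2 ?_).trans ?_)
      · simp only [coe_degenMap, coe_heckeBetaBar, qExpand_one_apply]
      · simp only [hw.map_beta, coe_degenMap, coe_heckeAlphaBar, qExpand_one_apply]
  · have := hom_ext_alpha_beta M p hp (f := (V.toAlgHom.comp (degenMap L ℓ h)).toRingHom)
      (g := ((degenMap L ℓ h).comp w.toAlgHom).toRingHom) (fun y => ?_) (fun y => ?_)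
    · exact DFunLike.congr_fun this x
    · show V (degenMap L ℓ h _) = degenMap L ℓ h (w _)
      refine Subtype.ext (((key _ (degenMap L ℓ dvd_rfl y)).1 ?_).trans ?_)
      · simp only [coe_degenMap, coe_heckeAlphaBar]
      · simp only [hw.map_alpha, coe_degenMap, coe_heckeBetaBar, qExpand_qExpand]
        exact qExpand_congr (mul_comm p ℓ) _
    · show V (degenMap L ℓ h _) = degenMap L ℓ h (w _)
      refine Subtype.ext (((key _ (degenMap L ℓ dvd_rfl y)).2 ?_).trans ?_)
      · simp only [coe_degenMap, coe_heckeBetaBar, qExpand_qExpand]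
        exact qExpand_congr (mul_comm ℓ p) _
      · simp only [hw.map_beta, coe_degenMap, coe_heckeAlphaBar]
  · rw [(key _ x).1 (by rw [coe_degenMap, qExpand_one_apply]), coe_degenMap]

theorem IsSwap.heckeFun_of_embedding (hw : IsSwap L M p w) (ι : L →+* ℂ) (hp : p.Prime) (hpM : ¬ p ∣ M) {ℓ : ℕ} [NeZero ℓ]
    (hℓ : ℓ.Prime) (hℓN : ¬ ℓ ∣ M * p) (f : modField L (M * p)) :
    w (LLp.heckeFun L (M * p) ℓ f) = LLp.heckeFun L (M * p) ℓ (w f) := by
  obtain ⟨W, hWs, hWt, -⟩ := hw.exists_big ι hp hpM hℓ hℓN (M' := M * p * ℓ) (mul_right_comm M p ℓ)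
  rw [LLp.heckeFun, LLp.heckeFun, heckeAlphaBar_eq_degenMap (M * p) ℓ (by simp),
    heckeBetaBar_eq_degenMap (M * p) ℓ dvd_rfl]
  rw [← hWt dvd_rfl f]
  exact (normAlong_natural _ _ w.toRingEquiv W.toRingEquiv (hWs (by simp)) _).symm

variable {M p ℓ M' : ℕ} [NeZero M] [NeZero p] [NeZero ℓ] [NeZero M']

theorem degenMap_sup_eq_top (hp : p.Prime) (hℓ : ℓ.Prime) (hne : ℓ ≠ p) (hM' : M' = M * ℓ * p)
    (hu : M * ℓ * 1 ∣ M') (ht : M * p * ℓ ∣ M') :
    (degenMap L 1 hu).fieldRange ⊔ (degenMap L ℓ ht).fieldRange = ⊤ := by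
  subst hM'
  haveI : NeZero (ℓ * p) := ⟨Nat.mul_ne_zero (NeZero.ne ℓ) (NeZero.ne p)⟩
  exact fieldRange_sup_eq_top hℓ hp hne (functionFieldGeneration_all (ℓ * p)) hu ht

theorem degenMap_sup_eq_top' (ι : L →+* ℂ) (hp : p.Prime) (hpM : ¬ p ∣ M) (hℓ : ℓ.Prime)
    (hℓN : ¬ ℓ ∣ M * p) (hM' : M' = M * ℓ * p) (hu' : M * ℓ * p ∣ M') (ht : M * p * ℓ ∣ M') :
    (degenMap L p hu').fieldRange ⊔ (degenMap L ℓ ht).fieldRange = ⊤ := by
  have hu : M * ℓ * 1 ∣ M' := (mul_dvd_mul_left _ (one_dvd p)).trans hu'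
  obtain ⟨w, hw⟩ := exists_isSwap_of_embedding M p ι hp hpM
  obtain ⟨W, -, hWt, hWu⟩ := hw.exists_big ι hp hpM hℓ hℓN hM'
  have hne : ℓ ≠ p := fun h => hℓN (h ▸ dvd_mul_left ℓ M)
  have h := congrArg (IntermediateField.map W.toAlgHom)
    (degenMap_sup_eq_top (L := L) hp hℓ hne hM' hu ht)
  rw [IntermediateField.map_sup] at h
  refine eq_top_iff.mpr (le_of_eq_of_le (b := (⊤ : IntermediateField L (modField L M')).map
    W.toAlgHom) ?_ (le_of_eq_of_le h.symm ?_))
  · rw [← AlgHom.fieldRange_eq_map, eq_comm, AlgHom.fieldRange_eq_top]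
    exact W.surjective
  · refine sup_le_sup ?_ ?_
    · rintro _ ⟨_, ⟨z, rfl⟩, rfl⟩
      exact ⟨z, (hWu hu hu' z).symm⟩
    · rintro _ ⟨_, ⟨z, rfl⟩, rfl⟩
      exact ⟨w z, (hWt ht z).symm⟩

theorem finrankAlong_degenMap_mul_prime (hp : p.Prime) (hpM : ¬ p ∣ M * ℓ) {d : ℕ} [NeZero d]
    (hM' : M' = M * ℓ * p) (h : M * ℓ * d ∣ M') :
    finrankAlong L (degenMap L d h) = p + 1 :=
  Nat.eq_of_mul_eq_mul_left (psi_pos (M * ℓ))
    ((finrankAlong_degenMap (degreeInput L) d h (functionFieldGeneration_all d)).trans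
      (by rw [hM', psi_mul_prime_of_not_dvd hp hpM, mul_comm]))

theorem not_dvd_mul_of_prime (hp : p.Prime) (hpM : ¬ p ∣ M) (hℓ : ℓ.Prime) (hℓN : ¬ ℓ ∣ M * p) :
    ¬ p ∣ M * ℓ := fun h => (hp.dvd_mul.mp h).elim hpM fun h =>
  hℓN (((Nat.prime_dvd_prime_iff_eq hp hℓ).mp h).symm ▸ dvd_mul_left p M)

/-- Pushing forward along `f(q) ↦ f(q^d)` intertwines the correspondences of index `ℓ`. -/
theorem pushforwardAlong_degenMap_correspondence (ι : L →+* ℂ) (hp : p.Prime) (hpM : ¬ p ∣ M)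
    (hℓ : ℓ.Prime) (hℓN : ¬ ℓ ∣ M * p) (hM' : M' = M * ℓ * p) {d : ℕ} [NeZero d]
    (hd : d = 1 ∨ d = p) [HasPrincipalDivisors L (modField L M')]
    [HasPrincipalDivisors L (modField L (M * ℓ))] (ha : M * d ∣ M * p) (ht : M * p * ℓ ∣ M')
    (hs : M * p * 1 ∣ M') (hb : M * ℓ ∣ M * ℓ) (ha₁ : M * 1 ∣ M * ℓ)
    (D : Divisor L (modField L (M * p))) :
    Divisor.pushforwardAlong (degenMap L d ha) (isIntegral_degenMap (degreeInput L) d ha)
      (Divisor.correspondence (degenMap L ℓ ht) (degenMap L 1 hs)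
        (isIntegral_degenMap (degreeInput L) ℓ ht) (isIntegral_degenMap (degreeInput L) 1 hs) D) =
      Divisor.correspondence (degenMap L ℓ hb) (degenMap L 1 ha₁)
        (isIntegral_degenMap (degreeInput L) ℓ hb) (isIntegral_degenMap (degreeInput L) 1 ha₁)
        (Divisor.pushforwardAlong (degenMap L d ha)
          (isIntegral_degenMap (degreeInput L) d ha) D) := by
  have hD := degreeInput L
  haveI := hasPrincipalDivisors_level L (M * p)
  have hu : M * ℓ * d ∣ M' := by
    rcases hd with rfl | rfl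
    · exact ⟨p, by rw [mul_one, hM']⟩
    · exact dvd_of_eq hM'.symm
  have hgen : (degenMap L d hu).fieldRange ⊔ (degenMap L ℓ ht).fieldRange = ⊤ := by
    rcases hd with rfl | rfl
    · exact degenMap_sup_eq_top hp hℓ (fun h => hℓN (h ▸ dvd_mul_left ℓ M)) hM' hu ht
    · exact degenMap_sup_eq_top' ι hp hpM hℓ hℓN hM' hu ht
  have hdega : finrankAlong L (degenMap L d ha) = p + 1 := by
    refine Nat.eq_of_mul_eq_mul_left (psi_pos M)
      ((finrankAlong_degenMap hD d ha (functionFieldGeneration_all d)).trans ?_)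
    rw [psi_mul_prime_of_not_dvd hp hpM, mul_comm]
  haveI : NeZero (ℓ * d) := ⟨Nat.mul_ne_zero (NeZero.ne ℓ) (NeZero.ne d)⟩
  have hMd : M * d ∣ M' := (mul_dvd_mul_right (dvd_mul_right M ℓ) d).trans hu
  have hMdl : M * (ℓ * d) ∣ M' := mul_assoc M ℓ d ▸ hu
  refine pushforwardAlong_correspondence (u := degenMap L d hu) ?_ ?_ _ _ _
    (isIntegral_degenMap hD _ _) _ _ (finiteAlong_degenMap hD _ _) (finiteAlong_degenMap hD _ _)
    (separableAlong_degenMap hD _ _) (separableAlong_degenMap hD _ _) hgen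
    ((finrankAlong_degenMap_mul_prime hp (not_dvd_mul_of_prime hp hpM hℓ hℓN) hM' hu).trans
      hdega.symm) D
  · rw [degenMap_comp ℓ d (ℓ * d) hb hu (mul_comm ℓ d) hMdl,
      degenMap_comp d ℓ (ℓ * d) ha ht rfl hMdl]
  · rw [degenMap_comp 1 d d ha₁ hu (mul_one d).symm hMd,
      degenMap_comp d 1 d ha hs (one_mul d).symm hMd]

/-- The Hecke operator on class functions is the norm of the pullback. -/
theorem IsClassFun.heckeAlong {n N ℓ : ℕ} [NeZero N] [NeZero ℓ] {P : Pic0 L (modField L N)}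
    {f : modField L N} (hf : IsClassFun n P f) :
    IsClassFun n (heckeOperatorAlong L N ℓ P) (LLp.heckeFun L N ℓ f) := by
  haveI := hasPrincipalDivisors_level L (N * ℓ)
  have hD := degreeInput L
  obtain ⟨hf0, D, rfl, hv⟩ := hf
  rw [heckeOperatorAlong_eq (heckeAlphaBarIntegral_of N ℓ hD)
    (heckeBetaBarIntegral_of N ℓ hD) (fundamentalIdentityAlong_heckeBetaBar N ℓ hD)
    (finiteAlong_heckeAlphaBar N ℓ hD) (normFormulaAlong_heckeAlphaBar N ℓ hD), heckePic0Bar_mk]
  exact IsClassFun.pushforward (heckeAlphaBar L N ℓ) (heckeAlphaBarIntegral_of N ℓ hD)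
    (finiteAlong_heckeAlphaBar N ℓ hD) (normFormulaAlong_heckeAlphaBar N ℓ hD)
    (IsClassFun.pullback (heckeBetaBar L N ℓ) (heckeBetaBarIntegral_of N ℓ hD)
      (fundamentalIdentityAlong_heckeBetaBar N ℓ hD) hf0 hv)

theorem pushforwardAlong_congr {F F' : Type*} [Field F] [Field F'] [Algebra L F] [Algebra L F']
    {φ φ' : F →ₐ[L] F'} (h : φ = φ') (hφ : φ.toRingHom.IsIntegral)
    (hφ' : φ'.toRingHom.IsIntegral) :
    Divisor.pushforwardAlong φ hφ = Divisor.pushforwardAlong φ' hφ' := by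
  subst h
  rfl

/-- A pushforward of classes given on divisors by a degeneracy map commutes with `T_ℓ`. -/
theorem hecke_comm_of_pushforward (ι : L →+* ℂ) (hp : p.Prime) (hpM : ¬ p ∣ M) (hℓ : ℓ.Prime)
    (hℓN : ¬ ℓ ∣ M * p) {d : ℕ} [NeZero d] (hd : d = 1 ∨ d = p) (ha : M * d ∣ M * p)
    (push : Pic0 L (modField L (M * p)) →+ Pic0 L (modField L M))
    (hpush : ∀ D : Divisor.degZero (K := L) (F := modField L (M * p)), push (Pic0.mk D) =
      Pic0.mk ⟨Divisor.pushforwardAlong (degenMap L d ha)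
        (isIntegral_degenMap (degreeInput L) d ha) D,
        Divisor.pushforwardAlong_mem_degZero _ _ D.2⟩)
    (P : Pic0 L (modField L (M * p))) :
    push (heckeOperatorAlong L (M * p) ℓ P) = heckeOperatorAlong L M ℓ (push P) := by
  have hD := degreeInput L
  haveI := hasPrincipalDivisors_level L (M * p * ℓ)
  haveI := hasPrincipalDivisors_level L (M * ℓ)
  obtain ⟨D, rfl⟩ := Pic0.mk_surjective P
  rw [heckeOperatorAlong_eq (heckeAlphaBarIntegral_of (M * p) ℓ hD)
    (heckeBetaBarIntegral_of (M * p) ℓ hD) (fundamentalIdentityAlong_heckeBetaBar (M * p) ℓ hD)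
    (finiteAlong_heckeAlphaBar (M * p) ℓ hD) (normFormulaAlong_heckeAlphaBar (M * p) ℓ hD),
    heckeOperatorAlong_eq (heckeAlphaBarIntegral_of M ℓ hD)
    (heckeBetaBarIntegral_of M ℓ hD) (fundamentalIdentityAlong_heckeBetaBar M ℓ hD)
    (finiteAlong_heckeAlphaBar M ℓ hD) (normFormulaAlong_heckeAlphaBar M ℓ hD),
    heckePic0Bar_mk, hpush, hpush, heckePic0Bar_mk]
  have hs : M * p * 1 ∣ M * p * ℓ := mul_dvd_mul_left _ (one_dvd ℓ)
  have ha₁ : M * 1 ∣ M * ℓ := mul_dvd_mul_left M (one_dvd ℓ)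
  refine congrArg Pic0.mk (Subtype.ext ?_)
  dsimp only
  rw [heckeDivBar_eq_degenMap hD hs, heckeDivBar_eq_degenMap hD ha₁]
  exact pushforwardAlong_degenMap_correspondence ι hp hpM hℓ hℓN (mul_right_comm M p ℓ) hd ha
    dvd_rfl hs dvd_rfl ha₁ _

/-- Pushforward to level `M` along `f(q) ↦ f(q)`. -/
def pushA (L : Type*) [Field L] [Algebra ℚ L] (M p : ℕ) [NeZero M] [NeZero p] :
    Pic0 L (modField L (M * p)) →+ Pic0 L (modField L M) :=
  pushPic0 (heckeAlphaBar L M p) (heckeAlphaBarIntegral_of M p (degreeInput L))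
    (finiteAlong_heckeAlphaBar M p (degreeInput L))
    (normFormulaAlong_heckeAlphaBar M p (degreeInput L))

/-- Pushforward to level `M` along `f(q) ↦ f(q^p)`. -/
def pushB (L : Type*) [Field L] [Algebra ℚ L] (M p : ℕ) [NeZero M] [NeZero p] :
    Pic0 L (modField L (M * p)) →+ Pic0 L (modField L M) :=
  pushPic0 (heckeBetaBar L M p) (heckeBetaBarIntegral_of M p (degreeInput L))
    (finiteAlong_heckeBetaBar M p (degreeInput L))
    (FF.normFormulaAlong _ _ (separableAlong_heckeBetaBar M p (degreeInput L)))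

theorem pushA_hecke (ι : L →+* ℂ) (hp : p.Prime) (hpM : ¬ p ∣ M) (hℓ : ℓ.Prime)
    (hℓN : ¬ ℓ ∣ M * p) (P : Pic0 L (modField L (M * p))) :
    pushA L M p (heckeOperatorAlong L (M * p) ℓ P) = heckeOperatorAlong L M ℓ (pushA L M p P) :=
  hecke_comm_of_pushforward ι hp hpM hℓ hℓN (Or.inl rfl) (mul_dvd_mul_left M (one_dvd p)) _
    (fun D => congrArg Pic0.mk (Subtype.ext (DFunLike.congr_fun
      (pushforwardAlong_congr (heckeAlphaBar_eq_degenMap M p _)
        (heckeAlphaBarIntegral_of M p (degreeInput L)) _) _))) P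

theorem pushB_hecke (ι : L →+* ℂ) (hp : p.Prime) (hpM : ¬ p ∣ M) (hℓ : ℓ.Prime)
    (hℓN : ¬ ℓ ∣ M * p) (P : Pic0 L (modField L (M * p))) :
    pushB L M p (heckeOperatorAlong L (M * p) ℓ P) = heckeOperatorAlong L M ℓ (pushB L M p P) :=
  hecke_comm_of_pushforward ι hp hpM hℓ hℓN (Or.inr rfl) dvd_rfl _
    (fun D => congrArg Pic0.mk (Subtype.ext (DFunLike.congr_fun
      (pushforwardAlong_congr (heckeBetaBar_eq_degenMap M p dvd_rfl)
        (heckeBetaBarIntegral_of M p (degreeInput L)) _) _))) P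

end Fermat.Agent.LLp
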