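import Fermat.Agent.LLp.Assembly
import Fermat.Agent.LLp.ShapeFlat
import Fermat.Agent.R59.TopRep.NotFlat

/-!
# Level lowering at `p` for finite flat `E[p]`, in the form used by the lifting problem
-/

set_option autoImplicit false

noncomputable section

namespace Fermat.Agent.LLp

/-- The input of the strict lifting problem from level lowering at `p`. -/
theorem stmtFlatLower_of (h : StmtLowerAtP) : R59.TopRep.StmtFlatLower := by
  intro W p _ hp35 hΔ hW hirr hflat M hM hpM hp2M hq3 hmod
  have hp2 : p ≠ 2 := by omega
  exact h W p hp2 hΔ hirr (peuShape_of_flat hΔ hp2 (hW p (Fact.out : p.Prime)) hflat)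
    M hM hpM hp2M hq3 hmod

end Fermat.Agent.LLp
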