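import Fermat.Agent.LLp.SeriesAux
import Mathlib.FieldTheory.IsAlgClosed.Basic
import Mathlib.RingTheory.RootsOfUnity.AlgebraicallyClosed

/-!
# Formal lemmas on logarithmic derivatives of unit series modulo `p`
-/

set_option autoImplicit false

noncomputable section

namespace Fermat.Agent.LLp

open PowerSeries

section Ring

variable {R : Type*} [CommRing R] {p : ℕ} [Fact p.Prime]

theorem thetaLog_mul {u v : R⟦X⟧} (hu : constantCoeff u = 1) (hv : constantCoeff v = 1) :
    thetaLog (u * v) = thetaLog u + thetaLog v := by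
  exact thetaLog_mul' hu hv

theorem thetaLog_pow {u : R⟦X⟧} (hu : constantCoeff u = 1) (n : ℕ) :
    thetaLog (u ^ n) = n • thetaLog u := by
  exact thetaLog_pow' hu n

theorem map_thetaLog {S : Type*} [CommRing S] (φ : R →+* S) {u : R⟦X⟧}
    (hu : constantCoeff u = 1) : PowerSeries.map φ (thetaLog u) = thetaLog (PowerSeries.map φ u) := by
  exact map_thetaLog' φ hu

/-- The Frobenius congruence. -/
theorem dvd_coeff_thetaLog_mul_sub_pow {u : R⟦X⟧} (hu : constantCoeff u = 1) (n : ℕ) :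
    (p : R) ∣ coeff (p * n) (thetaLog u) - coeff n (thetaLog u) ^ p := by
  exact dvd_sub_pow_aux hu n

theorem coeff_thetaLog_branchNorm [IsDomain R] [CharZero R] {m : ℕ} (hm : m ≠ 0) {ζ : R}
    (hζ : IsPrimitiveRoot ζ m) {u v : R⟦X⟧} (hu : constantCoeff u = 1)
    (h : IsBranchNorm hm ζ u v) (n : ℕ) :
    coeff n (thetaLog v) = coeff (m * n) (thetaLog u) := by
  have hc : ∀ i, constantCoeff (rescale (ζ ^ i) u) = 1 := fun i => by
    rw [← coeff_zero_eq_constantCoeff_apply, coeff_rescale, pow_zero, one_mul,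
      coeff_zero_eq_constantCoeff_apply, hu]
  have hv : constantCoeff v = 1 := by
    rw [← constantCoeff_expand m hm v, h, map_prod]
    exact Finset.prod_eq_one fun i _ => hc i
  have h1 := congrArg (fun f => coeff (m * n) (thetaLog f)) h
  rw [thetaLog_expand hm hv, coeff_smul, coeff_expand_mul, smul_eq_mul,
    thetaLog_prod _ _ fun i _ => hc i, map_sum] at h1
  simp only [thetaLog_rescale _ hu, coeff_rescale] at h1
  rw [← Finset.sum_mul, sum_pow_mul_eq hζ, if_pos (dvd_mul_right m n)] at h1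
  exact mul_left_cancel₀ (Nat.cast_ne_zero.mpr hm) h1

theorem coeff_thetaLog_heckeNorm [IsDomain R] [CharZero R] {ℓ : ℕ} (hℓ : ℓ ≠ 0) {ζ : R}
    (hζ : IsPrimitiveRoot ζ ℓ) {u w : R⟦X⟧} (hu : constantCoeff u = 1)
    (h : IsHeckeNorm hℓ ζ u w) (n : ℕ) :
    coeff n (thetaLog w) = coeff (ℓ * n) (thetaLog u) +
      if ℓ ∣ n then (ℓ : R) * coeff (n / ℓ) (thetaLog u) else 0 := by
  have hc : ∀ i, constantCoeff (rescale (ζ ^ i) u) = 1 := fun i => by
    rw [← coeff_zero_eq_constantCoeff_apply, coeff_rescale, pow_zero, one_mul,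
      coeff_zero_eq_constantCoeff_apply, hu]
  have he : constantCoeff (PowerSeries.expand (ℓ * ℓ) (mul_ne_zero hℓ hℓ) u) = 1 := by
    rw [constantCoeff_expand, hu]
  have hw : constantCoeff w = 1 := by
    rw [← constantCoeff_expand ℓ hℓ w, h, map_mul, he, map_prod, one_mul]
    exact Finset.prod_eq_one fun i _ => hc i
  have h1 := congrArg (fun f => coeff (ℓ * n) (thetaLog f)) h
  rw [thetaLog_expand hℓ hw, coeff_smul, coeff_expand_mul, smul_eq_mul,
    thetaLog_mul he (by rw [map_prod]; exact Finset.prod_eq_one fun i _ => hc i), map_add,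
    thetaLog_expand _ hu, thetaLog_prod _ _ fun i _ => hc i, map_sum] at h1
  simp only [thetaLog_rescale _ hu, coeff_rescale, coeff_smul, coeff_expand] at h1
  rw [← Finset.sum_mul, sum_pow_mul_eq hζ, if_pos (dvd_mul_right ℓ n)] at h1
  apply mul_left_cancel₀ (Nat.cast_ne_zero.mpr hℓ : (ℓ : R) ≠ 0)
  rw [h1]
  by_cases hd : ℓ ∣ n
  · rw [if_pos hd, if_pos (Nat.mul_dvd_mul_left ℓ hd),
      Nat.mul_div_mul_left n ℓ (Nat.pos_of_ne_zero hℓ), smul_eq_mul]
    push_cast
    ring
  · rw [if_neg hd, if_neg fun hd' => hd ((Nat.mul_dvd_mul_iff_left (Nat.pos_of_ne_zero hℓ)).mp hd'),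
      smul_zero]
    ring

theorem exists_branchNorm [IsDomain R] {m : ℕ} (hm : m ≠ 0) {ζ : R} (hζ : IsPrimitiveRoot ζ m)
    {u : R⟦X⟧} (hu : constantCoeff u = 1) :
    ∃ v : R⟦X⟧, constantCoeff v = 1 ∧ IsBranchNorm hm ζ u v := by
  have hζ1 : ζ ^ m = 1 := hζ.pow_eq_one
  set P : R⟦X⟧ := ∏ i ∈ Finset.range m, rescale (ζ ^ i) u with hP
  have hc : constantCoeff P = 1 := by
    rw [hP, map_prod]
    refine Finset.prod_eq_one fun i _ => ?_
    rw [← coeff_zero_eq_constantCoeff_apply, coeff_rescale, pow_zero, one_mul,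
      coeff_zero_eq_constantCoeff_apply, hu]
  have hinv : rescale ζ P = P := by
    rw [hP, map_prod]
    simp_rw [rescale_rescale, ← pow_succ]
    obtain ⟨k, rfl⟩ := Nat.exists_eq_succ_of_ne_zero hm
    rw [Finset.prod_range_succ, Finset.prod_range_succ' (fun i => rescale (ζ ^ i) u), hζ1,
      pow_zero]
  refine ⟨PowerSeries.mk fun n => coeff (m * n) P, ?_, ?_⟩
  · rw [← coeff_zero_eq_constantCoeff_apply, coeff_mk, mul_zero,
      coeff_zero_eq_constantCoeff_apply, hc]
  · change _ = P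
    ext k
    rw [coeff_expand]
    split_ifs with hk
    · rw [coeff_mk, Nat.mul_div_cancel' hk]
    · have h1 := congrArg (coeff k) hinv
      rw [coeff_rescale, ← sub_eq_zero, ← sub_one_mul] at h1
      exact ((mul_eq_zero.mp h1).resolve_left
        (sub_ne_zero.mpr fun h2 => hk ((hζ.pow_eq_one_iff_dvd k).mp h2))).symm

theorem branchNorm_pow [IsDomain R] {m : ℕ} (hm : m ≠ 0) {ζ : R} {u v : R⟦X⟧}
    (h : IsBranchNorm hm ζ u v) (n : ℕ) : IsBranchNorm hm ζ (u ^ n) (v ^ n) := by
  simp only [IsBranchNorm] at h ⊢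
  rw [map_pow, h, ← Finset.prod_pow]
  simp_rw [map_pow]

/-- `1 + p ^ 2 R` consists of `p`-th powers. -/
theorem exists_pow_eq_one_add_sq (hp2 : p ≠ 2) (y : R⟦X⟧) (hy : constantCoeff y = 0) :
    ∃ z : R⟦X⟧, constantCoeff z = 0 ∧
      (1 + C (p : R) * z) ^ p = 1 + C ((p : R) ^ 2) * y := by
  have hp : p.Prime := Fact.out
  obtain ⟨z, hz0, hz⟩ := exists_fixed p (fun k => (p.choose k : R) * (p : R) ^ (k - 2)) y hy
  refine ⟨z, hz0, ?_⟩
  rw [one_add_pow_eq_linear_add p hp.one_le, ← hz, mul_add, Finset.mul_sum, map_natCast,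
    add_assoc]
  congr 1
  refine congr_arg₂ (· + ·) ?_ (Finset.sum_congr rfl fun k hk => ?_)
  · rw [map_pow, map_natCast]; ring
  · obtain ⟨j, rfl⟩ := Nat.exists_eq_add_of_le (Finset.mem_Icc.mp hk).1
    simp only [map_mul, map_pow, map_natCast, Nat.add_sub_cancel_left]
    ring

/-- If the logarithmic derivative vanishes mod `p`, the branch norm is a `p`-th power. -/
theorem exists_pow_eq_branchNorm [IsDomain R] [CharZero R] (hp2 : p ≠ 2) {ζ : R}
    (hζ : IsPrimitiveRoot ζ p) {u v : R⟦X⟧} (hu : constantCoeff u = 1)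
    (h : IsBranchNorm (Fact.out : p.Prime).ne_zero ζ u v)
    (hB : ∀ n, (p : R) ∣ coeff n (thetaLog u)) :
    ∃ g : R⟦X⟧, constantCoeff g = 1 ∧ g ^ p = v := by
  classical
  have hp : p.Prime := Fact.out
  have hp0 := hp.ne_zero
  have hθ : ∀ k : ℕ, (p : R) ∣ (k : R) * coeff k u := by
    intro k
    rw [← coeff_X_mul_derivative, ← mul_thetaLog hu, coeff_mul]
    exact Finset.dvd_sum fun x _ => dvd_mul_of_dvd_right (hB _) _
  have hlow : ∀ k, ¬ p ∣ k → (p : R) ∣ coeff k u := by
    intro k hk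
    obtain ⟨a, b, hab⟩ := ((Nat.Prime.coprime_iff_not_dvd hp).mpr hk).cast (R := R)
    rw [show coeff k u = a * coeff k u * (p : R) + b * ((k : R) * coeff k u) by
      linear_combination -(coeff k u) * hab]
    exact dvd_add (dvd_mul_left _ _) (dvd_mul_of_dvd_right (hθ k) _)
  choose b hb using hlow
  set A : R⟦X⟧ := PowerSeries.mk fun j => coeff (p * j) u
  set B : R⟦X⟧ := PowerSeries.mk fun k => if hk : p ∣ k then 0 else b k hk
  have hu' : u = PowerSeries.expand p hp0 A + C (p : R) * B := by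
    ext k
    rw [map_add, coeff_C_mul, coeff_expand, coeff_mk, coeff_mk]
    split_ifs with hk
    · rw [Nat.mul_div_cancel' hk, mul_zero, add_zero]
    · rw [zero_add, ← hb k hk]
  have hA : constantCoeff A = 1 := by
    rw [← coeff_zero_eq_constantCoeff_apply, coeff_mk, mul_zero,
      coeff_zero_eq_constantCoeff_apply, hu]
  have hres : ∀ i, rescale (ζ ^ i) u =
      PowerSeries.expand p hp0 A + C (p : R) * rescale (ζ ^ i) B := by
    intro i
    conv_lhs => rw [hu']
    rw [map_add, map_mul]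
    congr 1
    · ext k
      rw [coeff_rescale, coeff_expand]
      split_ifs with hk
      · obtain ⟨j, rfl⟩ := hk
        rw [← pow_mul, mul_left_comm, pow_mul, hζ.pow_eq_one, one_pow, one_mul]
      · rw [mul_zero]
    · congr 1
      ext k
      rw [coeff_rescale, coeff_C]
      split_ifs with hk <;> simp [hk]
  have hsum : ∑ i ∈ Finset.range p, rescale (ζ ^ i) B = 0 := by
    ext k
    rw [map_sum, map_zero]
    simp only [coeff_rescale]
    rw [← Finset.sum_mul, sum_pow_mul_eq hζ, coeff_mk]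
    split_ifs with hk <;> simp
  obtain ⟨r, hr⟩ := exists_prod_add_mul (Finset.range p) (PowerSeries.expand p hp0 A)
    (C (p : R)) fun i => rescale (ζ ^ i) B
  rw [hsum, mul_zero, add_zero, Finset.card_range] at hr
  rw [IsBranchNorm, Finset.prod_congr rfl fun i _ => hres i, hr] at h
  set w : R⟦X⟧ := PowerSeries.mk fun n => coeff (p * n) r
  have hv : v = A ^ p + C ((p : R) ^ 2) * w := by
    ext n
    have h1 := congrArg (coeff (p * n)) h
    rw [coeff_expand_mul, ← map_pow, map_add, coeff_expand_mul, ← map_pow C, coeff_C_mul] at h1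
    rw [h1, map_add, coeff_C_mul, coeff_mk]
  have hvc : constantCoeff v = 1 := by
    have h1 := congrArg constantCoeff h
    have hc : ∀ i, constantCoeff (rescale (ζ ^ i) u) = 1 := fun i => by
      rw [← coeff_zero_eq_constantCoeff_apply, coeff_rescale, pow_zero, one_mul,
        coeff_zero_eq_constantCoeff_apply, hu]
    rw [← hr, constantCoeff_expand, map_prod] at h1
    rw [h1]
    exact Finset.prod_eq_one fun i _ => by rw [← hres i, hc]
  have hw0 : constantCoeff w = 0 := by
    have h1 := congrArg constantCoeff hv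
    rw [hvc, map_add, map_pow, hA, one_pow, map_mul, constantCoeff_C, left_eq_add] at h1
    exact (mul_eq_zero.mp h1).resolve_left (pow_ne_zero _ (Nat.cast_ne_zero.mpr hp0))
  set Ai := PowerSeries.invOfUnit A 1
  have hAi : A * Ai = 1 := mul_invOfUnit A 1 (by simpa using hA)
  obtain ⟨z, hz0, hz⟩ := exists_pow_eq_one_add_sq (p := p) hp2 (Ai ^ p * w)
    (by rw [map_mul, hw0, mul_zero])
  refine ⟨A * (1 + C (p : R) * z), by
    rw [map_mul, hA, map_add, map_one, map_mul, hz0, mul_zero, add_zero, mul_one], ?_⟩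
  rw [mul_pow, hz, hv, mul_add, mul_one]
  congr 1
  calc A ^ p * (C ((p : R) ^ 2) * (Ai ^ p * w))
      = (A * Ai) ^ p * (C ((p : R) ^ 2) * w) := by ring
    _ = _ := by rw [hAi, one_pow, one_mul]

theorem dvd_coeff_thetaLog_of_pow {g : R⟦X⟧} (hg : constantCoeff g = 1) (n : ℕ) :
    (p : R) ∣ coeff n (thetaLog (g ^ p)) := by
  rw [thetaLog_pow hg, map_nsmul, nsmul_eq_mul]
  exact dvd_mul_right _ _

end Ring

section Field

variable {L : Type*} [Field L] [CharZero L] {p : ℕ} [Fact p.Prime]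

/-- The formal `p`-th root with constant term one. -/
theorem existsUnique_root {u : L⟦X⟧} (hu : constantCoeff u = 1) :
    ∃! g : L⟦X⟧, constantCoeff g = 1 ∧ g ^ p = u := by
  have hp : p.Prime := Fact.out
  have hpL : (p : L) ≠ 0 := Nat.cast_ne_zero.mpr hp.ne_zero
  obtain ⟨z, hz0, hz⟩ := exists_fixed p (fun k => (p.choose k : L) / p)
    (C (p : L)⁻¹ * (u - 1)) (by rw [map_mul, map_sub, hu, map_one, sub_self, mul_zero])
  have hg : (1 + z) ^ p = u := by
    have h1 := congrArg (fun f => C (p : L) * f) hz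
    rw [mul_add, Finset.mul_sum, ← mul_assoc (C (p : L)) (C (p : L)⁻¹), ← map_mul,
      mul_inv_cancel₀ hpL, map_one, one_mul, map_natCast] at h1
    rw [one_add_pow_eq_linear_add p hp.one_le, add_assoc,
      show (∑ k ∈ Finset.Icc 2 p, (p.choose k : L⟦X⟧) * z ^ k) =
          ∑ k ∈ Finset.Icc 2 p, (p : L⟦X⟧) * (C ((p.choose k : L) / p) * z ^ k) from
        Finset.sum_congr rfl fun k _ => by
          rw [← mul_assoc, ← map_natCast (C (R := L)) p, ← map_mul, mul_div_cancel₀ _ hpL,
            map_natCast], h1, add_sub_cancel]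
  refine ⟨1 + z, ⟨by rw [map_add, map_one, hz0, add_zero], hg⟩, fun g ⟨hg1, hgp⟩ => ?_⟩
  have h0 : (∑ i ∈ Finset.range p, g ^ i * (1 + z) ^ (p - 1 - i)) * (g - (1 + z)) = 0 := by
    rw [geom_sum₂_mul, hgp, hg, sub_self]
  refine sub_eq_zero.mp ((mul_eq_zero.mp h0).resolve_left fun h1 => ?_)
  have h2 := congrArg constantCoeff h1
  simp [hg1, hz0, hp.ne_zero] at h2

/-- The residues mod `p` fixed by `x ↦ x ^ q`, `q = p ^ m`, are zero and roots of unity. -/
theorem exists_root_of_unity_congr [IsAlgClosed L] (A : ValuationSubring L)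
    (hA : ((p : A) : L) ∈ A.nonunits) {m : ℕ} (hm : m ≠ 0) {x : A}
    (hx : (p : A) ∣ x ^ p ^ m - x) :
    ∃ t : A, (t = 0 ∨ t ^ (p ^ m - 1) = 1) ∧ (p : A) ∣ x - t := by
  classical
  have hp : p.Prime := Fact.out
  set q := p ^ m with hq
  have hq2 : 2 ≤ q := le_trans hp.two_le (Nat.le_self_pow hm p)
  set n := q - 1 with hn
  have : NeZero (n : L) := ⟨Nat.cast_ne_zero.mpr (by omega)⟩
  have : NeZero n := ⟨by omega⟩
  obtain ⟨ζ, hζ⟩ := HasEnoughRootsOfUnity.exists_primitiveRoot L n
  have hnA : A.valuation (n : L) = 1 := by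
    refine ((A.valuation_le_one_iff _).mpr (natCast_mem A n)).antisymm (not_lt.mp fun h => ?_)
    have hpA : A.valuation (p : L) < 1 := by simpa [A.mem_nonunits_iff] using hA
    have hqA : A.valuation (q : L) < 1 := by
      rw [hq, Nat.cast_pow, map_pow]; exact pow_lt_one₀ zero_le hpA hm
    have h1 : A.valuation ((q : L) - n) < 1 := Valuation.map_sub_lt _ hqA h
    rw [hn, Nat.cast_sub (by omega), sub_sub_cancel, Nat.cast_one, map_one] at h1
    exact lt_irrefl _ h1
  set S := Polynomial.nthRootsFinset n (1 : L)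
  have hS : ∀ t ∈ S, t ^ n = 1 := fun t ht =>
    (Polynomial.mem_nthRootsFinset (by omega) 1).mp ht
  have hSA : ∀ t ∈ S, A.valuation t = 1 := fun t ht =>
    (pow_eq_one_iff.mp (by rw [← map_pow, hS t ht, map_one])).resolve_right (by omega)
  -- distinct roots have unit difference
  have hdiff : ∀ t ∈ S, ∀ t' ∈ S, t ≠ t' → A.valuation (t - t') = 1 := by
    intro t ht t' ht' hne
    refine (le_trans (Valuation.map_sub _ t t') (by rw [hSA t ht, hSA t' ht', max_self])).antisymm
      (not_lt.mp fun hlt => ?_)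
    have ht0 : t' ≠ 0 := fun h0 => by simpa [h0] using hSA t' ht'
    set s := t / t'
    have hs1 : s ≠ 1 := fun h1 => hne ((div_eq_one_iff_eq ht0).mp h1)
    have hsn : s ^ n = 1 := by rw [div_pow, hS t ht, hS t' ht', div_one]
    have hsum : ∑ i ∈ Finset.range n, s ^ i = 0 := by rw [geom_sum_eq hs1, hsn, sub_self, zero_div]
    have hsv : A.valuation s = 1 := by rw [map_div₀, hSA t ht, hSA t' ht', div_one]
    have hlt' : A.valuation (s - 1) < 1 := by
      rw [show s - 1 = (t - t') / t' by rw [sub_div, div_self ht0], map_div₀, hSA t' ht', div_one]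
      exact hlt
    have hsum' : A.valuation (∑ i ∈ Finset.range n, (1 - s ^ i)) < 1 := by
      refine Valuation.map_sum_lt _ one_ne_zero fun i _ => ?_
      rw [Valuation.map_sub_swap, ← geom_sum_mul, map_mul]
      refine (mul_le_of_le_one_left' ?_).trans_lt hlt'
      refine Valuation.map_sum_le _ fun j _ => ?_
      rw [map_pow, hsv, one_pow]
    rw [Finset.sum_sub_distrib, hsum, sub_zero, Finset.sum_const, Finset.card_range, nsmul_one,
      hnA] at hsum'
    exact lt_irrefl _ hsum'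
  set T := insert (0 : L) S
  have h0S : (0 : L) ∉ S := fun h => by simpa using hSA 0 h
  have hprod : (x : L) ^ q - x = ∏ t ∈ T, ((x : L) - t) := by
    have h1 := congrArg (Polynomial.eval (x : L))
      (Polynomial.X_pow_sub_one_eq_prod (by omega : 0 < n) hζ)
    simp only [Polynomial.eval_sub, Polynomial.eval_pow, Polynomial.eval_X, Polynomial.eval_one,
      Polynomial.eval_prod, Polynomial.eval_C] at h1
    rw [Finset.prod_insert h0S, sub_zero, ← h1, show q = n + 1 by omega, pow_succ']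
    ring
  have hTdiff : ∀ t ∈ T, ∀ t' ∈ T, t ≠ t' → A.valuation (t - t') = 1 := by
    intro t ht t' ht' hne
    rcases Finset.mem_insert.mp ht with rfl | ht <;> rcases Finset.mem_insert.mp ht' with rfl | ht'
    · exact absurd rfl hne
    · rw [zero_sub, Valuation.map_neg, hSA t' ht']
    · rw [sub_zero, hSA t ht]
    · exact hdiff t ht t' ht' hne
  have hTle : ∀ t ∈ T, A.valuation t ≤ 1 := fun t ht => by
    rcases Finset.mem_insert.mp ht with rfl | ht
    · simp
    · exact (hSA t ht).le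
  obtain ⟨y, hy⟩ := hx
  have hy' : (x : L) ^ q - x = (p : L) * y := by simpa [hq] using congrArg (fun a : A => (a : L)) hy
  have hpA : A.valuation (p : L) < 1 := by simpa [A.mem_nonunits_iff] using hA
  have hbig : A.valuation (∏ t ∈ T, ((x : L) - t)) ≤ A.valuation (p : L) := by
    rw [← hprod, hy', map_mul]
    exact mul_le_of_le_one_right' ((A.valuation_le_one_iff _).mpr y.2)
  have hle : ∀ t ∈ T, A.valuation ((x : L) - t) ≤ 1 := fun t ht =>
    le_trans (Valuation.map_sub _ _ _) (max_le ((A.valuation_le_one_iff _).mpr x.2) (hTle t ht))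
  obtain ⟨t₀, ht₀, hlt⟩ : ∃ t ∈ T, A.valuation ((x : L) - t) < 1 := by
    by_contra! hall
    rw [map_prod, Finset.prod_eq_one fun t ht => (hle t ht).antisymm (hall t ht)] at hbig
    exact (not_le.mpr hpA) hbig
  have hothers : ∀ t ∈ T, t ≠ t₀ → A.valuation ((x : L) - t) = 1 := by
    intro t ht hne
    refine (hle t ht).antisymm (not_lt.mp fun h => ?_)
    have h1 := Valuation.map_sub_lt _ hlt h
    rw [sub_sub_sub_cancel_left, hTdiff t ht t₀ ht₀ hne] at h1
    exact lt_irrefl _ h1
  rw [map_prod, ← Finset.mul_prod_erase T _ ht₀, Finset.prod_eq_one fun t ht =>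
    hothers t (Finset.mem_of_mem_erase ht) (Finset.ne_of_mem_erase ht), mul_one] at hbig
  refine ⟨⟨t₀, (A.valuation_le_one_iff _).mp (hTle t₀ ht₀)⟩, ?_, ?_⟩
  · rcases Finset.mem_insert.mp ht₀ with h | h
    · exact Or.inl (Subtype.ext h)
    · exact Or.inr (Subtype.ext (by rw [SubmonoidClass.coe_pow]; exact hS t₀ h))
  · have hp0 : (p : L) ≠ 0 := Nat.cast_ne_zero.mpr hp.ne_zero
    have hmem : ((x : L) - t₀) / p ∈ A := by
      rw [← A.valuation_le_one_iff, map_div₀]
      exact div_le_one_of_le₀ hbig zero_le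
    refine ⟨⟨_, hmem⟩, Subtype.ext ?_⟩
    simpa using (mul_div_cancel₀ ((x : L) - t₀) hp0).symm

end Field

end Fermat.Agent.LLp
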