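import Fermat.Agent.LLp.Degen
import Fermat.Agent.LLp.DescentLead
import Fermat.Agent.LLp.Series
import Fermat.Agent.BAD.Gauss

/-!
# The Hecke relation on residual series
-/

set_option autoImplicit false
set_option linter.unusedSectionVars false
set_option linter.unusedVariables false
set_option linter.style.haveILetI false

noncomputable section

namespace Fermat.Agent.LLp

open AlgebraicCurve ModularCurve HK.Corr
open Fermat.Agent.BAD.Gauss (Scalable ResChar gaussRing gaussRed IsFrac)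

local notation "ℚ̄" => AlgebraicClosure ℚ

section Maps

variable {L k : Type*} [Field L] [Field k] {A : ValuationSubring L} {π : A →+* k}

/-- `qExpand` commutes with Gauss reduction. -/
theorem gaussRed_qExpand (d : ℕ) [NeZero d] (y : gaussRing π) :
    ∃ h : qExpand L d (y : LaurentSeries L) ∈ gaussRing π,
      gaussRed π ⟨_, h⟩ = qExpand k d (gaussRed π y) := by
  obtain ⟨a, b, hab⟩ := y.2
  have h' : IsFrac π (qExpand A d a) (qExpand A d b) (qExpand L d (y : LaurentSeries L)) := by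
    refine ⟨?_, ?_⟩
    · rw [ModularCurve.coeffMap_qExpand]
      exact (map_ne_zero _).mpr hab.1
    · rw [ModularCurve.coeffMap_qExpand, ModularCurve.coeffMap_qExpand, ← map_mul, hab.2]
  have hm : qExpand L d (y : LaurentSeries L) ∈ gaussRing π := ⟨_, _, h'⟩
  refine ⟨hm, ?_⟩
  rw [BAD.Gauss.gaussRed_eq hm h', ModularCurve.coeffMap_qExpand, ModularCurve.coeffMap_qExpand,
    ← map_div₀, show gaussRed π y = _ from BAD.Gauss.gaussRed_eq y.2 hab]

/-- `qScale` at a unit of `A` commutes with Gauss reduction. -/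
theorem gaussRed_qScale (u : Aˣ) (y : gaussRing π) :
    ∃ h : Igusa.qScale (Units.map A.subtype.toMonoidHom u) (y : LaurentSeries L) ∈ gaussRing π,
      gaussRed π ⟨_, h⟩ = Igusa.qScale (Units.map π.toMonoidHom u) (gaussRed π y) := by
  obtain ⟨a, b, hab⟩ := y.2
  have h' : IsFrac π (Igusa.qScale u a) (Igusa.qScale u b)
      (Igusa.qScale (Units.map A.subtype.toMonoidHom u) (y : LaurentSeries L)) := by
    refine ⟨?_, ?_⟩
    · rw [Igusa.coeffMap_qScale]
      exact (map_ne_zero _).mpr hab.1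
    · rw [Igusa.coeffMap_qScale, Igusa.coeffMap_qScale, ← map_mul, hab.2]
  have hm : Igusa.qScale (Units.map A.subtype.toMonoidHom u) (y : LaurentSeries L) ∈ gaussRing π :=
    ⟨_, _, h'⟩
  refine ⟨hm, ?_⟩
  rw [BAD.Gauss.gaussRed_eq hm h', Igusa.coeffMap_qScale, Igusa.coeffMap_qScale, ← map_div₀,
    show gaussRed π y = _ from BAD.Gauss.gaussRed_eq y.2 hab]

end Maps

/-- A monomial times a series with constant term one determines both. -/
theorem split_unique {k : Type*} [Field k] {m n : ℤ} {a b : k} (ha : a ≠ 0) (hb : b ≠ 0)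
    {u v : PowerSeries k} (hu : PowerSeries.constantCoeff u = 1)
    (hv : PowerSeries.constantCoeff v = 1)
    (h : HahnSeries.single m a * HahnSeries.ofPowerSeries ℤ k u =
      HahnSeries.single n b * HahnSeries.ofPowerSeries ℤ k v) : m = n ∧ a = b ∧ u = v := by
  have key : ∀ (l : ℤ) (c : k) (w : PowerSeries k), PowerSeries.constantCoeff w = 1 →
      Igusa.HasLead (HahnSeries.single l c * HahnSeries.ofPowerSeries ℤ k w) l c := fun l c w hw =>
    ⟨PowerSeries.C c * w, by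
      rw [map_mul, HahnSeries.ofPowerSeries_C, ← mul_assoc, HahnSeries.C_apply,
        HahnSeries.single_mul_single, add_zero, one_mul],
      by rw [map_mul, PowerSeries.constantCoeff_C, hw, mul_one]⟩
  obtain ⟨hmn, hab⟩ := (key m a u hu).ext (h ▸ key n b v hv) ha hb
  subst hmn hab
  exact ⟨rfl, rfl, HahnSeries.ofPowerSeries_injective
    (mul_left_cancel₀ (HahnSeries.single_ne_zero ha) h)⟩

theorem prod_single {k ι : Type*} [Field k] (t : Finset ι) (m : ℤ) (c : ι → k) :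
    ∏ i ∈ t, HahnSeries.single m (c i) = HahnSeries.single (t.card * m) (∏ i ∈ t, c i) := by
  classical
  induction t using Finset.induction with
  | empty => simp [HahnSeries.single_zero_one]
  | insert a t ha ih =>
    rw [Finset.prod_insert ha, ih, HahnSeries.single_mul_single, Finset.prod_insert ha,
      Finset.card_insert_of_notMem ha]
    congr 2
    push_cast
    ring

/-- Units of `ℚ̄` of finite order are integral. -/
theorem exists_unit_lift {A : ValuationSubring ℚ̄} {ℓ : ℕ} (hℓ : ℓ ≠ 0) {z : ℚ̄}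
    (hz : z ^ ℓ = 1) : ∃ u : Aˣ, ((u : A) : ℚ̄) = z := by
  have hv : A.valuation z = 1 := by
    refine (pow_eq_one_iff.mp ?_).resolve_right hℓ
    rw [← map_pow, hz, map_one]
  exact ⟨((A.valuation_eq_one_iff ⟨z, (A.valuation_le_one_iff z).mp hv.le⟩).mpr hv).unit, rfl⟩

/-- A primitive root of prime order stays primitive where the order is invertible. -/
theorem exists_primitive_unit {k : Type*} [Field k] {A : ValuationSubring ℚ̄} (π : A →+* k)
    {ℓ : ℕ} (hℓ : ℓ.Prime) (hℓk : (ℓ : k) ≠ 0) :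
    ∃ u : Aˣ, IsPrimitiveRoot (Units.map A.subtype.toMonoidHom u) ℓ ∧
      IsPrimitiveRoot (Units.map π.toMonoidHom u) ℓ := by
  haveI : NeZero ℓ := ⟨hℓ.ne_zero⟩
  obtain ⟨z, hz⟩ := HasEnoughRootsOfUnity.exists_primitiveRoot ℚ̄ ℓ
  obtain ⟨u, hu⟩ := exists_unit_lift (A := A) hℓ.ne_zero hz.pow_eq_one
  refine ⟨u, IsPrimitiveRoot.coe_units_iff.mp (by simpa [hu] using hz), ?_⟩
  have h1 : (u : A) ^ ℓ = 1 := Subtype.ext (by simpa [hu] using hz.pow_eq_one)
  refine IsPrimitiveRoot.coe_units_iff.mp ?_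
  show IsPrimitiveRoot (π u) ℓ
  haveI := Fact.mk hℓ
  have hne : π (u : A) ≠ 1 := fun hπ => hℓk (by
    have hs : ∑ i ∈ Finset.range ℓ, (u : A) ^ i = 0 := Subtype.ext (by
      simpa [hu] using hz.geom_sum_eq_zero hℓ.one_lt)
    have := congrArg π hs
    simpa [hπ] using this)
  have := IsPrimitiveRoot.orderOf (π (u : A))
  rwa [orderOf_eq_prime (by rw [← map_pow, h1, map_one]) hne] at this

/-- `coeff_thetaLog_heckeNorm` when only `ℓ` is invertible. -/
theorem coeff_thetaLog_heckeNorm_of_ne {R : Type*} [CommRing R] [IsDomain R] {ℓ : ℕ} (hℓ : ℓ ≠ 0)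
    (hℓR : (ℓ : R) ≠ 0) {ζ : R} (hζ : IsPrimitiveRoot ζ ℓ) {u w : PowerSeries R}
    (hu : PowerSeries.constantCoeff u = 1) (h : IsHeckeNorm hℓ ζ u w) (n : ℕ) :
    PowerSeries.coeff n (thetaLog w) = PowerSeries.coeff (ℓ * n) (thetaLog u) +
      if ℓ ∣ n then (ℓ : R) * PowerSeries.coeff (n / ℓ) (thetaLog u) else 0 := by
  open PowerSeries in
  have hc : ∀ i, constantCoeff (rescale (ζ ^ i) u) = 1 := fun i => by
    rw [← coeff_zero_eq_constantCoeff_apply, coeff_rescale, pow_zero, one_mul,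
      coeff_zero_eq_constantCoeff_apply, hu]
  have he : PowerSeries.constantCoeff (PowerSeries.expand (ℓ * ℓ) (mul_ne_zero hℓ hℓ) u) = 1 := by
    rw [PowerSeries.constantCoeff_expand, hu]
  have hw : PowerSeries.constantCoeff w = 1 := by
    rw [← PowerSeries.constantCoeff_expand ℓ hℓ w, h, map_mul, he, map_prod, one_mul]
    exact Finset.prod_eq_one fun i _ => hc i
  have h1 := congrArg (fun f => PowerSeries.coeff (ℓ * n) (thetaLog f)) h
  rw [thetaLog_expand hℓ hw, PowerSeries.coeff_smul, PowerSeries.coeff_expand_mul, smul_eq_mul,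
    thetaLog_mul he (by rw [map_prod]; exact Finset.prod_eq_one fun i _ => hc i), map_add,
    thetaLog_expand _ hu, thetaLog_prod _ _ fun i _ => hc i, map_sum] at h1
  simp only [thetaLog_rescale _ hu, PowerSeries.coeff_rescale, PowerSeries.coeff_smul,
    PowerSeries.coeff_expand] at h1
  rw [← Finset.sum_mul, sum_pow_mul_eq hζ, if_pos (dvd_mul_right ℓ n)] at h1
  apply mul_left_cancel₀ hℓR
  rw [h1]
  by_cases hd : ℓ ∣ n
  · rw [if_pos hd, if_pos (Nat.mul_dvd_mul_left ℓ hd),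
      Nat.mul_div_mul_left n ℓ (Nat.pos_of_ne_zero hℓ), smul_eq_mul]
    push_cast
    ring
  · rw [if_neg hd, if_neg fun hd' => hd ((Nat.mul_dvd_mul_iff_left (Nat.pos_of_ne_zero hℓ)).mp hd'),
      smul_zero]
    ring

/-- Modular functions lie in the field of series with integer coefficients. -/
theorem scalable_modField {k : Type*} [Field k] {A : ValuationSubring ℚ̄} (π : A →+* k) {q : ℕ}
    (hq : 2 ≤ q) (hA : ResChar π q) (N : ℕ) : Scalable π (modField ℚ̄ N).val := by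
  refine BAD.Gauss.scalable_of_mem_intField _ hq hA fun f => ?_
  refine (modField_le_iff.mpr fun d hd hd0 => ?_ : modField ℚ̄ N ≤ BAD.Gauss.intField ℚ̄) f.2
  rw [RED.Spec.jSer_eq_jqModC, ← coeffMap_jqModC (Int.castRingHom ℚ̄),
    ← ModularCurve.coeffMap_qExpand]
  exact BAD.Gauss.castSeries_mem_intField _

/-- Splitting the leading monomials off a residual Hecke identity. -/
theorem isHeckeNorm_of_series {k : Type*} [Field k] {ℓ : ℕ} [NeZero ℓ] (ζ : kˣ) {m m' : ℤ}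
    {c c' : k} (hc : c ≠ 0) (hc' : c' ≠ 0) {u u' : PowerSeries k}
    (hu : PowerSeries.constantCoeff u = 1) (hu' : PowerSeries.constantCoeff u' = 1)
    (h : qExpand k ℓ (HahnSeries.single m' c' * HahnSeries.ofPowerSeries ℤ k u') =
      qExpand k (ℓ * ℓ) (HahnSeries.single m c * HahnSeries.ofPowerSeries ℤ k u) *
        ∏ i : Fin ℓ, Igusa.qScale (ζ ^ (i : ℕ))
          (HahnSeries.single m c * HahnSeries.ofPowerSeries ℤ k u)) :
    IsHeckeNorm (NeZero.ne ℓ) (ζ : k) u u' := by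
  rw [map_mul, map_mul, Igusa.qExpand_ofPowerSeries, Igusa.qExpand_ofPowerSeries, qExpand_single,
    qExpand_single] at h
  simp only [map_mul, Igusa.qScale_single, Igusa.qScale_ofPowerSeries] at h
  rw [Finset.prod_mul_distrib, prod_single, ← map_prod, mul_mul_mul_comm,
    HahnSeries.single_mul_single, ← map_mul] at h
  have hr : ∀ i : Fin ℓ,
      PowerSeries.constantCoeff (PowerSeries.rescale ((ζ ^ (i : ℕ) : kˣ) : k) u) = 1 := fun i => by
    rw [← PowerSeries.coeff_zero_eq_constantCoeff_apply, PowerSeries.coeff_rescale, pow_zero,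
      one_mul, PowerSeries.coeff_zero_eq_constantCoeff_apply, hu]
  obtain ⟨-, -, e⟩ := split_unique hc'
    (mul_ne_zero hc (Finset.prod_ne_zero_iff.mpr fun i _ => mul_ne_zero (Units.ne_zero _) hc))
    (by rw [PowerSeries.constantCoeff_expand, hu'])
    (by rw [map_mul, PowerSeries.constantCoeff_expand, hu, map_prod, one_mul]
        exact Finset.prod_eq_one fun i _ => hr i) h
  rw [IsHeckeNorm, e, ← Fin.prod_univ_eq_prod_range (fun i => PowerSeries.rescale ((ζ : k) ^ i) u) ℓ]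
  simp only [Units.val_pow_eq_pow_val]

variable {k : Type*} [Field k] {A : ValuationSubring ℚ̄} (π : A →+* k) {N ℓ : ℕ} [NeZero N]
  [NeZero ℓ]

/-- Reduction of the Hecke identity. -/
theorem gaussRed_heckeFun (hsc : Scalable π (modField ℚ̄ N).val) (hℓ : ℓ.Prime) (hℓN : ¬ ℓ ∣ N)
    (hℓk : (ℓ : k) ≠ 0) {f : modField ℚ̄ N} (hf : (f : LaurentSeries ℚ̄) ∈ gaussRing π)
    (hf0 : gaussRed π ⟨_, hf⟩ ≠ 0) :
    ∃ (hT : (heckeFun ℚ̄ N ℓ f : LaurentSeries ℚ̄) ∈ gaussRing π) (ζ : kˣ),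
      IsPrimitiveRoot ζ ℓ ∧ gaussRed π ⟨_, hT⟩ ≠ 0 ∧
      qExpand k ℓ (gaussRed π ⟨_, hT⟩) = qExpand k (ℓ * ℓ) (gaussRed π ⟨_, hf⟩) *
        ∏ i : Fin ℓ, Igusa.qScale (ζ ^ (i : ℕ)) (gaussRed π ⟨_, hf⟩) := by
  obtain ⟨z, hzL, hzk⟩ := exists_primitive_unit π hℓ hℓk
  let F : gaussRing π := ⟨_, hf⟩
  obtain ⟨hX, eX⟩ := gaussRed_qExpand (π := π) (ℓ * ℓ) F
  choose hY eY using fun i : Fin ℓ => gaussRed_qScale (π := π) (z ^ (i : ℕ)) F
  let R : gaussRing π := ⟨_, hX⟩ * ∏ i : Fin ℓ, ⟨_, hY i⟩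
  have hR : gaussRed π R = qExpand k (ℓ * ℓ) (gaussRed π F) *
      ∏ i : Fin ℓ, Igusa.qScale (Units.map π.toMonoidHom z ^ (i : ℕ)) (gaussRed π F) := by
    simp only [R, map_mul, map_prod, eX]
    congr 1
    exact Finset.prod_congr rfl fun i _ => by rw [eY i, map_pow]
  have hser : qExpand ℚ̄ ℓ (heckeFun ℚ̄ N ℓ f : LaurentSeries ℚ̄) = (R : LaurentSeries ℚ̄) := by
    rw [qExpand_heckeFun hℓ hℓN _ hzL f]
    simp only [R, F, Subring.coe_mul, SubmonoidClass.coe_finsetProd, map_pow]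
  have hR0 : gaussRed π R ≠ 0 := by
    rw [hR]
    exact mul_ne_zero ((map_ne_zero _).mpr hf0)
      (Finset.prod_ne_zero_iff.mpr fun i _ => (map_ne_zero _).mpr hf0)
  set y : LaurentSeries ℚ̄ := (heckeFun ℚ̄ N ℓ f : LaurentSeries ℚ̄) with hy
  have hT : y ∈ gaussRing π ∧ ∀ h : y ∈ gaussRing π,
      qExpand k ℓ (gaussRed π ⟨_, h⟩) = gaussRed π R := by
    have hne : heckeFun ℚ̄ N ℓ f ≠ 0 := fun h0 => by
      rw [hy, h0, ZeroMemClass.coe_zero, map_zero] at hser
      exact hR0 (by rw [show R = 0 from Subtype.ext hser.symm, map_zero])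
    obtain ⟨d, hd, hd0⟩ := hsc _ hne
    rw [BAD.Gauss.smul_eq_C_mul] at hd
    have hd' : (HahnSeries.C d * y) ∈ gaussRing π := hd
    have hd0' : gaussRed π ⟨_, hd'⟩ ≠ 0 := fun h0 => hd0 (by
      rw [← h0]
      congr 1
      exact Subtype.ext (BAD.Gauss.smul_eq_C_mul _ d _))
    obtain ⟨hq, eq⟩ := gaussRed_qExpand (π := π) ℓ ⟨_, hd'⟩
    have hRi := BAD.Gauss.inv_mem_gaussRing hR0
    have hRne : (R : LaurentSeries ℚ̄) ≠ 0 := fun h0 =>
      hR0 (by rw [show R = 0 from Subtype.ext h0, map_zero])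
    have hCd : (HahnSeries.C d : LaurentSeries ℚ̄) =
        qExpand ℚ̄ ℓ (HahnSeries.C d * y) * (R : LaurentSeries ℚ̄)⁻¹ := by
      rw [map_mul, hser, mul_assoc, mul_inv_cancel₀ hRne, mul_one, HahnSeries.C_apply,
        qExpand_single, mul_zero]
    let Cd : gaussRing π := ⟨_, hq⟩ * ⟨_, hRi⟩
    have hCd0 : gaussRed π Cd ≠ 0 := by
      refine left_ne_zero_of_mul (b := gaussRed π R) ?_
      rw [← map_mul, show Cd * R = ⟨_, hq⟩ from Subtype.ext (by
        show _ * _ * _ = _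
        rw [mul_assoc, inv_mul_cancel₀ hRne, mul_one]), eq]
      exact (map_ne_zero _).mpr hd0'
    have hCdi := BAD.Gauss.inv_mem_gaussRing hCd0
    have hCd' : (Cd : LaurentSeries ℚ̄) = HahnSeries.C d := hCd.symm
    have hd1 : (HahnSeries.C d : LaurentSeries ℚ̄) ≠ 0 := fun h0 =>
      hCd0 (by rw [show Cd = 0 from Subtype.ext (hCd'.trans h0), map_zero])
    have hymem : y ∈ gaussRing π := by
      have e : y = (Cd : LaurentSeries ℚ̄)⁻¹ * (HahnSeries.C d * y) := by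
        rw [hCd', ← mul_assoc, inv_mul_cancel₀ hd1, one_mul]
      rw [e]
      exact mul_mem hCdi hd'
    refine ⟨hymem, fun h => ?_⟩
    obtain ⟨hq', eq'⟩ := gaussRed_qExpand (π := π) ℓ ⟨_, h⟩
    rw [← eq']
    congr 1
    exact Subtype.ext hser
  refine ⟨hT.1, Units.map π.toMonoidHom z, hzk, fun h0 => hR0 ?_, by rw [hT.2 hT.1, hR]⟩
  rw [← hT.2 hT.1, h0, map_zero]

omit π in
/-- The relation `T f = f ^ a g ^ n` survives scaling. -/
theorem exists_heckeFun_smul {n : ℕ} (hn : n ≠ 0) (hℓ : ℓ.Prime) (hℓN : ¬ ℓ ∣ N)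
    {f g : modField ℚ̄ N} (hg : g ≠ 0) {a : ℤ} (hT : heckeFun ℚ̄ N ℓ f = f ^ a * g ^ n)
    {d : ℚ̄} (hd : d ≠ 0) :
    ∃ g' : modField ℚ̄ N, g' ≠ 0 ∧ heckeFun ℚ̄ N ℓ (d • f) = (d • f) ^ a * g' ^ n := by
  obtain ⟨e, he⟩ := IsAlgClosed.exists_pow_nat_eq (d ^ ((ℓ : ℤ) + 1 - a)) (Nat.pos_of_ne_zero hn)
  have he0 : e ≠ 0 := fun h => zpow_ne_zero _ hd (by rw [← he, h, zero_pow hn])
  have hde : d ^ (ℓ + 1) = d ^ a * e ^ n := by
    rw [he, ← zpow_add₀ hd, ← zpow_natCast]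
    congr 1
    push_cast
    ring
  refine ⟨algebraMap ℚ̄ _ e * g, mul_ne_zero ((map_ne_zero _).mpr he0) hg, ?_⟩
  rw [Algebra.smul_def, heckeFun_mul, heckeFun_algebraMap hℓ hℓN, hT, mul_zpow, mul_pow, hde,
    map_mul, map_zpow₀, map_pow]
  ring

/-- A function with `T f = f ^ a g ^ p` reduces to a series whose logarithmic derivative is an
eigen series. -/
theorem thetaLog_eigen_of_heckeFun {p : ℕ} (hp : p.Prime) [CharP k p]
    (hsc : Scalable π (modField ℚ̄ N).val) (hℓ : ℓ.Prime) (hℓN : ¬ ℓ ∣ N) (hℓp : ℓ ≠ p)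
    {f g : modField ℚ̄ N} (hg : g ≠ 0) {a : ℤ} (hT : heckeFun ℚ̄ N ℓ f = f ^ a * g ^ p)
    (hf : (f : LaurentSeries ℚ̄) ∈ gaussRing π) (hf0 : gaussRed π ⟨_, hf⟩ ≠ 0)
    {m : ℤ} {c : k} {u : PowerSeries k} (hu : PowerSeries.constantCoeff u = 1)
    (hfu : gaussRed π ⟨_, hf⟩ = HahnSeries.single m c * HahnSeries.ofPowerSeries ℤ k u) (n : ℕ) :
    PowerSeries.coeff (n * ℓ) (thetaLog u) +
        (if ℓ ∣ n then (ℓ : k) * PowerSeries.coeff (n / ℓ) (thetaLog u) else 0) =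
      (a : k) * PowerSeries.coeff n (thetaLog u) := by
  haveI := Fact.mk hp
  have hℓk : (ℓ : k) ≠ 0 := fun h => hℓp
    ((Nat.prime_dvd_prime_iff_eq hp hℓ).mp ((CharP.cast_eq_zero_iff k p ℓ).mp h)).symm
  obtain ⟨hTm, ζ, hζ, hT0, hTeq⟩ := gaussRed_heckeFun π hsc hℓ hℓN hℓk hf hf0
  set e := (modField ℚ̄ N).val with he
  let red : BAD.Gauss.valRing hsc →+* LaurentSeries k := BAD.Gauss.valRed hsc
  let F : BAD.Gauss.valRing hsc := ⟨f, hf⟩
  let T : BAD.Gauss.valRing hsc := ⟨heckeFun ℚ̄ N ℓ f, hTm⟩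
  have hF : red F ≠ 0 := hf0
  have hTr : red T ≠ 0 := hT0
  have unit : ∀ x : BAD.Gauss.valRing hsc, red x ≠ 0 → IsUnit x := fun x hx => by
    refine isUnit_iff_exists_inv.mpr ⟨⟨(x : modField ℚ̄ N)⁻¹, ?_⟩, Subtype.ext ?_⟩
    · rw [BAD.Gauss.mem_valRing, map_inv₀]
      exact BAD.Gauss.inv_mem_gaussRing (y := ⟨_, x.2⟩) hx
    · refine mul_inv_cancel₀ fun h0 => hx ?_
      rw [show x = 0 from Subtype.ext h0, map_zero]
  obtain ⟨Fu, hFu⟩ := unit F hF
  obtain ⟨Tu, hTu⟩ := unit T hTr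
  have hgp : g ^ p = (((Fu ^ a)⁻¹ * Tu : (BAD.Gauss.valRing hsc)ˣ) : modField ℚ̄ N) := by
    have hz : (((Fu ^ a : (BAD.Gauss.valRing hsc)ˣ) : BAD.Gauss.valRing hsc) : modField ℚ̄ N) =
        f ^ a := by
      have := map_zpow (Units.map (BAD.Gauss.valRing hsc).subtype.toMonoidHom) Fu a
      have h2 := congrArg (fun x : (modField ℚ̄ N)ˣ => (x : modField ℚ̄ N)) this
      simp only [Units.coe_map, Units.val_zpow_eq_zpow_val] at h2
      refine h2.trans ?_
      show ((Fu : BAD.Gauss.valRing hsc) : modField ℚ̄ N) ^ a = f ^ a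
      rw [hFu]
    rw [Units.val_mul, hTu, MulMemClass.coe_mul, eq_comm]
    refine mul_left_cancel₀ (zpow_ne_zero a (fun h0 : f = 0 => hF ?_)) ?_
    · rw [show F = 0 from Subtype.ext h0, map_zero]
    · rw [← mul_assoc, ← hz, ← MulMemClass.coe_mul, ← Units.val_mul, mul_inv_cancel,
        Units.val_one, OneMemClass.coe_one, one_mul, hz]
      exact hT
  have hgmem : g ∈ BAD.Gauss.valRing hsc := by
    refine ((BAD.Gauss.valRing hsc).mem_or_inv_mem g).elim id fun hgi => ?_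
    let G : BAD.Gauss.valRing hsc := ⟨g⁻¹, hgi⟩
    have hG : IsUnit (G ^ p) := ⟨((Fu ^ a)⁻¹ * Tu)⁻¹, by
      apply Subtype.ext
      have h1 := congrArg (Subtype.val : BAD.Gauss.valRing hsc → modField ℚ̄ N)
        ((((Fu ^ a)⁻¹ * Tu) : (BAD.Gauss.valRing hsc)ˣ).mul_inv)
      rw [MulMemClass.coe_mul, ← hgp, OneMemClass.coe_one] at h1
      rw [SubmonoidClass.coe_pow]
      show _ = g⁻¹ ^ p
      rw [inv_pow]
      exact eq_inv_of_mul_eq_one_right h1⟩
    obtain ⟨Gu, hGu⟩ := (isUnit_pow_iff hp.ne_zero).mp hG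
    have h1 := congrArg (Subtype.val : BAD.Gauss.valRing hsc → modField ℚ̄ N) Gu.mul_inv
    rw [MulMemClass.coe_mul, hGu, OneMemClass.coe_one] at h1
    have h2 : ((↑Gu⁻¹ : BAD.Gauss.valRing hsc) : modField ℚ̄ N) = g := by
      simpa [G] using eq_inv_of_mul_eq_one_right h1
    exact h2 ▸ (↑Gu⁻¹ : BAD.Gauss.valRing hsc).2
  let G : BAD.Gauss.valRing hsc := ⟨g, hgmem⟩
  have hTG : T = ((Fu ^ a : (BAD.Gauss.valRing hsc)ˣ) : BAD.Gauss.valRing hsc) * G ^ p := by
    have hGp : G ^ p = (((Fu ^ a)⁻¹ * Tu : (BAD.Gauss.valRing hsc)ˣ) : BAD.Gauss.valRing hsc) :=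
      Subtype.ext ((SubmonoidClass.coe_pow G p).trans hgp)
    rw [hGp, ← Units.val_mul, mul_inv_cancel_left, hTu]
  have hG0 : red G ≠ 0 := fun h0 => hTr (by
    rw [hTG, map_mul, map_pow, h0, zero_pow hp.ne_zero, mul_zero])
  have hred : red T = red F ^ a * red G ^ p := by
    rw [hTG, map_mul, map_pow]
    congr 1
    have := congrArg (fun x : (LaurentSeries k)ˣ => (x : LaurentSeries k))
      (map_zpow (Units.map red.toMonoidHom) Fu a)
    simp only [Units.coe_map, Units.val_zpow_eq_zpow_val] at this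
    refine this.trans ?_
    show red (Fu : BAD.Gauss.valRing hsc) ^ a = red F ^ a
    rw [hFu]
  -- the exponent only matters modulo `p`
  set a₀ := (a % p).toNat with ha₀
  have hpz : (p : ℤ) ≠ 0 := by exact_mod_cast hp.ne_zero
  have haq : a = (a₀ : ℤ) + (a / p) * p := by
    rw [ha₀, Int.toNat_of_nonneg (Int.emod_nonneg a hpz), Int.emod_add_ediv_mul]
  set Z := red F ^ (a / (p : ℤ)) * red G with hZ
  have hZ0 : Z ≠ 0 := mul_ne_zero (zpow_ne_zero _ hF) hG0
  have hTZ : red T = red F ^ a₀ * Z ^ p := by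
    rw [hred, hZ, mul_pow, ← mul_assoc, ← zpow_natCast (red F ^ (a / (p : ℤ))) p, ← zpow_mul,
      ← zpow_natCast (red F) a₀, ← zpow_add₀ hF, ← haq]
  clear_value Z
  obtain ⟨v, hv, hZv⟩ := exists_split hZ0
  obtain ⟨u', hu', hTu'⟩ := exists_split hTr
  have hc : c ≠ 0 := fun h0 => hF (by
    show gaussRed π ⟨_, hf⟩ = 0
    rw [hfu, h0, map_zero, zero_mul])
  have hnorm := isHeckeNorm_of_series ζ hc (leadHom_ne_zero hTr) hu hu'
    (by rw [← hTu', ← hfu]; exact hTeq)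
  have hsplit : u' = u ^ a₀ * v ^ p := by
    refine (split_unique (leadHom_ne_zero hTr) (mul_ne_zero (pow_ne_zero a₀ hc)
      (pow_ne_zero p (leadHom_ne_zero hZ0))) hu' (by simp [hu, hv])
      (m := (red T).order) (n := a₀ • m + p • Z.order) ?_).2.2
    rw [← hTu', hTZ, show red F = _ from hfu, mul_pow, ← HahnSeries.single_mul_single,
      ← HahnSeries.single_pow, ← HahnSeries.single_pow, map_mul, map_pow, map_pow]
    conv_lhs => rw [hZv, mul_pow]
    ring
  have key := coeff_thetaLog_heckeNorm_of_ne (NeZero.ne ℓ) hℓk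
    (IsPrimitiveRoot.coe_units_iff.mpr hζ) hu hnorm n
  rw [hsplit, thetaLog_mul (by rw [map_pow, hu, one_pow]) (by rw [map_pow, hv, one_pow]),
    thetaLog_pow hu, thetaLog_pow hv, map_add, map_nsmul, map_nsmul, nsmul_eq_mul, nsmul_eq_mul,
    CharP.cast_eq_zero k p, zero_mul, add_zero] at key
  rw [mul_comm n ℓ, ← key]
  congr 1
  conv_rhs => rw [haq]
  push_cast
  rw [CharP.cast_eq_zero k p, mul_zero, add_zero]

end Fermat.Agent.LLp
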