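import Mathlib.RingTheory.Length
import Mathlib.RingTheory.Noetherian.Basic
import Mathlib.RingTheory.Ideal.Quotient.Operations
import Mathlib.Algebra.BigOperators.Group.Finset.Basic
import Mathlib.Algebra.BigOperators.WithTop
import Mathlib.Tactic.LinearCombination

/-!
# The length of `R / (x, z)` through the prime divisors of `x`

For a finite family of discrete filtrations `I` of a noetherian domain `R` (the valuations of the
height one primes dividing `x`, given through the ideals of elements of value at least `n`), with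
`x R` the intersection of the levels `m`, the length of `R / (x, z)` is the sum of the lengths of
`R / (P + (z))` counted with multiplicity `m`.
-/

set_option autoImplicit false

noncomputable section

namespace Fermat.Agent.LLp

variable {R : Type*} [CommRing R]

/-- A discrete valuation of a domain, through the ideals of elements of value `≥ n`. -/
structure DiscFilt (R : Type*) [CommRing R] where
  I : ℕ → Ideal R
  zero : I 0 = ⊤
  succ_le : ∀ n, I (n + 1) ≤ I n
  mul_le : ∀ m n, I m * I n ≤ I (m + n)
  cancel : ∀ {n : ℕ} {a b : R}, a ∉ I 1 → b ∈ I n → a * b ∈ I (n + 1) → b ∈ I (n + 1)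
  nontriv : ∀ n, ∃ b ∈ I n, b ∉ I (n + 1)
  rankOne : ∀ {n : ℕ} {a b : R}, a ∈ I n → b ∈ I n → b ∉ I (n + 1) →
    ∃ d c : R, d ∉ I 1 ∧ d * a - c * b ∈ I (n + 1)
  finiteLength : ∀ {d : R}, d ∉ I 1 → Module.length R (R ⧸ (I 1 ⊔ Ideal.span {d})) ≠ ⊤

namespace DiscFilt

variable (v : DiscFilt R)

theorem antitone : Antitone v.I := antitone_nat_of_succ_le v.succ_le

theorem mem_of_mul_mem {a b : R} (ha : a ∉ v.I 1) :
    ∀ {n : ℕ}, a * b ∈ v.I n → b ∈ v.I n := by
  intro n
  induction n with
  | zero => intro _; rw [v.zero]; trivial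
  | succ n ih => exact fun h => v.cancel ha (ih (v.succ_le n h)) h

theorem isPrime : (v.I 1).IsPrime where
  ne_top' := by
    obtain ⟨b, -, hb⟩ := v.nontriv 0
    exact fun h => hb (by rw [show v.I (0 + 1) = ⊤ from h]; trivial)
  mem_or_mem' {a b} h := or_iff_not_imp_left.2 fun ha => v.mem_of_mul_mem ha h

theorem pow_mem {a : R} (ha : a ∈ v.I 1) : ∀ n : ℕ, a ^ n ∈ v.I n
  | 0 => by rw [v.zero]; trivial
  | n + 1 => by
    rw [pow_succ]
    exact v.mul_le n 1 (Ideal.mul_mem_mul (pow_mem ha n) ha)

end DiscFilt

/-- The length of `B / (A ⊓ B)`. -/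
def relLen (A B : Submodule R R) : ℕ∞ :=
  Module.length R (↥B ⧸ A.comap B.subtype)

theorem relLen_top (A : Submodule R R) : relLen A ⊤ = Module.length R (R ⧸ A) := by
  refine LinearEquiv.length_eq ?_
  refine Submodule.Quotient.equiv _ _ Submodule.topEquiv ?_
  ext x
  simp

theorem relLen_add {A B C : Submodule R R} (hAB : A ≤ B) (hBC : B ≤ C) :
    relLen A C = relLen A B + relLen B C := by
  let f : (↥B ⧸ A.comap B.subtype) →ₗ[R] (↥C ⧸ A.comap C.subtype) :=
    Submodule.mapQ _ _ (Submodule.inclusion hBC) (fun x hx => by simpa using hx)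
  let g : (↥C ⧸ A.comap C.subtype) →ₗ[R] (↥C ⧸ B.comap C.subtype) :=
    Submodule.factor (Submodule.comap_mono hAB)
  refine Module.length_eq_add_of_exact f g ?_ (Submodule.factor_surjective _) ?_
  · rw [injective_iff_map_eq_zero]
    intro x
    induction x using Submodule.Quotient.induction_on with
    | _ x => simp [f, Submodule.Quotient.mk_eq_zero]
  · intro y
    induction y using Submodule.Quotient.induction_on with
    | _ y =>
      simp only [g, Submodule.factor, Submodule.mapQ_apply, LinearMap.id_coe, id_eq,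
        Submodule.Quotient.mk_eq_zero, Set.mem_range]
      constructor
      · intro hy
        exact ⟨Submodule.Quotient.mk ⟨(y : R), hy⟩, rfl⟩
      · rintro ⟨x, hx⟩
        induction x using Submodule.Quotient.induction_on with
        | _ x =>
          simp only [f, Submodule.mapQ_apply, Submodule.Quotient.eq] at hx
          have h1 : (x : R) - (y : R) ∈ A := by simpa using hx
          have h2 := sub_mem x.2 (hAB h1)
          simpa using h2

variable {v : DiscFilt R}

/-- One step of the filtration. -/
theorem relLen_step [IsNoetherianRing R] {J J' : Ideal R} {n : ℕ} (hJ : J ≤ v.I n)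
    (hJ' : J' = J ⊓ v.I (n + 1)) {b : R} (hb : b ∈ J) (hbn : b ∉ v.I (n + 1))
    {z : R} (hz : z ∉ v.I 1) :
    relLen (J' ⊔ Ideal.span {z} * J) J =
      Module.length R (R ⧸ (v.I 1 ⊔ Ideal.span {z})) := by
  classical
  let A : Ideal R := J' ⊔ Ideal.span {b}
  have hAJ : A ≤ J := sup_le (hJ' ▸ inf_le_left) ((Ideal.span_singleton_le_iff_mem J).2 hb)
  have hzJ : Ideal.span {z} * J ≤ J := Ideal.mul_le_right
  have h1 : J' ⊔ Ideal.span {z} * A ≤ A :=
    sup_le le_sup_left Ideal.mul_le_right
  have h2 : J' ⊔ Ideal.span {z} * A ≤ J' ⊔ Ideal.span {z} * J :=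
    sup_le_sup_left (Ideal.mul_mono_right hAJ) _
  have key : relLen (J' ⊔ Ideal.span {z} * A) J = relLen (J' ⊔ Ideal.span {z} * A) A +
      relLen A J := relLen_add h1 hAJ
  rw [relLen_add (A := J' ⊔ Ideal.span {z} * A) h2 (sup_le (hJ' ▸ inf_le_left) hzJ)] at key
  -- multiplication by `z` identifies the two copies of `J / A`
  have hmul : relLen (J' ⊔ Ideal.span {z} * A) (J' ⊔ Ideal.span {z} * J) = relLen A J := by
    let φ : ↥J →ₗ[R]
        (↥(J' ⊔ Ideal.span {z} * J) ⧸
          Submodule.comap (J' ⊔ Ideal.span {z} * J).subtype (J' ⊔ Ideal.span {z} * A)) :=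
      (Submodule.mkQ _).comp (LinearMap.codRestrict _ (z • J.subtype) fun x =>
        Submodule.mem_sup_right (Ideal.mul_mem_mul (Ideal.mem_span_singleton_self z) x.2))
    have hsurj : Function.Surjective φ := by
      intro y
      induction y using Submodule.Quotient.induction_on with
      | _ y =>
        obtain ⟨j, hj, w, hw, hy⟩ := Submodule.mem_sup.1 y.2
        obtain ⟨a, ha, rfl⟩ := Ideal.mem_span_singleton_mul.1 hw
        refine ⟨⟨a, ha⟩, (Submodule.Quotient.eq _).2 ?_⟩
        show z * a - (y : R) ∈ J' ⊔ Ideal.span {z} * A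
        rw [← hy, sub_add_cancel_right]
        exact neg_mem (Submodule.mem_sup_left hj)
    have hker : LinearMap.ker φ = Submodule.comap J.subtype A := by
      ext a
      simp only [φ, LinearMap.mem_ker, LinearMap.comp_apply, Submodule.mkQ_apply,
        Submodule.Quotient.mk_eq_zero, Submodule.mem_comap]
      show z * (a : R) ∈ J' ⊔ Ideal.span {z} * A ↔ (a : R) ∈ A
      refine ⟨fun h => ?_, fun h => Submodule.mem_sup_right
        (Ideal.mul_mem_mul (Ideal.mem_span_singleton_self z) h)⟩
      obtain ⟨j, hj, w, hw, hy⟩ := Submodule.mem_sup.1 h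
      obtain ⟨α, hα, rfl⟩ := Ideal.mem_span_singleton_mul.1 hw
      have h' : z * ((a : R) - α) ∈ v.I (n + 1) := by
        rw [mul_sub, ← hy, add_sub_cancel_right]
        exact (hJ'.le hj).2
      have h'' : (a : R) - α ∈ J' :=
        hJ'.ge ⟨sub_mem a.2 (hAJ hα), v.mem_of_mul_mem hz h'⟩
      simpa using add_mem (show (a : R) - α ∈ A from Submodule.mem_sup_left h'') hα
    exact ((LinearMap.quotKerEquivOfSurjective φ hsurj).length_eq).symm.trans
      (Submodule.quotEquivOfEq _ _ hker).length_eq
  -- the finite length of `J / A`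
  have hfin : relLen A J ≠ ⊤ := by
    obtain ⟨s, hs⟩ := IsNoetherian.noetherian (R := R) (M := R) J
    have : ∀ a ∈ s, ∃ d c : R, d ∉ v.I 1 ∧ d * a - c * b ∈ J' := by
      intro a ha
      have haJ : a ∈ J := hs ▸ Submodule.subset_span ha
      obtain ⟨d, c, hd, h⟩ := v.rankOne (hJ haJ) (hJ hb) hbn
      exact ⟨d, c, hd, hJ'.ge ⟨sub_mem (J.mul_mem_left d haJ) (J.mul_mem_left c hb), h⟩⟩
    choose! d c hd hdc using this
    let D : R := ∏ a ∈ s, d a
    have hD : D ∉ v.I 1 := fun h => by
      obtain ⟨a, ha, h'⟩ := (v.isPrime.prod_mem_iff).1 h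
      exact hd a ha h'
    let Q : Ideal R := v.I 1 ⊔ Ideal.span {D}
    have hQ : ∀ r ∈ Q, ∀ a ∈ J, r * a ∈ A := by
      intro r hr
      obtain ⟨r₁, hr₁, r₂, hr₂, rfl⟩ := Submodule.mem_sup.1 hr
      obtain ⟨t, rfl⟩ := Ideal.mem_span_singleton'.1 hr₂
      intro a ha
      rw [add_mul]
      refine add_mem (Submodule.mem_sup_left (hJ'.ge ⟨J.mul_mem_left _ ha, ?_⟩)) ?_
      · rw [add_comm n 1]
        exact v.mul_le 1 n (Ideal.mul_mem_mul hr₁ (hJ ha))
      · rw [mul_assoc]
        refine A.mul_mem_left t ?_
        rw [← hs] at ha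
        induction ha using Submodule.span_induction with
        | mem x hx =>
          have hdx : d x * x ∈ A := by
            simpa using add_mem (show d x * x - c x * b ∈ A from
              Submodule.mem_sup_left (hdc x hx))
              (show c x * b ∈ A from
                Submodule.mem_sup_right (Ideal.mul_mem_left _ _ (Ideal.mem_span_singleton_self b)))
          obtain ⟨e, he⟩ : d x ∣ D := Finset.dvd_prod_of_mem d hx
          rw [he, mul_comm (d x) e, mul_assoc]
          exact A.mul_mem_left e hdx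
        | zero => simp
        | add x y _ _ hx hy => rw [mul_add]; exact add_mem hx hy
        | smul r x _ hx =>
          rw [smul_eq_mul, mul_left_comm]
          exact A.mul_mem_left r hx
    let gen : (↥s → R ⧸ Q) →ₗ[R] (↥J ⧸ Submodule.comap J.subtype A) :=
      ∑ a : ↥s, (Submodule.liftQ Q
        (LinearMap.toSpanSingleton R (↥J ⧸ Submodule.comap J.subtype A)
          (Submodule.Quotient.mk ⟨a.1, hs ▸ Submodule.subset_span a.2⟩)) (fun r hr => by
            rw [LinearMap.mem_ker, LinearMap.toSpanSingleton_apply, ← Submodule.Quotient.mk_smul,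
              Submodule.Quotient.mk_eq_zero]
            exact hQ r hr a.1 (hs ▸ Submodule.subset_span a.2))).comp (LinearMap.proj a)
    have hsurj : Function.Surjective gen := by
      rw [← LinearMap.range_eq_top, eq_top_iff]
      rintro y -
      induction y using Submodule.Quotient.induction_on with
      | _ y =>
        obtain ⟨y, hy⟩ := y
        have hy' : y ∈ Submodule.span R (s : Set R) := hs.symm ▸ hy
        revert hy
        induction hy' using Submodule.span_induction with
        | mem x hx =>
          intro hy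
          refine ⟨Pi.single ⟨x, hx⟩ (Submodule.Quotient.mk 1), ?_⟩
          simp only [gen, LinearMap.coe_sum, Finset.sum_apply, LinearMap.comp_apply,
            LinearMap.proj_apply]
          rw [Finset.sum_eq_single ⟨x, hx⟩]
          · rw [Pi.single_eq_same, Submodule.liftQ_apply, LinearMap.toSpanSingleton_apply,
              one_smul]
          · intro a _ ha
            simp [Pi.single_eq_of_ne ha]
          · simp
        | zero => intro hy; exact ⟨0, by rw [map_zero]; rfl⟩
        | add x x' hx hx' ihx ihx' =>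
          intro hy
          have := add_mem (ihx (hs ▸ hx)) (ihx' (hs ▸ hx'))
          exact this
        | smul r x hx ihx =>
          intro hy
          exact Submodule.smul_mem _ r (ihx (hs ▸ hx))
    refine ne_top_of_le_ne_top ?_ (Module.length_le_of_surjective gen hsurj)
    rw [Module.length_pi_of_fintype]
    exact (WithTop.sum_lt_top.2 fun a _ => (v.finiteLength hD).lt_top).ne
  rw [hmul, add_comm] at key
  have key' := WithTop.add_right_cancel hfin key
  rw [key']
  -- `A / (J' + z A)`
  let ψ : R →ₗ[R] (↥A ⧸ Submodule.comap A.subtype (J' ⊔ Ideal.span {z} * A)) :=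
    LinearMap.toSpanSingleton R _
      (Submodule.Quotient.mk ⟨b, Submodule.mem_sup_right (Ideal.mem_span_singleton_self b)⟩)
  have hsurj : Function.Surjective ψ := by
    intro y
    induction y using Submodule.Quotient.induction_on with
    | _ y =>
      obtain ⟨j, hj, w, hw, hy⟩ := Submodule.mem_sup.1 y.2
      obtain ⟨t, rfl⟩ := Ideal.mem_span_singleton'.1 hw
      refine ⟨t, ?_⟩
      rw [LinearMap.toSpanSingleton_apply, ← Submodule.Quotient.mk_smul, Submodule.Quotient.eq]
      show t * b - (y : R) ∈ J' ⊔ Ideal.span {z} * A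
      rw [← hy, sub_add_cancel_right]
      exact neg_mem (Submodule.mem_sup_left hj)
  have hker : LinearMap.ker ψ = v.I 1 ⊔ Ideal.span {z} := by
    ext r
    rw [LinearMap.mem_ker, LinearMap.toSpanSingleton_apply, ← Submodule.Quotient.mk_smul,
      Submodule.Quotient.mk_eq_zero, Submodule.mem_comap]
    show r * b ∈ J' ⊔ Ideal.span {z} * A ↔ _
    constructor
    · intro h
      obtain ⟨j, hj, w, hw, hy⟩ := Submodule.mem_sup.1 h
      obtain ⟨α, hα, rfl⟩ := Ideal.mem_span_singleton_mul.1 hw
      obtain ⟨j₂, hj₂, w₂, hw₂, rfl⟩ := Submodule.mem_sup.1 hα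
      obtain ⟨t, rfl⟩ := Ideal.mem_span_singleton'.1 hw₂
      have h' : b * (r - z * t) ∈ v.I (n + 1) := by
        have : b * (r - z * t) = j + z * j₂ := by linear_combination -hy
        rw [this]
        exact add_mem (hJ'.le hj).2 (Ideal.mul_mem_left _ _ (hJ'.le hj₂).2)
      have hr : r - z * t ∈ v.I 1 := by
        by_contra hr
        exact hbn (v.mem_of_mul_mem hr (by rwa [mul_comm] at h'))
      simpa using add_mem (Submodule.mem_sup_left (T := Ideal.span {z}) hr)
        (Submodule.mem_sup_right (S := v.I 1)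
          (Ideal.mul_mem_right t _ (Ideal.mem_span_singleton_self z)))
    · intro h
      obtain ⟨r₁, hr₁, w, hw, rfl⟩ := Submodule.mem_sup.1 h
      obtain ⟨t, rfl⟩ := Ideal.mem_span_singleton'.1 hw
      rw [add_mul]
      refine add_mem (Submodule.mem_sup_left (hJ'.ge ⟨J.mul_mem_left _ hb, ?_⟩))
        (Submodule.mem_sup_right ?_)
      · rw [add_comm n 1]
        exact v.mul_le 1 n (Ideal.mul_mem_mul hr₁ (hJ hb))
      · rw [mul_comm t z, mul_assoc]
        exact Ideal.mul_mem_mul (Ideal.mem_span_singleton_self z)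
          (A.mul_mem_left t (Submodule.mem_sup_right (Ideal.mem_span_singleton_self b)))
  exact ((LinearMap.quotKerEquivOfSurjective ψ hsurj).length_eq).symm.trans
    (Submodule.quotEquivOfEq _ _ hker).length_eq

/-- The length of `R / (x, z)`. -/
theorem length_quotient_pair [IsNoetherianRing R] {ι : Type*} [Fintype ι]
    (v : ι → DiscFilt R) (sep : ∀ i j, i ≠ j → ∃ e ∈ (v i).I 1, e ∉ (v j).I 1)
    (m : ι → ℕ) {x z : R} (hx : Ideal.span {x} = Finset.univ.inf fun i => (v i).I (m i))
    (hz : ∀ i, z ∉ (v i).I 1) :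
    Module.length R (R ⧸ (Ideal.span {x} ⊔ Ideal.span {z})) =
      ∑ i, m i • Module.length R (R ⧸ ((v i).I 1 ⊔ Ideal.span {z})) := by
  classical
  suffices h : ∀ (N : ℕ) (k : ι → ℕ), ∑ i, k i = N →
      Module.length R (R ⧸ ((Finset.univ.inf fun i => (v i).I (k i)) ⊔ Ideal.span {z})) =
        ∑ i, k i • Module.length R (R ⧸ ((v i).I 1 ⊔ Ideal.span {z})) by
    rw [hx]
    exact h _ m rfl
  intro N
  induction N with
  | zero =>
    intro k hk
    have hk0 : ∀ i, k i = 0 := fun i => (Finset.sum_eq_zero_iff.1 hk) i (Finset.mem_univ i)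
    have htop : (Finset.univ.inf fun i => (v i).I (k i)) = ⊤ :=
      eq_top_iff.2 (Finset.le_inf fun i _ => by rw [hk0 i, (v i).zero])
    rw [htop, top_sup_eq]
    simp only [hk0, zero_smul, Finset.sum_const_zero]
    exact Module.length_eq_zero
  | succ N ih =>
    intro k hk
    obtain ⟨i₀, hi₀⟩ : ∃ i, k i ≠ 0 := by
      by_contra h
      push Not at h
      simp [h] at hk
    obtain ⟨n, hn⟩ := Nat.exists_eq_succ_of_ne_zero hi₀
    let k' := Function.update k i₀ n
    have hk' : ∑ i, k' i = N := by
      have := Finset.sum_update_of_mem (Finset.mem_univ i₀) k n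
      have h2 := Finset.add_sum_erase Finset.univ k (Finset.mem_univ i₀)
      simp only [k', Finset.sdiff_singleton_eq_erase] at this ⊢
      omega
    let J : Ideal R := Finset.univ.inf fun i => (v i).I (k' i)
    let J' : Ideal R := Finset.univ.inf fun i => (v i).I (k i)
    have hJn : J ≤ (v i₀).I n := by
      refine le_trans (Finset.inf_le (Finset.mem_univ i₀)) (le_of_eq ?_)
      simp [k']
    have hJ' : J' = J ⊓ (v i₀).I (n + 1) := by
      refine le_antisymm (le_inf (Finset.le_inf fun i _ => ?_) ?_)
        (Finset.le_inf fun i _ => ?_)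
      · refine le_trans (Finset.inf_le (Finset.mem_univ i)) ((v i).antitone ?_)
        rcases eq_or_ne i i₀ with rfl | h
        · simp [k', hn]
        · simp [k', h]
      · exact le_trans (Finset.inf_le (Finset.mem_univ i₀)) (le_of_eq (by rw [hn]))
      · rcases eq_or_ne i i₀ with rfl | h
        · exact le_trans inf_le_right (le_of_eq (by rw [hn]))
        · refine le_trans inf_le_left (le_trans (Finset.inf_le (Finset.mem_univ i)) (le_of_eq ?_))
          simp [k', h]
    obtain ⟨b, hb, hbn⟩ : ∃ b ∈ J, b ∉ (v i₀).I (n + 1) := by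
      obtain ⟨b₀, hb₀, hb₀n⟩ := (v i₀).nontriv n
      have : ∀ i, ∃ e, (i = i₀ ∨ e ∈ (v i).I (k' i)) ∧ e ∉ (v i₀).I 1 := by
        intro i
        rcases eq_or_ne i i₀ with h | h
        · exact ⟨1, Or.inl h, fun h1 => (v i₀).isPrime.ne_top (Ideal.eq_top_iff_one _ |>.2 h1)⟩
        · obtain ⟨e, he, he'⟩ := sep i i₀ h
          exact ⟨e ^ k' i, Or.inr ((v i).pow_mem he _),
            fun hp => he' ((v i₀).isPrime.mem_of_pow_mem _ hp)⟩
      choose e he he' using this
      refine ⟨(∏ i, e i) * b₀, Submodule.mem_finsetInf.2 fun i _ => ?_,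
        fun h => hb₀n ((v i₀).mem_of_mul_mem ?_ h)⟩
      · rcases he i with h | h
        · subst h
          simpa [k'] using ((v i).I n).mul_mem_left _ hb₀
        · exact ((v i).I (k' i)).mul_mem_right _
            (Ideal.prod_mem _ (Finset.mem_univ i) h)
      · exact fun hp => by
          obtain ⟨i, -, hi⟩ := ((v i₀).isPrime.prod_mem_iff).1 hp
          exact he' i hi
    have hstep := relLen_step hJn hJ' hb hbn (hz i₀)
    have hadd : relLen (J' ⊔ Ideal.span {z}) ⊤ =
        relLen (J' ⊔ Ideal.span {z}) (J ⊔ Ideal.span {z}) + relLen (J ⊔ Ideal.span {z}) ⊤ :=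
      relLen_add (sup_le_sup_right (hJ' ▸ inf_le_left) _) le_top
    have hmid : relLen (J' ⊔ Ideal.span {z}) (J ⊔ Ideal.span {z}) =
        relLen (J' ⊔ Ideal.span {z} * J) J := by
      let φ : ↥J →ₗ[R] (↥(J ⊔ Ideal.span {z}) ⧸
          Submodule.comap (J ⊔ Ideal.span {z}).subtype (J' ⊔ Ideal.span {z})) :=
        (Submodule.mkQ _).comp (Submodule.inclusion le_sup_left)
      have hsurj : Function.Surjective φ := by
        intro y
        induction y using Submodule.Quotient.induction_on with
        | _ y =>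
          obtain ⟨j, hj, w, hw, hy⟩ := Submodule.mem_sup.1 y.2
          refine ⟨⟨j, hj⟩, (Submodule.Quotient.eq _).2 ?_⟩
          show j - (y : R) ∈ J' ⊔ Ideal.span {z}
          rw [← hy, sub_add_cancel_left]
          exact neg_mem (Submodule.mem_sup_right hw)
      have hker : LinearMap.ker φ = Submodule.comap J.subtype (J' ⊔ Ideal.span {z} * J) := by
        ext a
        simp only [φ, LinearMap.mem_ker, LinearMap.comp_apply, Submodule.mkQ_apply,
          Submodule.Quotient.mk_eq_zero, Submodule.mem_comap]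
        show (a : R) ∈ J' ⊔ Ideal.span {z} ↔ (a : R) ∈ J' ⊔ Ideal.span {z} * J
        refine ⟨fun h => ?_, fun h => sup_le_sup_left Ideal.mul_le_left J' h⟩
        obtain ⟨j, hj, w, hw, hy⟩ := Submodule.mem_sup.1 h
        obtain ⟨t, rfl⟩ := Ideal.mem_span_singleton'.1 hw
        have hzt : z * t ∈ J := by
          rw [mul_comm]
          simpa [← hy] using sub_mem a.2 (show j ∈ J from (hJ'.le hj).1)
        have ht : t ∈ J := Submodule.mem_finsetInf.2 fun i hi =>
          (v i).mem_of_mul_mem (hz i) (Submodule.mem_finsetInf.1 hzt i hi)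
        rw [← hy, mul_comm t z]
        exact add_mem (Submodule.mem_sup_left hj)
          (Submodule.mem_sup_right (Ideal.mul_mem_mul (Ideal.mem_span_singleton_self z) ht))
      exact ((LinearMap.quotKerEquivOfSurjective φ hsurj).length_eq).symm.trans
        (Submodule.quotEquivOfEq _ _ hker).length_eq
    rw [← relLen_top, hadd, hmid, hstep, relLen_top, ih k' hk',
      ← Finset.add_sum_erase _ _ (Finset.mem_univ i₀),
      ← Finset.add_sum_erase _ _ (Finset.mem_univ i₀)]
    have hrest : ∀ i ∈ Finset.univ.erase i₀, k' i = k i := fun i hi => by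
      simp [k', Finset.ne_of_mem_erase hi]
    rw [Finset.sum_congr rfl fun i hi => by rw [hrest i hi]]
    simp only [k', Function.update_self, hn, succ_nsmul']
    rw [add_assoc]

end Fermat.Agent.LLp
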