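import Mathlib.RingTheory.PowerSeries.Inverse
import Mathlib.RingTheory.PowerSeries.Expand
import Mathlib.RingTheory.PowerSeries.Derivative
import Mathlib.RingTheory.Valuation.ValuationSubring
import Mathlib.RingTheory.RootsOfUnity.PrimitiveRoots

/-!
# Logarithmic theta derivative of power series and norms of branches
-/

set_option autoImplicit false

noncomputable section

namespace Fermat.Agent.LLp

open PowerSeries

variable {R : Type*} [CommRing R]

/-- `θ u / u` for a series with constant term one, `θ = X d/dX`. -/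
def thetaLog (u : R⟦X⟧) : R⟦X⟧ :=
  PowerSeries.X * d⁄dX R u * PowerSeries.invOfUnit u 1

/-- `v` is the product of the branches `u (ζ^i q^(1/p))`. -/
def IsBranchNorm {p : ℕ} (hp : p ≠ 0) (ζ : R) (u v : R⟦X⟧) : Prop :=
  PowerSeries.expand p hp v = ∏ i ∈ Finset.range p, PowerSeries.rescale (ζ ^ i) u

/-- `w` is `u (q^ℓ)` times the product of the branches `u (ζ^i q^(1/ℓ))`. -/
def IsHeckeNorm {ℓ : ℕ} (hℓ : ℓ ≠ 0) (ζ : R) (u w : R⟦X⟧) : Prop :=
  PowerSeries.expand ℓ hℓ w = PowerSeries.expand (ℓ * ℓ) (mul_ne_zero hℓ hℓ) u *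
    ∏ i ∈ Finset.range ℓ, PowerSeries.rescale (ζ ^ i) u

end Fermat.Agent.LLp
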