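import Fermat.Agent.ECFormal.Defs

/-!
# The local shape of `E[p]` at `p` consumed by level lowering at `p`
-/

set_option autoImplicit false

noncomputable section

namespace Fermat.Agent.LLp

open Fermat.Agent.Galois (Qbar GalQ)
open Fermat.Agent.ECFormal (Tors)

/-- A basis on which inertia acts through the Kummer class of a unit: `ζ` is a primitive `p`-th
root of one, `η ^ p` is a unit fixed by inertia, and `σ Q = b Q`, `σ P = P + c Q` when
`σ ζ = ζ ^ b`, `σ η = ζ ^ c η`. -/
def HasUnitKummer (W : WeierstrassCurve ℤ) (p : ℕ) (A : ValuationSubring Qbar) : Prop :=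
  ∃ (P Q : Tors W p) (ζ η : Qbar), IsPrimitiveRoot ζ p ∧ A.valuation η = 1 ∧
    Function.Bijective (fun ij : ZMod p × ZMod p => ij.1.val • P + ij.2.val • Q) ∧
    ∀ σ ∈ A.inertiaSubgroupIn ℚ, σ (η ^ p) = η ^ p ∧
      ∃ b c : ZMod p, σ ζ = ζ ^ b.val ∧ σ η = ζ ^ c.val * η ∧
        σ • Q = b.val • Q ∧ σ • P = P + c.val • Q

/-- No line is stable under inertia. -/
def InertiaIrreducible (W : WeierstrassCurve ℤ) (p : ℕ) (A : ValuationSubring Qbar) : Prop :=
  ∀ N : Submodule (ZMod p) (Tors W p),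
    (∀ σ ∈ A.inertiaSubgroupIn ℚ, ∀ x ∈ N, σ • x ∈ N) → N = ⊥ ∨ N = ⊤

/-- Peu ramifiée shape at every place over `p`: either irreducible under inertia or a unit Kummer
class. It holds for good reduction, and for multiplicative reduction with `p ∣ v(Δ)`. -/
def PeuShape (W : WeierstrassCurve ℤ) (p : ℕ) : Prop :=
  ∀ A : ValuationSubring Qbar, A.LiesOverPrime p →
    InertiaIrreducible W p A ∨ HasUnitKummer W p A

end Fermat.Agent.LLp
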