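import Fermat.Agent.FF.PushPull
import Mathlib.RingTheory.Norm.Basic
import Mathlib.RingTheory.Trace.Basic

/-!
# Trace determinants of twisted local lattices

For a finite separable extension `F'/F` and a place `v` of `F`, the order at `v` of the determinant
of the trace pairing between local bases of `L_v(E)` and `L_v(E')` is that of `L_v(0)` minus the sum
over the places `w` above `v` of `(E w + E' w) * f_w`.
-/

set_option autoImplicit false
set_option linter.unusedSectionVars false

noncomputable section

open AlgebraicCurve Matrix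

namespace Fermat.Agent.LLp

variable {K F F' ι : Type*} [Field K] [Field F] [Field F'] [Algebra K F] [Algebra K F']
  [Algebra F F'] [IsScalarTower K F F'] [Fintype ι] [DecidableEq ι]

variable (F) in
/-- The matrix of traces of products. -/
def trMatrix (b b' : ι → F') : Matrix ι ι F :=
  Matrix.of fun i j => Algebra.trace F F' (b i * b' j)

variable (F) in
/-- The determinant of traces of products. -/
def trDet (b b' : ι → F') : F := (trMatrix F b b').det

theorem trMatrix_combination (C : Matrix ι ι F) {b c : ι → F'} (b' : ι → F')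
    (h : ∀ i, b i = ∑ j, C i j • c j) : trMatrix F b b' = C * trMatrix F c b' := by
  ext i j
  simp only [trMatrix, of_apply, Matrix.mul_apply, h i, Finset.sum_mul, map_sum, smul_mul_assoc,
    map_smul, smul_eq_mul]

theorem trDet_comm (b b' : ι → F') : trDet F b b' = trDet F b' b := by
  rw [trDet, trDet, ← Matrix.det_transpose]
  congr 1
  ext i j
  simp [trMatrix, mul_comm]

theorem trDet_combination (C : Matrix ι ι F) {b c : ι → F'} (b' : ι → F')
    (h : ∀ i, b i = ∑ j, C i j • c j) : trDet F b b' = C.det * trDet F c b' := by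
  rw [trDet, trMatrix_combination C b' h, Matrix.det_mul, trDet]

theorem trDet_smul_left (c : Module.Basis ι F F') (g : F') (b' : ι → F') :
    trDet F (fun i => g * c i) b' = Algebra.norm F g * trDet F c b' := by
  rw [Algebra.norm_eq_matrix_det c, ← Matrix.det_transpose]
  refine trDet_combination _ _ fun i => ?_
  conv_lhs => rw [← c.sum_repr (g * c i)]
  simp [Algebra.leftMulMatrix_eq_repr_mul]

theorem trDet_ne_zero [FiniteDimensional F F'] [Algebra.IsSeparable F F']
    (b b' : Module.Basis ι F F') : trDet F b b' ≠ 0 := by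
  have h : trDet F b b' = (b.toMatrix b')ᵀ.det * trDet F b b := by
    rw [trDet_comm]
    exact trDet_combination _ _ fun i => by
      conv_lhs => rw [← b.sum_repr (b' i)]
      rfl
  rw [h]
  refine mul_ne_zero ?_ ?_
  · rw [Matrix.det_transpose]
    intro h0
    have := congrArg Matrix.det (b.toMatrix_mul_toMatrix_flip b')
    rw [Matrix.det_mul, h0, zero_mul, Matrix.det_one] at this
    exact zero_ne_one this
  · have : trMatrix F b b = Algebra.traceMatrix F b := by
      ext i j; rfl
    rw [trDet, this, ← Algebra.discr_def]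
    exact Algebra.discr_not_zero_of_basis F b

/-- Membership in the lattice at `v` twisted by `E`. -/
def InLattice [Algebra.IsIntegral F F'] (v : Place K F) (E : Place K F' → ℤ) (f : F') : Prop :=
  ∀ w : Place K F', w.restrict F = v → f = 0 ∨ -E w ≤ w.ord f

/-- A basis generating the lattice at `v` twisted by `E`. -/
structure IsLocalBasis [Algebra.IsIntegral F F'] (v : Place K F) (E : Place K F' → ℤ) (b : Module.Basis ι F F') : Prop where
  mem : ∀ i, InLattice v E (b i)
  coeff : ∀ f, InLattice v E f → ∀ i, b.repr f i ∈ v.toValuationSubring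

theorem ord_det_nonneg (v : Place K F) {M : Matrix ι ι F}
    (h : ∀ i j, M i j ∈ v.toValuationSubring) : M.det ∈ v.toValuationSubring := by
  rw [Matrix.det_apply]
  refine sum_mem fun σ _ => ?_
  rw [Units.smul_def, zsmul_eq_mul]
  exact mul_mem (intCast_mem _ _) (prod_mem fun i _ => h _ _)

theorem IsLocalBasis.ord_trDet_eq [FiniteDimensional F F'] [Algebra.IsSeparable F F']
    {v : Place K F} {E : Place K F' → ℤ} {b c : Module.Basis ι F F'}
    (hb : IsLocalBasis v E b) (hc : IsLocalBasis v E c) (b' : Module.Basis ι F F') :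
    v.ord (trDet F b b') = v.ord (trDet F c b') := by
  have h : trDet F b b' = (c.toMatrix b)ᵀ.det * trDet F c b' :=
    trDet_combination _ _ fun i => by
      conv_lhs => rw [← c.sum_repr (b i)]
      rfl
  have h1 : (c.toMatrix b).det ∈ v.toValuationSubring :=
    ord_det_nonneg v fun i j => hc.coeff _ (hb.mem j) i
  have h2 : (b.toMatrix c).det ∈ v.toValuationSubring :=
    ord_det_nonneg v fun i j => hb.coeff _ (hc.mem j) i
  have h3 : (c.toMatrix b).det * (b.toMatrix c).det = 1 := by
    rw [← Matrix.det_mul, c.toMatrix_mul_toMatrix_flip b, Matrix.det_one]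
  have hne : (c.toMatrix b).det ≠ 0 := left_ne_zero_of_mul_eq_one h3
  have hne2 : (b.toMatrix c).det ≠ 0 := right_ne_zero_of_mul_eq_one h3
  rw [h, Matrix.det_transpose, v.ord_mul hne (trDet_ne_zero c b')]
  have h4 := v.ord_mul hne hne2
  rw [h3, v.ord_one] at h4
  have h5 := (FF.PlacesOver.mem_iff_ord v).1 h1
  have h6 := (FF.PlacesOver.mem_iff_ord v).1 h2
  omega

variable (F) in
/-- Multiplication by a nonzero element. -/
def mulEquiv {g : F'} (hg : g ≠ 0) : F' ≃ₗ[F] F' where
  toFun x := g * x
  invFun x := g⁻¹ * x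
  left_inv x := inv_mul_cancel_left₀ hg x
  right_inv x := mul_inv_cancel_left₀ hg x
  map_add' := mul_add g
  map_smul' c x := mul_smul_comm c g x

theorem IsLocalBasis.mul_left [FiniteDimensional F F'] {v : Place K F} {E E₀ : Place K F' → ℤ}
    {c : Module.Basis ι F F'} (hc : IsLocalBasis v E₀ c) {g : F'} (hg : g ≠ 0)
    (hE : ∀ w : Place K F', w.restrict F = v → E w = E₀ w - w.ord g) :
    IsLocalBasis v E (c.map (mulEquiv F hg)) where
  mem i w hw := by
    rcases hc.mem i w hw with h | h
    · exact absurd h (c.ne_zero i)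
    · right
      rw [Module.Basis.map_apply]
      show -E w ≤ w.ord (g * c i)
      rw [w.ord_mul hg (c.ne_zero i), hE w hw]
      omega
  coeff f hf i := by
    have hmem : InLattice v E₀ (g⁻¹ * f) := fun w hw => by
      rcases hf w hw with rfl | h
      · simp
      · by_cases hf0 : f = 0
        · simp [hf0]
        right
        rw [w.ord_mul (inv_ne_zero hg) hf0, w.ord_inv]
        have := hE w hw
        omega
    rw [Module.Basis.map_repr, LinearEquiv.trans_apply]
    convert hc.coeff _ hmem i
    rfl

/-- A function with prescribed orders at all places above `v`. -/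
theorem exists_ord_over [FiniteDimensional F F'] [Algebra.IsSeparable F F'] (v : Place K F)
    (n : Place K F' → ℤ) :
    ∃ g : F', g ≠ 0 ∧ ∀ w : Place K F', w.restrict F = v → w.ord g = n w := by
  classical
  choose f hf0 hf1 hf using fun w : Place K F' => FF.exists_ord_eq_one_at_fiber (F := F) w
  refine ⟨∏ w ∈ FF.overFinset F' v, f w ^ n w,
    Finset.prod_ne_zero_iff.2 fun w _ => zpow_ne_zero _ (hf0 w), fun w hw => ?_⟩
  have key : ∀ s : Finset (Place K F'),
      w.ord (∏ u ∈ s, f u ^ n u) = ∑ u ∈ s, n u * w.ord (f u) := by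
    intro s
    induction s using Finset.induction_on with
    | empty => simp
    | insert a s ha ih =>
      rw [Finset.prod_insert ha, Finset.sum_insert ha, w.ord_mul (zpow_ne_zero _ (hf0 a))
        (Finset.prod_ne_zero_iff.2 fun u _ => zpow_ne_zero _ (hf0 u)), w.ord_zpow, ih]
  rw [key, Finset.sum_eq_single_of_mem w (FF.mem_overFinset.2 hw), hf1, mul_one]
  intro u hu hne
  rw [hf u w (hw.trans (FF.mem_overFinset.1 hu).symm) (Ne.symm hne), mul_zero]

/-- The order of the trace determinant of twisted local bases. -/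
theorem ord_trDet_twist [FiniteDimensional F F'] [Algebra.IsSeparable F F'] {v : Place K F}
    {E E' : Place K F' → ℤ} {b b' c : Module.Basis ι F F'} (hb : IsLocalBasis v E b)
    (hb' : IsLocalBasis v E' b') (hc : IsLocalBasis v (fun _ => 0) c) :
    v.ord (trDet F b b') = v.ord (trDet F c c) -
      ∑ w ∈ FF.overFinset F' v, (E w + E' w) * (w.inertiaDeg F : ℤ) := by
  obtain ⟨g, hg, hgE⟩ := exists_ord_over (F' := F') v fun w => -E w
  obtain ⟨g', hg', hgE'⟩ := exists_ord_over (F' := F') v fun w => -E' w
  have hcg := hc.mul_left hg (E := E) fun w hw => by rw [hgE w hw]; ring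
  have hcg' := hc.mul_left hg' (E := E') fun w hw => by rw [hgE' w hw]; ring
  rw [hb.ord_trDet_eq hcg, trDet_comm, hb'.ord_trDet_eq hcg', trDet_comm]
  change v.ord (trDet F (fun i => g * c i) (fun i => g' * c i)) = _
  have h0 : trDet F c c ≠ 0 := trDet_ne_zero c c
  rw [trDet_smul_left c g, trDet_comm, trDet_smul_left c g',
    v.ord_mul (Algebra.norm_ne_zero_iff.2 hg)
      (mul_ne_zero (Algebra.norm_ne_zero_iff.2 hg') h0),
    v.ord_mul (Algebra.norm_ne_zero_iff.2 hg') h0, FF.ord_norm_eq_sum v hg,
    FF.ord_norm_eq_sum v hg']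
  have e1 : ∑ w ∈ FF.overFinset F' v, w.ord g * (w.inertiaDeg F : ℤ) =
      ∑ w ∈ FF.overFinset F' v, -E w * (w.inertiaDeg F : ℤ) :=
    Finset.sum_congr rfl fun w hw => by rw [hgE w (FF.mem_overFinset.1 hw)]
  have e2 : ∑ w ∈ FF.overFinset F' v, w.ord g' * (w.inertiaDeg F : ℤ) =
      ∑ w ∈ FF.overFinset F' v, -E' w * (w.inertiaDeg F : ℤ) :=
    Finset.sum_congr rfl fun w hw => by rw [hgE' w (FF.mem_overFinset.1 hw)]
  rw [e1, e2]
  simp only [add_mul, Finset.sum_add_distrib, neg_mul, Finset.sum_neg_distrib]
  ring

end Fermat.Agent.LLp
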